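import Fermat.Agent.LT.I8.FinalG
import Fermat.Agent.CFT2.QR2

/-!
# Local components of ray class characters

* `RayChar T n ψ` : `ψ` is trivial on the principal divisors of elements close to `1` at `T`;
* `locComp h P : Kˣ →* G` : the local component at `P ∈ T`;
* `locComp_eq_one` : continuity; `ev_mul_prod` : product formula;
* `locComp_eq_one_of_tame` : if `ψ ^ m = 1`, `P | q`, `q` prime to `m`, the component at `P` is
  trivial on elements `≡ 1 mod P`;
* `ray_tame` : the corresponding statement for `ψ`.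
-/

set_option autoImplicit false
set_option linter.unusedSectionVars false

open NumberField IsDedekindDomain Module

namespace Fermat.Agent.LT.I8

open Fermat.Agent.CFT Fermat.Agent.CFT2 Fermat.Agent.CFT.SUH Fermat.Agent.CFT.NormGrp
open Fermat.Agent.CFT.HasseNorm (exists_family)

section approx

variable {K : Type*} [Field K] [NumberField K]

/-- Weak approximation. -/
theorem exists_close {T : Set (HeightOneSpectrum (𝓞 K))} (hT : T.Finite) (n : ℕ)
    (x : HeightOneSpectrum (𝓞 K) → Kˣ) :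
    ∃ y : Kˣ, ∀ v ∈ T, Close {v} n (y * (x v)⁻¹) := by
  obtain ⟨m, e, he, hpls⟩ := exists_family T hT
  have h1 := fun i ↦ exists_valuation_le (e i) n
  choose δ hδ0 hδ using h1
  obtain ⟨ε, hε0, hε⟩ := exists_min_pos δ hδ0
  obtain ⟨y, hy⟩ := exists_approx_units he (fun i ↦ (e i).toU (x (e i).v)) hε0
  refine ⟨y, fun v hv ↦ ?_⟩
  rw [← hpls] at hv
  obtain ⟨i, rfl⟩ := hv
  rintro _ rfl
  refine hδ i _ ?_
  refine lt_of_eq_of_lt ?_ ((hy i).trans_le (hε i))
  rw [← _root_.map_div, map_sub, map_one, LocEmb.coe_toU, div_eq_mul_inv]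

/-- `y` is close to `x` at `P` and to `1` at the other places of `T`. -/
def Near (T : Set (HeightOneSpectrum (𝓞 K))) (n : ℕ) (P : HeightOneSpectrum (𝓞 K))
    (x y : Kˣ) : Prop :=
  Close {P} n (y * x⁻¹) ∧ ∀ Q ∈ T, Q ≠ P → Close {Q} n y

theorem close_iff {T : Set (HeightOneSpectrum (𝓞 K))} {n : ℕ} {x : Kˣ} :
    Close T n x ↔ ∀ P ∈ T, Close {P} n x :=
  ⟨fun h P hP Q hQ ↦ h Q (by rw [Set.mem_singleton_iff.1 hQ]; exact hP),
    fun h P hP ↦ h P hP P rfl⟩

theorem close_one (T : Set (HeightOneSpectrum (𝓞 K))) (n : ℕ) : Close T n 1 := fun v _ => by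
  rw [Units.val_one, sub_self, map_zero]
  exact zero_le

theorem close_mul {T : Set (HeightOneSpectrum (𝓞 K))} {n : ℕ} (hn : 1 ≤ n) {x y : Kˣ}
    (hx : Close T n x) (hy : Close T n y) : Close T n (x * y) :=
  (closeSub T hn).mul_mem hx hy

theorem close_inv {T : Set (HeightOneSpectrum (𝓞 K))} {n : ℕ} (hn : 1 ≤ n) {x : Kˣ}
    (hx : Close T n x) : Close T n x⁻¹ :=
  (closeSub T hn).inv_mem hx

theorem exists_near {T : Set (HeightOneSpectrum (𝓞 K))} (hT : T.Finite) (n : ℕ)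
    (P : HeightOneSpectrum (𝓞 K)) (x : Kˣ) : ∃ y, Near T n P x y := by
  classical
  obtain ⟨y, hy⟩ := exists_close (hT.insert P) n (Function.update 1 P x)
  refine ⟨y, ?_, fun Q hQ hQP ↦ ?_⟩
  · have := hy P (Set.mem_insert _ _)
    rwa [Function.update_self] at this
  · have := hy Q (Set.mem_insert_of_mem _ hQ)
    rwa [Function.update_of_ne hQP, Pi.one_apply, inv_one, mul_one] at this

theorem Near.mono {T : Set (HeightOneSpectrum (𝓞 K))} {m n : ℕ} (h : m ≤ n)
    {P : HeightOneSpectrum (𝓞 K)} {x y : Kˣ} (hy : Near T n P x y) : Near T m P x y :=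
  ⟨close_mono h hy.1, fun Q hQ hQP ↦ close_mono h (hy.2 Q hQ hQP)⟩

theorem Near.mul {T : Set (HeightOneSpectrum (𝓞 K))} {n : ℕ} (hn : 1 ≤ n)
    {P : HeightOneSpectrum (𝓞 K)} {x y x' y' : Kˣ} (h : Near T n P x y) (h' : Near T n P x' y') :
    Near T n P (x * x') (y * y') := by
  refine ⟨?_, fun Q hQ hQP ↦ close_mul hn (h.2 Q hQ hQP) (h'.2 Q hQ hQP)⟩
  have h1 : y * y' * (x * x')⁻¹ = y * x⁻¹ * (y' * x'⁻¹) := by
    rw [mul_inv, mul_mul_mul_comm]
  rw [h1]
  exact close_mul hn h.1 h'.1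

theorem Near.close_div {T : Set (HeightOneSpectrum (𝓞 K))} {n : ℕ} (hn : 1 ≤ n)
    {P : HeightOneSpectrum (𝓞 K)} {x y y' : Kˣ} (h : Near T n P x y) (h' : Near T n P x y') :
    Close T n (y * y'⁻¹) := by
  rw [close_iff]
  intro Q hQ
  by_cases hQP : Q = P
  · subst hQP
    have h1 : y * y'⁻¹ = y * x⁻¹ * (y' * x⁻¹)⁻¹ := by
      rw [mul_inv, inv_inv, mul_assoc, mul_comm (y'⁻¹) x, inv_mul_cancel_left]
    rw [h1]
    exact close_mul hn h.1 (close_inv hn h'.1)
  · exact close_mul hn (h.2 Q hQ hQP) (close_inv hn (h'.2 Q hQ hQP))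

theorem Near.self {T : Set (HeightOneSpectrum (𝓞 K))} {n : ℕ}
    {P : HeightOneSpectrum (𝓞 K)} {x : Kˣ} (h : ∀ Q ∈ T, Q ≠ P → Close {Q} n x) :
    Near T n P x x :=
  ⟨by rw [mul_inv_cancel]; exact close_one _ _, h⟩

end approx

section comp

variable {K : Type*} [Field K] [NumberField K] {G : Type*} [CommGroup G]

/-- Ray class characters. -/
structure RayChar (T : Set (HeightOneSpectrum (𝓞 K))) (n : ℕ)
    (ψ : HeightOneSpectrum (𝓞 K) → G) : Prop where
  fin : T.Finite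
  pos : 1 ≤ n
  ray : ∀ x : Kˣ, Close T n x → ev ψ (dvs (Additive.ofMul x)) = 1

variable {T : Set (HeightOneSpectrum (𝓞 K))} {n : ℕ} {ψ : HeightOneSpectrum (𝓞 K) → G}

theorem RayChar.mono (h : RayChar T n ψ) {m : ℕ} (hm : n ≤ m) : RayChar T m ψ :=
  ⟨h.fin, h.pos.trans hm, fun x hx ↦ h.ray x (close_mono hm hx)⟩

/-- evaluation at principal divisors -/
noncomputable def evU (ψ : HeightOneSpectrum (𝓞 K) → G) : Kˣ →* G where
  toFun x := ev ψ (dvs (Additive.ofMul x))
  map_one' := by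
    show ev ψ (dvs (Additive.ofMul (1 : Kˣ))) = 1
    rw [ofMul_one, map_zero, ev_zero]
  map_mul' x y := by
    show ev ψ (dvs (Additive.ofMul (x * y))) = _
    rw [dvs_mul, ev_add]

theorem evU_apply (x : Kˣ) : evU ψ x = ev ψ (dvs (Additive.ofMul x)) := rfl

theorem RayChar.evU_eq (h : RayChar T n ψ) {P : HeightOneSpectrum (𝓞 K)} {x y y' : Kˣ}
    (hy : Near T n P x y) (hy' : Near T n P x y') : evU ψ y = evU ψ y' := by
  have h1 := h.ray _ (hy.close_div h.pos hy')
  rwa [← evU_apply, map_mul, map_inv, mul_inv_eq_one] at h1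

/-- The local component at `P`. -/
noncomputable def locComp (h : RayChar T n ψ) (P : HeightOneSpectrum (𝓞 K)) : Kˣ →* G where
  toFun x := (evU ψ (exists_near h.fin n P x).choose)⁻¹
  map_one' := by
    rw [h.evU_eq (exists_near h.fin n P 1).choose_spec (y' := 1)
      (Near.self fun Q _ _ ↦ close_one _ _), map_one, inv_one]
  map_mul' x y := by
    rw [h.evU_eq (exists_near h.fin n P (x * y)).choose_spec
      ((exists_near h.fin n P x).choose_spec.mul h.pos (exists_near h.fin n P y).choose_spec),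
      map_mul, mul_inv]

theorem locComp_eq (h : RayChar T n ψ) {P : HeightOneSpectrum (𝓞 K)} {x y : Kˣ}
    (hy : Near T n P x y) : locComp h P x = (evU ψ y)⁻¹ := by
  show (evU ψ (exists_near h.fin n P x).choose)⁻¹ = _
  rw [h.evU_eq (exists_near h.fin n P x).choose_spec hy]

/-- The local component does not depend on `n`. -/
theorem locComp_mono (h : RayChar T n ψ) {m : ℕ} (hm : n ≤ m) (P : HeightOneSpectrum (𝓞 K)) :
    locComp (h.mono hm) P = locComp h P := by
  ext x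
  obtain ⟨y, hy⟩ := exists_near h.fin m P x
  rw [locComp_eq _ hy, locComp_eq h (hy.mono hm)]

/-- continuity -/
theorem locComp_eq_one (h : RayChar T n ψ) {P : HeightOneSpectrum (𝓞 K)} {x : Kˣ}
    (hx : Close {P} n x) : locComp h P x = 1 := by
  rw [locComp_eq h (y := 1) ⟨by rw [one_mul]; exact close_inv h.pos hx, fun Q _ _ ↦ close_one _ _⟩,
    map_one, inv_one]

theorem locComp_pow (h : RayChar T n ψ) (P : HeightOneSpectrum (𝓞 K)) {m : ℕ}
    (hm : ∀ v, ψ v ^ m = 1) (x : Kˣ) : locComp h P x ^ m = 1 := by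
  obtain ⟨y, hy⟩ := exists_near h.fin n P x
  rw [locComp_eq h hy, inv_pow, inv_eq_one, evU_apply, ev, Finsupp.prod, ← Finset.prod_pow]
  refine Finset.prod_eq_one fun v _ ↦ ?_
  rw [← zpow_natCast, ← zpow_mul, mul_comm, zpow_mul, zpow_natCast, hm, one_zpow]

/-- **Product formula.** -/
theorem evU_mul_prod (h : RayChar T n ψ) (x : Kˣ) :
    evU ψ x * ∏ P ∈ h.fin.toFinset, locComp h P x = 1 := by
  classical
  have h1 := fun P ↦ exists_near h.fin n P x
  choose y hy using h1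
  have h2 : Close T n (x * (∏ P ∈ h.fin.toFinset, y P)⁻¹) := by
    rw [close_iff]
    intro P hP
    have hP' : P ∈ h.fin.toFinset := h.fin.mem_toFinset.2 hP
    have h3 : x * (∏ P ∈ h.fin.toFinset, y P)⁻¹ =
        (y P * x⁻¹)⁻¹ * (∏ Q ∈ h.fin.toFinset.erase P, y Q)⁻¹ := by
      rw [← Finset.mul_prod_erase _ _ hP', mul_inv, mul_inv, inv_inv, ← mul_assoc, mul_comm x,
        mul_comm (y P)⁻¹, mul_comm x]
    rw [h3]
    refine close_mul h.pos (close_inv h.pos (hy P).1) (close_inv h.pos ?_)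
    refine (closeSub {P} h.pos).prod_mem fun Q hQ ↦ ?_
    rw [Finset.mem_erase] at hQ
    exact (hy Q).2 P hP (Ne.symm hQ.1)
  have h4 := h.ray _ h2
  rw [← evU_apply, map_mul, map_inv, map_prod] at h4
  rw [Finset.prod_congr rfl fun P _ ↦ locComp_eq h (hy P), Finset.prod_inv_distrib]
  exact h4

end comp

section tame

variable {K : Type*} [Field K] [NumberField K] {G : Type*} [CommGroup G]
  {T : Set (HeightOneSpectrum (𝓞 K))} {n : ℕ} {ψ : HeightOneSpectrum (𝓞 K) → G}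

theorem close_pow {P : HeightOneSpectrum (𝓞 K)} {q : ℕ} (hq : (q : 𝓞 K) ∈ P.asIdeal) {j : ℕ}
    (hj : 1 ≤ j) {x : Kˣ} (hx : Close {P} j x) : Close {P} (j + 1) (x ^ q) := by
  intro P' hP'
  rw [Set.mem_singleton_iff] at hP'
  rw [hP']
  have h1 := hx _ rfl
  have hv : ∀ m : ℕ, P.valuation K ((x : K) ^ m - 1) ≤ WithZero.exp (-(1 : ℤ)) := fun m ↦ by
    have h2 : Close {P} 1 (x ^ m) := (closeSub {P} le_rfl).pow_mem (close_mono hj hx) m
    have h3 := h2 P rfl
    rwa [Units.val_pow_eq_pow_val] at h3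
  have hq1 : P.valuation K (q : K) ≤ WithZero.exp (-(1 : ℤ)) := by
    have h2 : (q : K) = algebraMap (𝓞 K) K (q : 𝓞 K) := by simp
    rw [h2, HeightOneSpectrum.valuation_of_algebraMap]
    have h3 := (P.intValuation_le_pow_iff_mem (q : 𝓞 K) 1).2 (by rwa [pow_one])
    exact_mod_cast h3
  have h4 : (x : K) ^ q - 1 = (∑ i ∈ Finset.range q, (x : K) ^ i) * (x - 1) :=
    (geom_sum_mul _ _).symm
  have h5 : P.valuation K (∑ i ∈ Finset.range q, (x : K) ^ i) ≤ WithZero.exp (-(1 : ℤ)) := by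
    have h6 : ∑ i ∈ Finset.range q, (x : K) ^ i =
        (∑ i ∈ Finset.range q, ((x : K) ^ i - 1)) + q := by
      rw [Finset.sum_sub_distrib, Finset.sum_const, Finset.card_range, nsmul_eq_mul, mul_one,
        sub_add_cancel]
    rw [h6]
    refine (Valuation.map_add _ _ _).trans (max_le ?_ hq1)
    exact Valuation.map_sum_le _ fun i _ ↦ hv i
  rw [Units.val_pow_eq_pow_val, h4, map_mul]
  refine (mul_le_mul' h5 h1).trans ?_
  rw [← WithZero.exp_add, WithZero.exp_le_exp]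
  push_cast
  omega

theorem close_pow_pow {P : HeightOneSpectrum (𝓞 K)} {q : ℕ} (hq : (q : 𝓞 K) ∈ P.asIdeal)
    {x : Kˣ} (hx : Close {P} 1 x) (k : ℕ) : Close {P} (k + 1) (x ^ q ^ k) := by
  induction k with
  | zero => rwa [pow_zero, pow_one]
  | succ k ih =>
    rw [pow_succ, pow_mul]
    exact close_pow hq (Nat.le_add_left 1 k) ih

/-- **Tameness**: the local component at a place prime to the order of `ψ` is tame. -/
theorem locComp_eq_one_of_tame (h : RayChar T n ψ) {P : HeightOneSpectrum (𝓞 K)} {m q : ℕ}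
    (hm : ∀ v, ψ v ^ m = 1) (hq : (q : 𝓞 K) ∈ P.asIdeal) (hmq : Nat.Coprime m q) {x : Kˣ}
    (hx : Close {P} 1 x) : locComp h P x = 1 := by
  have h1 : locComp h P x ^ m = 1 := locComp_pow h P hm x
  have h2 : locComp h P x ^ q ^ n = 1 := by
    rw [← map_pow]
    exact locComp_eq_one h (close_mono (Nat.le_succ n) (close_pow_pow hq hx n))
  have h3 : orderOf (locComp h P x) ∣ 1 := by
    rw [← (Nat.Coprime.pow_right n hmq : Nat.gcd m (q ^ n) = 1)]
    exact Nat.dvd_gcd (orderOf_dvd_of_pow_eq_one h1) (orderOf_dvd_of_pow_eq_one h2)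
  exact orderOf_eq_one_iff.1 (Nat.dvd_one.1 h3)

/-- If all places of `T` are prime to the order of `ψ`, the conductor exponent is `1`. -/
theorem RayChar.tame (h : RayChar T n ψ) {m : ℕ} (hm : ∀ v, ψ v ^ m = 1)
    (hT : ∀ P ∈ T, ∃ q : ℕ, (q : 𝓞 K) ∈ P.asIdeal ∧ Nat.Coprime m q) : RayChar T 1 ψ := by
  refine ⟨h.fin, le_rfl, fun x hx ↦ ?_⟩
  have h1 := evU_mul_prod h x
  rw [Finset.prod_eq_one, mul_one] at h1
  · exact h1
  · intro P hP
    rw [h.fin.mem_toFinset] at hP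
    obtain ⟨q, hq, hmq⟩ := hT P hP
    exact locComp_eq_one_of_tame h hm hq hmq (close_iff.1 hx P hP)

end tame

end Fermat.Agent.LT.I8
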