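import Fermat.Agent.CFT.Local.PadicAlg

/-!
# Local norm index, all primes (including `p = 2`)

Versions without the hypothesis `p ≠ 2` of the results of `CFT/Local/{Basic,Index,Finite,NormIndex,
PadicAlg}.lean`: one only has to work in a smaller ball around `1`.
-/

open Filter Topology

open scoped NNReal

namespace Fermat.Agent.LT.I8

open Fermat.Agent.CFT.Local Fermat.Agent.CFT.Herbrand

section Pow

variable {K : Type*} [NormedField K] [IsUltrametricDist K]

theorem norm_one_add_pow_sub_le {p : ℕ} (hp : p.Prime) {c κ : ℝ} (hκ : κ ≤ 1)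
    (hc : c ≤ κ * ‖(p : K)‖) {x : K} (hx : ‖x‖ ≤ c) :
    ‖(1 + x) ^ p - 1 - p * x‖ ≤ κ * ‖(p : K)‖ * ‖x‖ := by
  have hp1 : ‖(p : K)‖ ≤ 1 := IsUltrametricDist.norm_natCast_le_one K p
  have hc0 : 0 ≤ c := (norm_nonneg x).trans hx
  have hκp : κ * ‖(p : K)‖ ≤ 1 := mul_le_one₀ hκ (norm_nonneg _) hp1
  have hx1 : ‖x‖ ≤ 1 := hx.trans (hc.trans hκp)
  have hκp0 : 0 ≤ κ * ‖(p : K)‖ := hc0.trans hc
  have hp2 := hp.two_le
  have hexp : (1 + x) ^ p - 1 - p * x =
      ∑ k ∈ Finset.range (p - 1), x ^ (k + 2) * (p.choose (k + 2) : K) := by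
    have h1 : p + 1 = (p - 1) + 1 + 1 := by omega
    rw [add_comm 1 x, add_pow, h1, Finset.sum_range_succ', Finset.sum_range_succ']
    simp only [one_pow, mul_one, pow_zero, Nat.choose_zero_right, Nat.cast_one, zero_add, pow_one,
      Nat.choose_one_right]
    ring
  rw [hexp]
  refine IsUltrametricDist.norm_sum_le_of_forall_le_of_nonneg (by positivity) ?_
  intro k hk
  rw [norm_mul, norm_pow]
  have h2 : ‖x‖ ^ (k + 2) ≤ κ * ‖(p : K)‖ * ‖x‖ := by
    calc ‖x‖ ^ (k + 2) = ‖x‖ ^ (k + 1) * ‖x‖ := by ring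
      _ ≤ ‖x‖ * ‖x‖ := by
          gcongr
          exact pow_le_of_le_one (norm_nonneg _) hx1 (by omega)
      _ ≤ c * ‖x‖ := by gcongr
      _ ≤ κ * ‖(p : K)‖ * ‖x‖ := by gcongr
  calc ‖x‖ ^ (k + 2) * ‖(p.choose (k + 2) : K)‖ ≤ (κ * ‖(p : K)‖ * ‖x‖) * 1 := by
        gcongr
        exact IsUltrametricDist.norm_natCast_le_one K _
    _ = κ * ‖(p : K)‖ * ‖x‖ := by ring

theorem norm_pow_sub_one_of_le {p : ℕ} (hp : p.Prime) (hp0 : (p : K) ≠ 0) {c κ : ℝ}
    (hκ : κ < 1) (hc : c ≤ κ * ‖(p : K)‖) {u : K} (hu : ‖u - 1‖ ≤ c) :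
    ‖u ^ p - 1‖ = ‖(p : K)‖ * ‖u - 1‖ := by
  rcases eq_or_ne u 1 with rfl | hne
  · simp
  have h1 := norm_one_add_pow_sub_le hp hκ.le hc hu
  rw [add_sub_cancel] at h1
  have hpos : 0 < ‖(p : K)‖ * ‖u - 1‖ :=
    mul_pos (norm_pos_iff.mpr hp0) (norm_pos_iff.mpr (sub_ne_zero.mpr hne))
  have h2 : ‖u ^ p - 1 - p * (u - 1)‖ < ‖(p : K) * (u - 1)‖ := by
    rw [norm_mul]
    refine h1.trans_lt ?_
    rw [mul_assoc]
    exact mul_lt_of_lt_one_left hpos hκ
  rw [norm_eq_of_norm_sub_lt h2, norm_mul]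

/-- The `p`-th power map sends `U (c)` onto `U (‖p‖ c)` for `c < ‖p‖`. -/
theorem exists_pow_eq [CompleteSpace K] {p : ℕ} (hp : p.Prime)
    (hp0 : (p : K) ≠ 0) {c κ : ℝ} (hc0 : 0 ≤ c) (hκ0 : 0 ≤ κ) (hκ : κ < 1)
    (hc : c ≤ κ * ‖(p : K)‖) (v : K) (hv : ‖v - 1‖ ≤ ‖(p : K)‖ * c) :
    ∃ u : K, ‖u - 1‖ ≤ c ∧ u ^ p = v := by
  have hp1 : ‖(p : K)‖ ≤ 1 := IsUltrametricDist.norm_natCast_le_one K p
  have hppos : 0 < ‖(p : K)‖ := norm_pos_iff.mpr hp0
  have hc1 : c < 1 := hc.trans_lt ((mul_le_of_le_one_right hκ0 hp1).trans_lt hκ)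
  have hcn : ∀ n : ℕ, κ ^ n * c ≤ c := fun n =>
    mul_le_of_le_one_left hc0 (pow_le_one₀ hκ0 hκ.le)
  have htend : Tendsto (fun n : ℕ => κ ^ n * c) atTop (𝓝 0) := by
    simpa using (tendsto_pow_atTop_nhds_zero_of_lt_one hκ0 hκ).mul_const c
  obtain ⟨u, hu, huv⟩ := succ_approx (F := K) (K := K) (powMonoidHom p) (continuous_pow p)
    (fun n => κ ^ n * c) (fun n => ‖(p : K)‖ * (κ ^ n * c))
    (fun n => (hcn n).trans_lt hc1) (fun n => by simpa using hcn n) htend
    (fun n => (mul_le_of_le_one_left (by positivity) hp1).trans_lt ((hcn n).trans_lt hc1))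
    (by simpa using htend.const_mul ‖(p : K)‖)
    (by
      intro n v hv
      refine ⟨1 + (v - 1) / p, ?_, ?_⟩
      · rw [add_sub_cancel_left, norm_div, div_le_iff₀ hppos, mul_comm]
        exact hv
      · have hx : ‖(v - 1) / (p : K)‖ ≤ κ ^ n * c := by
          rw [norm_div, div_le_iff₀ hppos, mul_comm]
          exact hv
        have h1 := norm_one_add_pow_sub_le hp hκ.le hc (hx.trans (hcn n))
        rw [powMonoidHom_apply, norm_sub_rev]
        have h2 : (1 + (v - 1) / (p : K)) ^ p - v =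
            (1 + (v - 1) / (p : K)) ^ p - 1 - p * ((v - 1) / (p : K)) := by
          field_simp; ring
        rw [h2]
        refine h1.trans ?_
        calc κ * ‖(p : K)‖ * ‖(v - 1) / (p : K)‖ ≤ κ * ‖(p : K)‖ * (κ ^ n * c) := by gcongr
          _ = ‖(p : K)‖ * (κ ^ (n + 1) * c) := by ring)
    v (by simpa using hv)
  exact ⟨u, by simpa using hu, huv⟩

theorem U_map_pow [CompleteSpace K] {p : ℕ} (hp : p.Prime)
    (hp0 : (p : K) ≠ 0) {ρ κ : ℝ≥0} (hκ : κ < 1) (hρ : ρ ≤ κ * ‖(p : K)‖₊) :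
    (U K ρ).map (powMonoidHom p) = U K (‖(p : K)‖₊ * ρ) := by
  have hp1 : ‖(p : K)‖₊ ≤ 1 := IsUltrametricDist.norm_natCast_le_one K p
  have hρ1 : ρ < 1 := hρ.trans_lt ((mul_le_of_le_one_right (by positivity) hp1).trans_lt hκ)
  have hρ2 : ‖(p : K)‖₊ * ρ < 1 := (mul_le_of_le_one_left (by positivity) hp1).trans_lt hρ1
  apply le_antisymm
  · rintro _ ⟨u, hu, rfl⟩
    rw [SetLike.mem_coe, mem_U_of_lt hρ1] at hu
    rw [mem_U_of_lt hρ2, powMonoidHom_apply, Units.val_pow_eq_pow_val]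
    rw [norm_pow_sub_one_of_le hp hp0 (c := ρ) (κ := κ) (by exact_mod_cast hκ)
      (by exact_mod_cast hρ) hu]
    push_cast
    gcongr
  · intro v hv
    rw [mem_U_of_lt hρ2] at hv
    obtain ⟨u, hu, huv⟩ := exists_pow_eq hp hp0 (c := ρ) (κ := κ) (by positivity) (by positivity)
      (by exact_mod_cast hκ) (by exact_mod_cast hρ) (v : K) (by exact_mod_cast hv)
    have hu0 : u ≠ 0 := by
      rintro rfl
      rw [zero_pow hp.ne_zero] at huv
      exact v.ne_zero huv.symm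
    refine ⟨Units.mk0 u hu0, (mem_U_of_lt hρ1).mpr hu, ?_⟩
    ext
    simpa using huv

theorem eq_one_of_pow_eq_one_of_mem_U {p : ℕ} (hp : p.Prime)
    (hp0 : (p : K) ≠ 0) {ρ κ : ℝ≥0} (hκ : κ < 1) (hρ : ρ ≤ κ * ‖(p : K)‖₊) {u : Kˣ}
    (hu : u ∈ U K ρ) (h : u ^ p = 1) : u = 1 := by
  have hp1 : ‖(p : K)‖₊ ≤ 1 := IsUltrametricDist.norm_natCast_le_one K p
  have hρ1 : ρ < 1 := hρ.trans_lt ((mul_le_of_le_one_right (by positivity) hp1).trans_lt hκ)
  have h1 := norm_pow_sub_one_of_le hp hp0 (c := ρ) (κ := κ) (by exact_mod_cast hκ)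
    (by exact_mod_cast hρ) ((mem_U_of_lt hρ1).mp hu)
  rw [← Units.val_pow_eq_pow_val, h, Units.val_one, sub_self, norm_zero] at h1
  have h2 : ‖(p : K)‖ ≠ 0 := norm_ne_zero_iff.mpr hp0
  have h3 : ‖(u : K) - 1‖ = 0 := by
    rcases mul_eq_zero.mp h1.symm with h | h
    · exact absurd h h2
    · exact h
  ext
  rw [Units.val_one]
  exact sub_eq_zero.mp (norm_eq_zero.mp h3)

end Pow

section Padic

variable (q : ℕ) [Fact q.Prime] (K : Type*) [NormedField K] [NormedAlgebra ℚ_[q] K]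
variable [FiniteDimensional ℚ_[q] K] [IsUltrametricDist K]

/-- The homomorphism `ℤ × U(‖q‖²) → Kˣ`, `(n, u) ↦ q ^ n u`. -/
noncomputable def iotaHom : Multiplicative ℤ × U K (‖(q : K)‖₊ * ‖(q : K)‖₊) →* Kˣ :=
  (zpowersHom Kˣ (qUnit q K)).coprod (U K (‖(q : K)‖₊ * ‖(q : K)‖₊)).subtype

omit [FiniteDimensional ℚ_[q] K] in
theorem iotaHom_apply (n : Multiplicative ℤ) (u : U K (‖(q : K)‖₊ * ‖(q : K)‖₊)) :
    iotaHom q K (n, u) = qUnit q K ^ (Multiplicative.toAdd n) * u := rfl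

omit [FiniteDimensional ℚ_[q] K] in
theorem U_le_U : U K (‖(q : K)‖₊ * ‖(q : K)‖₊) ≤ U K ‖(q : K)‖₊ :=
  U_mono (mul_le_of_le_one_left (by positivity)
    (by exact_mod_cast (norm_natCast_q_lt_one q K).le))

omit [FiniteDimensional ℚ_[q] K] in
theorem iotaHom_injective : Function.Injective (iotaHom q K) := by
  intro x y hxy
  have h := Fermat.Agent.CFT.Local.iotaHom_injective q K
    (a₁ := (x.1, ⟨x.2, U_le_U q K x.2.2⟩)) (a₂ := (y.1, ⟨y.2, U_le_U q K y.2.2⟩)) hxy
  have h1 := congrArg Prod.fst h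
  have h2 := congrArg Prod.snd h
  refine Prod.ext h1 (Subtype.ext ?_)
  exact congrArg (fun u : U K ‖(q : K)‖₊ => (u : Kˣ)) h2

theorem iotaHom_index_ne_zero : (iotaHom q K).range.index ≠ 0 := by
  have hq1 := norm_natCast_q_lt_one q K
  have hq0 := natCast_q_ne_zero q K
  have hqq : (q : ℕ) ≠ 0 := (Fact.out : q.Prime).ne_zero
  have hrel : (U K (‖(q : K)‖₊ * ‖(q : K)‖₊)).relIndex (U K ‖(q : K)‖₊) ≠ 0 := by
    rw [relIndex_U hq0 le_rfl hq1, index_mulO_q]
    exact pow_ne_zero _ hqq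
  have hle : (iotaHom q K).range ≤ (Fermat.Agent.CFT.Local.iotaHom q K).range := by
    rintro _ ⟨x, rfl⟩
    exact ⟨(x.1, ⟨x.2, U_le_U q K x.2.2⟩), rfl⟩
  rw [← Subgroup.relIndex_mul_index hle]
  refine mul_ne_zero ?_ (Fermat.Agent.CFT.Local.iotaHom_index_ne_zero q K)
  -- the relative index divides `hrel`
  have h3 : ((iotaHom q K).range).relIndex ((Fermat.Agent.CFT.Local.iotaHom q K).range) ∣
      (U K (‖(q : K)‖₊ * ‖(q : K)‖₊)).relIndex (U K ‖(q : K)‖₊) := by
    have hsup : (Fermat.Agent.CFT.Local.iotaHom q K).range =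
        (iotaHom q K).range ⊔ U K ‖(q : K)‖₊ := by
      apply le_antisymm
      · rintro _ ⟨x, rfl⟩
        rw [Fermat.Agent.CFT.Local.iotaHom_apply]
        refine Subgroup.mul_mem_sup ⟨(x.1, 1), ?_⟩ x.2.2
        rw [iotaHom_apply]; simp
      · refine sup_le hle ?_
        intro u hu
        exact ⟨(1, ⟨u, hu⟩), by rw [Fermat.Agent.CFT.Local.iotaHom_apply]; simp⟩
    rw [hsup, sup_comm, Subgroup.relIndex_sup_right]
    have h5 : U K (‖(q : K)‖₊ * ‖(q : K)‖₊) ≤ (iotaHom q K).range := by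
      intro u hu
      exact ⟨(1, ⟨u, hu⟩), by rw [iotaHom_apply]; simp⟩
    exact Subgroup.relIndex_dvd_of_le_left _ h5
  exact ne_zero_of_dvd_ne_zero hrel h3

omit [FiniteDimensional ℚ_[q] K] [IsUltrametricDist K] in
theorem nnnorm_q_mul_self_le {p : ℕ} (hp : p.Prime) :
    ‖(q : K)‖₊ * ‖(q : K)‖₊ ≤ ‖(q : K)‖₊ * ‖(p : K)‖₊ := by
  have hq1 := norm_natCast_q_lt_one q K
  have hq1' : ‖(q : K)‖₊ < 1 := by exact_mod_cast hq1
  by_cases hpq : p = q
  · rw [hpq]
  · rw [nnnorm_natCast_prime q K hp hpq]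
    gcongr

theorem index_pow_U {p : ℕ} (hp : p.Prime) :
    (powMonoidHom p : U K (‖(q : K)‖₊ * ‖(q : K)‖₊) →* U K (‖(q : K)‖₊ * ‖(q : K)‖₊)).range.index =
      if p = q then q ^ Module.finrank ℚ_[q] K else 1 := by
  have := completeSpace q K
  have hq1 := norm_natCast_q_lt_one q K
  have hq0 := natCast_q_ne_zero q K
  have hq1' : ‖(q : K)‖₊ < 1 := by exact_mod_cast hq1
  have hp0 : (p : K) ≠ 0 := natCast_ne_zero_of_prime q K hp
  have hle := nnnorm_q_mul_self_le q K hp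
  have h1 : (powMonoidHom p :
      U K (‖(q : K)‖₊ * ‖(q : K)‖₊) →* U K (‖(q : K)‖₊ * ‖(q : K)‖₊)).range =
      (U K (‖(p : K)‖₊ * (‖(q : K)‖₊ * ‖(q : K)‖₊))).subgroupOf
        (U K (‖(q : K)‖₊ * ‖(q : K)‖₊)) := by
    rw [← U_map_pow hp hp0 hq1' hle]
    ext v
    rw [Subgroup.mem_subgroupOf]
    constructor
    · rintro ⟨u, rfl⟩
      exact ⟨u, u.2, rfl⟩
    · rintro ⟨u, hu, huv⟩
      exact ⟨⟨u, hu⟩, Subtype.ext huv⟩
  rw [h1, ← Subgroup.relIndex]
  by_cases hpq : p = q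
  · rw [if_pos hpq, hpq]
    have h2 : ‖(q : K)‖₊ * (‖(q : K)‖₊ * ‖(q : K)‖₊) = ‖(q : K) * (q : K)‖₊ * ‖(q : K)‖₊ := by
      rw [nnnorm_mul]; ring
    have h3 : ‖(q : K)‖₊ * ‖(q : K)‖₊ = ‖(q : K) * (q : K)‖₊ := by rw [nnnorm_mul]
    rw [h2, h3, relIndex_U (mul_ne_zero hq0 hq0) _ hq1, index_mulO_q]
    rw [norm_mul]
    exact mul_le_of_le_one_left (norm_nonneg _) hq1.le
  · rw [if_neg hpq, nnnorm_natCast_prime q K hp hpq, one_mul, Subgroup.relIndex_self]

/-- **The index of `(Kˣ)^p` in `Kˣ`** for a finite extension `K` of `ℚ_q` and a prime `p`: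
`[Kˣ : (Kˣ)^p] = p · |μ_p(K)| · p^d`, the last factor only for `p = q`. -/
theorem index_pow_units {p : ℕ} (hp : p.Prime) :
    (powMonoidHom p : Kˣ →* Kˣ).range.index =
      p * Nat.card (powMonoidHom p : Kˣ →* Kˣ).ker *
        (if p = q then q ^ Module.finrank ℚ_[q] K else 1) := by
  have hq1 := norm_natCast_q_lt_one q K
  have hq1' : ‖(q : K)‖₊ < 1 := by exact_mod_cast hq1
  have hp0 : (p : K) ≠ 0 := natCast_ne_zero_of_prime q K hp
  have hle := nnnorm_q_mul_self_le q K hp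
  have := finite_ker_pow K hp.ne_zero
  have hmain := index_range_mul_card_ker (iotaHom q K) (iotaHom_injective q K)
    (iotaHom_index_ne_zero q K) (powMonoidHom p) (powMonoidHom p)
    (fun c => by simp only [powMonoidHom_apply, map_pow])
  have hrange : (powMonoidHom p :
      Multiplicative ℤ × U K (‖(q : K)‖₊ * ‖(q : K)‖₊) →* _).range =
      (powMonoidHom p : Multiplicative ℤ →* _).range.prod
        (powMonoidHom p : U K (‖(q : K)‖₊ * ‖(q : K)‖₊) →* _).range := by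
    ext ⟨n, u⟩
    rw [Subgroup.mem_prod]
    constructor
    · rintro ⟨⟨m, v⟩, h⟩
      exact ⟨⟨m, congrArg Prod.fst h⟩, ⟨v, congrArg Prod.snd h⟩⟩
    · rintro ⟨⟨m, hm⟩, ⟨v, hv⟩⟩
      exact ⟨(m, v), Prod.ext hm hv⟩
  have hker : (powMonoidHom p :
      Multiplicative ℤ × U K (‖(q : K)‖₊ * ‖(q : K)‖₊) →* _).ker = ⊥ := by
    rw [eq_bot_iff]
    rintro ⟨n, u⟩ h
    rw [MonoidHom.mem_ker, powMonoidHom_apply] at h
    rw [Subgroup.mem_bot]
    have h1 : n ^ p = 1 := congrArg Prod.fst h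
    have h2 : u ^ p = 1 := congrArg Prod.snd h
    have h3 : n = 1 := by
      have : p • Multiplicative.toAdd n = 0 := h1
      rw [smul_eq_zero] at this
      rcases this with h | h
      · exact absurd h hp.ne_zero
      · exact h
    have h4 : u = 1 := by
      apply Subtype.ext
      exact eq_one_of_pow_eq_one_of_mem_U hp hp0 hq1' hle u.2 (congrArg Subtype.val h2)
    rw [h3, h4]; rfl
  rw [hrange, hker, Subgroup.index_prod, index_pow_int, index_pow_U q K hp] at hmain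
  rw [Subgroup.card_bot, mul_one] at hmain
  rw [← hmain]
  ring

end Padic

section LocalFields

variable (q : ℕ) [Fact q.Prime] (K F : Type) [NormedField K] [NormedAlgebra ℚ_[q] K]
  [FiniteDimensional ℚ_[q] K] [IsUltrametricDist K]
  [NormedField F] [NormedAlgebra ℚ_[q] F]
  [FiniteDimensional ℚ_[q] F] [IsUltrametricDist F]
  [Algebra K F] [IsScalarTower ℚ_[q] K F] [IsGalois K F]

include q in
theorem index_pow_units_ne_zero {p : ℕ} (hp : p.Prime) :
    (powMonoidHom p : Kˣ →* Kˣ).range.index ≠ 0 := by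
  have := finite_ker_pow K hp.ne_zero
  have h1 : Nat.card (powMonoidHom p : Kˣ →* Kˣ).ker ≠ 0 := Nat.card_pos.ne'
  rw [index_pow_units q K hp]
  have : q ≠ 0 := (Fact.out : q.Prime).ne_zero
  refine mul_ne_zero (mul_ne_zero hp.ne_zero h1) ?_
  split_ifs <;> simp [this]

theorem qM_pow {p : ℕ} (hp : p.Prime) :
    qM (powMonoidHom p : Kˣ →* Kˣ) =
      p * (if p = q then (q : ℚ) ^ Module.finrank ℚ_[q] K else 1) := by
  have := finite_ker_pow K hp.ne_zero
  have h1 : (Nat.card (powMonoidHom p : Kˣ →* Kˣ).ker : ℚ) ≠ 0 := by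
    exact_mod_cast Nat.card_pos.ne'
  rw [qM, index_pow_units q K hp]
  push_cast
  split_ifs
  · field_simp
  · field_simp

include q in
/-- **The norm index** of a cyclic extension of local fields of prime degree `p` is `p`. -/
theorem index_norm_range {p : ℕ} (hp : p.Prime) (hdeg : Module.finrank K F = p) :
    (normU K F).range.index = p := by
  have hpf : Fact p.Prime := ⟨hp⟩
  have hfd : FiniteDimensional K F := FiniteDimensional.right ℚ_[q] K F
  have hcard : Nat.card (F ≃ₐ[K] F) = p := by rw [IsGalois.card_aut_eq_finrank, hdeg]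
  have hcyc : IsCyclic (F ≃ₐ[K] F) := isCyclic_of_prime_card hcard
  obtain ⟨s, hs⟩ := hcyc.exists_generator
  have hsp : s ^ p = 1 := by rw [← hcard]; exact pow_card_eq_one'
  have hiter : ∀ x : Fˣ, (autU s)^[p] x = x := by
    intro x
    ext
    rw [autU_iterate, hsp]; rfl
  have := finite_ker_pow F hp.ne_zero
  obtain ⟨h1, h2, h3, h4, h5⟩ := tate_lemma_mul p (autU s) hiter
    (index_pow_units_ne_zero q F hp) Nat.card_pos.ne'
  rw [hc_nM_dM hs hdeg, hc_dM_nM hs hdeg, Nat.cast_one, div_one, qM_pow q F hp] at h5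
  -- transport to `Kˣ`
  have e : Kˣ ≃* (dM (autU s)).ker :=
    (MonoidHom.ofInjective (inclU_injective K F)).trans
      (MulEquiv.subgroupCongr (ker_dM_autU hs).symm)
  have h6 : qM (powMonoidHom p : (dM (autU s)).ker →* (dM (autU s)).ker) =
      qM (powMonoidHom p : Kˣ →* Kˣ) :=
    qM_congr e _ _ (fun x => by simp only [powMonoidHom_apply, map_pow])
  rw [h6, qM_pow q K hp] at h5
  have hq0 : (q : ℚ) ≠ 0 := by exact_mod_cast (Fact.out : q.Prime).ne_zero
  have hp0 : (p : ℚ) ≠ 0 := by exact_mod_cast hp.ne_zero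
  have hfin : Module.finrank ℚ_[q] F = Module.finrank ℚ_[q] K * p := by
    rw [← hdeg, Module.finrank_mul_finrank]
  have h7 : (((normU K F).range.index : ℚ)) ^ (p - 1) = (p : ℚ) ^ (p - 1) := by
    have h8 : (((normU K F).range.index : ℚ)) ^ (p - 1) * p = p ^ p := by
      by_cases hpq : p = q
      · rw [if_pos hpq, if_pos hpq, mul_pow, ← pow_mul, ← hfin, ← mul_assoc] at h5
        exact mul_right_cancel₀ (pow_ne_zero _ hq0) h5
      · rw [if_neg hpq, if_neg hpq, mul_one] at h5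
        exact h5
    have h9 : (p : ℚ) ^ p = p ^ (p - 1) * p := by
      rw [← pow_succ]; congr 1; have := hp.two_le; omega
    rw [h9] at h8
    exact mul_right_cancel₀ hp0 h8
  have h10 : ((normU K F).range.index) ^ (p - 1) = p ^ (p - 1) := by exact_mod_cast h7
  exact Nat.pow_left_injective (by have := hp.two_le; omega) h10

end LocalFields

section Fields

variable (q : ℕ) [Fact q.Prime]
variable (K : IntermediateField ℚ_[q] (PadicAlgCl q)) [FiniteDimensional ℚ_[q] K]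

theorem index_pow_units_alg {p : ℕ} (hp : p.Prime) :
    (powMonoidHom p : Kˣ →* Kˣ).range.index =
      p * Nat.card (powMonoidHom p : Kˣ →* Kˣ).ker *
        (if p = q then q ^ Module.finrank ℚ_[q] K else 1) :=
  index_pow_units q K hp

/-- The norm index is `p` for cyclic extensions `F/K` of degree `p` (`F` being any field). -/
theorem index_norm_range_alg {p : ℕ} (hp : p.Prime)
    (F : Type) [Field F] [Algebra K F] [IsGalois K F] (hdeg : Module.finrank K F = p) :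
    (normU K F).range.index = p := by
  have hfd : FiniteDimensional K F := Module.finite_of_finrank_pos (by rw [hdeg]; exact hp.pos)
  let φ : F →ₐ[K] PadicAlgCl q := IsAlgClosed.lift
  let nf : NormedField F := NormedField.induced F (PadicAlgCl q) φ φ.injective
  let alg : Algebra ℚ_[q] F := ((algebraMap K F).comp (algebraMap ℚ_[q] K)).toAlgebra
  have hst : IsScalarTower ℚ_[q] K F := IsScalarTower.of_algebraMap_eq (fun x => rfl)
  have hφ : ∀ (r : ℚ_[q]) (x : F), φ (r • x) = r • φ x := by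
    intro r x
    rw [Algebra.smul_def, Algebra.smul_def, map_mul]
    congr 1
    rw [hst.algebraMap_apply, AlgHom.commutes]
    rfl
  let nalg : NormedAlgebra ℚ_[q] F :=
    { alg with
      norm_smul_le := by
        intro r x
        change ‖φ (r • x)‖ ≤ ‖r‖ * ‖φ x‖
        rw [hφ]
        exact norm_smul_le _ _ }
  have hult : IsUltrametricDist F := ⟨fun x y z => by
    change dist (φ x) (φ z) ≤ max (dist (φ x) (φ y)) (dist (φ y) (φ z))
    exact dist_triangle_max _ _ _⟩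
  have hfd2 : FiniteDimensional ℚ_[q] F := FiniteDimensional.trans ℚ_[q] K F
  exact index_norm_range q K F hp hdeg

/-- `[Kˣ : Kˣ^p] = p ^ (2 + δ [K : ℚ_q])` for `K ∋ ζ_p`. -/
theorem index_pow_units_of_mu {p : ℕ} (hp : p.Prime)
    (hK : ∀ z : PadicAlgCl q, z ^ p = 1 → z ∈ K) :
    (powMonoidHom p : Kˣ →* Kˣ).range.index =
      p ^ (2 + if p = q then Module.finrank ℚ_[q] K else 0) := by
  rw [index_pow_units_alg q K hp, card_ker_pow_of_mu q K hp hK]
  split_ifs with h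
  · subst h; ring
  · ring

end Fields

section Groups

variable {q : ℕ} [Fact q.Prime]

/-- Norm index, in terms of the absolute Galois group. -/
theorem norm_index_group {U V : Subgroup (PadicAlgCl q ≃ₐ[ℚ_[q]] PadicAlgCl q)}
    (hV : IsOpen (V : Set (PadicAlgCl q ≃ₐ[ℚ_[q]] PadicAlgCl q))) (hVU : V ≤ U)
    (hn : (V.subgroupOf U).Normal) {p : ℕ} (hp : p.Prime)
    (hidx : V.relIndex U = p) [Fintype (U ⧸ V.subgroupOf U)] :
    ((fixU V).map (normHom U V)).relIndex (fixU U) = p := by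
  have hU : IsOpen (U : Set (PadicAlgCl q ≃ₐ[ℚ_[q]] PadicAlgCl q)) :=
    Subgroup.isOpen_mono hVU hV
  obtain ⟨K, hK1, rfl⟩ := exists_field_of_isOpen q hU
  obtain ⟨F, hF1, rfl⟩ := exists_field_of_isOpen q hV
  have hKF : K ≤ F := by
    rw [← InfiniteGalois.fixedField_fixingSubgroup K, ← InfiniteGalois.fixedField_fixingSubgroup F]
    exact IntermediateField.fixedField_antitone hVU
  have hfd := finite_extendScalars hKF
  have hgal := isGalois_of_normal hKF hn
  rw [relIndex_map_normHom hKF]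
  apply index_norm_range_alg q K hp
  rw [finrank_extendScalars_eq, hidx]

/-- `p`-th powers, in terms of the absolute Galois group. -/
theorem index_pow_fixU {U : Subgroup (PadicAlgCl q ≃ₐ[ℚ_[q]] PadicAlgCl q)}
    (hU : IsOpen (U : Set (PadicAlgCl q ≃ₐ[ℚ_[q]] PadicAlgCl q)))
    {p : ℕ} (hp : p.Prime)
    (hmu : ∀ z : PadicAlgCl q, z ^ p = 1 → ∀ g ∈ U, g z = z) :
    (powMonoidHom p : fixU U →* fixU U).range.index =
      p ^ (2 + if p = q then U.index else 0) := by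
  obtain ⟨K, hK1, rfl⟩ := exists_field_of_isOpen q hU
  have hK : ∀ z : PadicAlgCl q, z ^ p = 1 → z ∈ K := by
    intro z hz
    rw [← InfiniteGalois.fixedField_fixingSubgroup K, IntermediateField.mem_fixedField_iff]
    exact hmu z hz
  have h1 := index_pow_units_of_mu q K hp hK
  rw [IntermediateField.finrank_eq_fixingSubgroup_index] at h1
  rw [← h1]
  have hinj : Function.Injective (Units.map (algebraMap K (PadicAlgCl q) : K →* PadicAlgCl q)) :=
    Units.map_injective (algebraMap K (PadicAlgCl q)).injective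
  let e : Kˣ ≃* fixU K.fixingSubgroup :=
    (MonoidHom.ofInjective hinj).trans (MulEquiv.subgroupCongr (fixU_fixingSubgroup K).symm)
  have h2 : (powMonoidHom p : fixU K.fixingSubgroup →* fixU K.fixingSubgroup).range =
      (powMonoidHom p : Kˣ →* Kˣ).range.map e.toMonoidHom := by
    ext y
    constructor
    · rintro ⟨x, rfl⟩
      refine ⟨(e.symm x) ^ p, ⟨_, rfl⟩, ?_⟩
      change e _ = _
      rw [map_pow, e.apply_symm_apply]
      rfl
    · rintro ⟨_, ⟨x, rfl⟩, rfl⟩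
      refine ⟨e x, ?_⟩
      change _ = e _
      rw [powMonoidHom_apply, powMonoidHom_apply, map_pow]
  rw [h2]
  exact Subgroup.index_map_of_bijective e.bijective _

end Groups

end Fermat.Agent.LT.I8
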