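import Fermat.Agent.CFT.NormGrp
import Fermat.Agent.LT.I8.Local2

/-!
# Local norm groups of Kummer extensions of prime degree `p`, including `p = 2`
-/

set_option autoImplicit false
set_option linter.unusedSectionVars false

open NumberField IsDedekindDomain Module Polynomial Fermat.Agent.Density
open Fermat.Agent.CFT Fermat.Agent.CFT.W Fermat.Agent.CFT.Embed Fermat.Agent.CFT.NormGrp

namespace Fermat.Agent.LT.I8

section alg

variable {L : Type*} [Field L] {p : ℕ} {a : L}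

/-- `-(-1)^p a` is a norm. -/
theorem self_mem_normGrp (hp : p.Prime) (u : Lˣ) (hu : (u : L) = -(-1) ^ p * a) :
    u ∈ normGrp L p a := by
  by_cases h : ∃ c : L, c ^ p = a
  · rw [normGrp_eq_top h]; exact Subgroup.mem_top _
  · push Not at h
    have hirr : Fact (Irreducible (X ^ p - C a : L[X])) :=
      ⟨X_pow_sub_C_irreducible_of_prime hp h⟩
    have hne : (X ^ p - C a : L[X]) ≠ 0 := (monic_X_pow_sub_C a hp.ne_zero).ne_zero
    have hroot : (AdjoinRoot.root (X ^ p - C a : L[X])) ≠ 0 := by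
      intro h0
      have h1 := Kummer.root_pow (p := p) (a := a)
      rw [h0, zero_pow hp.ne_zero] at h1
      have h2 : a = 0 := by
        have := (map_eq_zero (algebraMap L (AdjoinRoot (X ^ p - C a : L[X])))).1 h1.symm
        exact this
      exact h 0 (by rw [h2, zero_pow hp.ne_zero])
    rw [normGrp_eq_range' h]
    refine ⟨Units.mk0 _ hroot, ?_⟩
    ext
    change Algebra.norm L (AdjoinRoot.root (X ^ p - C a : L[X])) = _
    have h1 := Algebra.PowerBasis.norm_gen_eq_coeff_zero_minpoly (AdjoinRoot.powerBasis hne)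
    rw [AdjoinRoot.powerBasis_gen, AdjoinRoot.minpoly_root hne] at h1
    rw [h1, AdjoinRoot.powerBasis_dim, natDegree_X_pow_sub_C, hu]
    have h2 : (X ^ p - C a : L[X]).leadingCoeff = 1 := monic_X_pow_sub_C a hp.ne_zero
    rw [h2, inv_one, C_1, mul_one, coeff_sub, coeff_X_pow, coeff_C_zero,
      if_neg hp.ne_zero.symm]
    ring

end alg

section quad

variable {L : Type*} [Field L] {a : L}

/-- norms from `L(√a)` are of the form `x² - a y²`. -/
theorem exists_sub_of_mem_normGrp (h : ∀ c : L, c ^ 2 ≠ a) {u : Lˣ} (hu : u ∈ normGrp L 2 a) :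
    ∃ x y : L, (u : L) = x ^ 2 - a * y ^ 2 := by
  rw [normGrp_eq_range' h] at hu
  obtain ⟨z, rfl⟩ := hu
  have hp : Nat.Prime 2 := Nat.prime_two
  have hirr : Fact (Irreducible (X ^ 2 - C a : L[X])) :=
    ⟨X_pow_sub_C_irreducible_of_prime hp h⟩
  have hm : (X ^ 2 - C a : L[X]).Monic := monic_X_pow_sub_C a two_ne_zero
  have hne : (X ^ 2 - C a : L[X]) ≠ 0 := hm.ne_zero
  set r := AdjoinRoot.root (X ^ 2 - C a : L[X]) with hr
  have hr2 : r * r = algebraMap L _ a := by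
    rw [← pow_two]; exact Kummer.root_pow (p := 2) (a := a)
  have hd : (X ^ 2 - C a : L[X]).natDegree = 2 := natDegree_X_pow_sub_C
  let b' := (AdjoinRoot.powerBasis' hm).basis
  have hdim : (AdjoinRoot.powerBasis' hm).dim = 2 := by
    rw [AdjoinRoot.powerBasis'_dim]; exact hd
  let b : Basis (Fin 2) L (AdjoinRoot (X ^ 2 - C a : L[X])) := b'.reindex (finCongr hdim)
  have hb0 : b 0 = 1 := by
    rw [Basis.reindex_apply, PowerBasis.basis_eq_pow]
    simp
  have hb1 : b 1 = r := by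
    rw [Basis.reindex_apply, PowerBasis.basis_eq_pow]
    simp [hr]
  obtain ⟨x, y, hxy⟩ : ∃ x y : L, (z : AdjoinRoot (X ^ 2 - C a : L[X])) =
      algebraMap L _ x + algebraMap L _ y * r := by
    refine ⟨b.repr z 0, b.repr z 1, ?_⟩
    conv_lhs => rw [← b.sum_repr z]
    rw [Fin.sum_univ_two, hb0, hb1, Algebra.smul_def, Algebra.smul_def, mul_one]
  refine ⟨x, y, ?_⟩
  change Algebra.norm L (z : AdjoinRoot (X ^ 2 - C a : L[X])) = _
  rw [Algebra.norm_eq_matrix_det b, Matrix.det_fin_two]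
  have h0 : (z : AdjoinRoot (X ^ 2 - C a : L[X])) * b 0 = x • b 0 + y • b 1 := by
    rw [hb0, hb1, hxy, Algebra.smul_def, Algebra.smul_def, mul_one]
    ring
  have h1 : (z : AdjoinRoot (X ^ 2 - C a : L[X])) * b 1 = (y * a) • b 0 + x • b 1 := by
    rw [hb0, hb1, hxy, Algebra.smul_def, Algebra.smul_def, mul_one, map_mul, add_mul, mul_assoc,
      hr2]
    ring
  rw [Algebra.leftMulMatrix_eq_repr_mul, Algebra.leftMulMatrix_eq_repr_mul,
    Algebra.leftMulMatrix_eq_repr_mul, Algebra.leftMulMatrix_eq_repr_mul, h0, h1]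
  simp
  ring

end quad

section loc

variable {q : ℕ} [Fact q.Prime] (L : IntermediateField ℚ_[q] (PadicAlgCl q))
  [FiniteDimensional ℚ_[q] L] {p : ℕ}

theorem index_normGrp (hp : p.Prime) {ζ : L} (hζ : IsPrimitiveRoot ζ p) {a : L}
    (ha : ∀ c : L, c ^ p ≠ a) : (normGrp L p a).index = p := by
  obtain ⟨β, hβ⟩ := IsAlgClosed.exists_pow_nat_eq (a : PadicAlgCl q) hp.pos
  have hβ' : β ^ p = algebraMap L (PadicAlgCl q) a := hβ
  have hmin := Kummer.minpoly_eq hp ha hβ'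
  have hint : IsIntegral L β := (Algebra.IsIntegral.isIntegral (R := ℚ_[q]) β).tower_top
  have hfr : finrank L (IntermediateField.adjoin L {β}) = p := by
    rw [IntermediateField.adjoin.finrank hint, hmin, natDegree_X_pow_sub_C]
  have hfd : FiniteDimensional L (IntermediateField.adjoin L {β}) :=
    FiniteDimensional.of_finrank_pos (by rw [hfr]; exact hp.pos)
  have hfdq : FiniteDimensional ℚ_[q] (IntermediateField.adjoin L {β}) :=
    FiniteDimensional.trans ℚ_[q] L _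
  let _ : NormedAlgebra ℚ_[q] (IntermediateField.adjoin L {β}) :=
    { norm_smul_le := fun r x ↦ norm_smul_le r (x : PadicAlgCl q) }
  have hgen : (IntermediateField.AdjoinSimple.gen L β) ^ p =
      algebraMap L (IntermediateField.adjoin L {β}) a := by
    apply Subtype.ext
    exact hβ'
  obtain ⟨σ, hD⟩ := Kummer.exists_data hp hζ ha hgen hfr
  have hgal := hD.galois
  rw [normGrp_eq_range hp ha hfr hgen]
  exact index_norm_range q L (IntermediateField.adjoin L {β}) hp hfr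

theorem index_pow (hp : p.Prime) {ζ : L} (hζ : IsPrimitiveRoot ζ p) :
    (powMonoidHom p : Lˣ →* Lˣ).range.index =
      p ^ 2 * (if p = q then q ^ finrank ℚ_[q] L else 1) := by
  rw [index_pow_units q L hp]
  congr 1
  have h : (powMonoidHom p : Lˣ →* Lˣ).ker = rootsOfUnity p L := by
    ext x
    rw [MonoidHom.mem_ker, powMonoidHom_apply, mem_rootsOfUnity]
  have : NeZero p := ⟨hp.ne_zero⟩
  rw [h, hζ.card_rootsOfUnity, pow_two]

theorem exists_pow_eq_of_norm_sub_one_lt (hp : p.Prime) (hpq : p ≠ q) {v : L}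
    (hv : ‖v - 1‖ < 1) : ∃ u : L, u ^ p = v := by
  have := Local.completeSpace q L
  have h1 : ‖(p : L)‖ = 1 := by
    have h2 := Local.nnnorm_natCast_prime q L hp hpq
    rw [← coe_nnnorm, h2, NNReal.coe_one]
  obtain ⟨u, -, hu⟩ := exists_pow_eq hp (Local.natCast_ne_zero_of_prime q L hp)
    (norm_nonneg (v - 1)) (norm_nonneg (v - 1)) hv (by rw [h1, mul_one]) v (by rw [h1, one_mul])
  exact ⟨u, hu⟩

/-- If `u` is close to `w ^ p` then `u` is a `p`-th power. -/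
theorem exists_pow_eq_of_norm_sub_lt (hp : p.Prime) (hpq : p ≠ q) {u w : L}
    (hw : w ≠ 0) (h : ‖u - w ^ p‖ < ‖w ^ p‖) : ∃ c : L, c ^ p = u := by
  have hw' : w ^ p ≠ 0 := pow_ne_zero _ hw
  obtain ⟨c, hc⟩ := exists_pow_eq_of_norm_sub_one_lt L hp hpq (v := u / w ^ p) (by
    have h1 : u / w ^ p - 1 = (u - w ^ p) / w ^ p := by
      rw [sub_div, div_self hw']
    rw [h1, norm_div, div_lt_one (norm_pos_iff.2 hw')]
    exact h)
  exact ⟨c * w, by rw [mul_pow, hc, div_mul_cancel₀ _ hw']⟩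

/-- For `q ≠ p` the units of `L` modulo `p`-th powers form a group of order at most `p`,
provided some element of `L` is not a unit times a `p`-th power. -/
theorem unit_eq_pow_mul (hp : p.Prime) (hpq : p ≠ q) {ζ : L}
    (hζ : IsPrimitiveRoot ζ p) {π : L} (hπ0 : π ≠ 0)
    (hπ : ∀ u c : L, ‖u‖ = 1 → π ≠ u * c ^ p) {x : L} (hx : ‖x‖ = 1)
    (hxp : ∀ c : L, c ^ p ≠ x) {u : L} (hu : ‖u‖ = 1) :
    ∃ (i : ℕ) (c : L), u = x ^ i * c ^ p := by
  set U : Subgroup Lˣ := (MonoidHom.ker ((normHom : L →*₀ ℝ).toMonoidHom.comp (Units.coeHom L)))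
    with hU
  have hmemU : ∀ y : Lˣ, y ∈ U ↔ ‖(y : L)‖ = 1 := fun y ↦ by
    rw [hU, MonoidHom.mem_ker]; rfl
  set P : Subgroup Lˣ := (powMonoidHom p : Lˣ →* Lˣ).range with hP
  have hPi : P.index = p ^ 2 := by
    rw [hP, index_pow L hp hζ, if_neg hpq, mul_one]
  have hx0 : x ≠ 0 := by rintro rfl; simp at hx
  have hu0 : u ≠ 0 := by rintro rfl; simp at hu
  have h1 : P.relIndex (U ⊔ P) * (U ⊔ P).index = p ^ 2 := by
    rw [← hPi]; exact Subgroup.relIndex_mul_index le_sup_right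
  have h2 : (U ⊔ P).index ≠ 1 := by
    rw [Ne, Subgroup.index_eq_one]
    intro htop
    have h3 : Units.mk0 π hπ0 ∈ U ⊔ P := by rw [htop]; exact Subgroup.mem_top _
    rw [Subgroup.mem_sup] at h3
    obtain ⟨y, hy, _, ⟨c, rfl⟩, hyc⟩ := h3
    exact hπ y c ((hmemU y).1 hy) (by
      have := congrArg (fun z : Lˣ ↦ (z : L)) hyc
      exact this.symm)
  set X : Subgroup Lˣ := P ⊔ Subgroup.zpowers (Units.mk0 x hx0) with hX
  have hxU : Units.mk0 x hx0 ∈ U := (hmemU _).2 hx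
  have hXle : X ≤ U ⊔ P := by
    rw [hX]
    refine sup_le le_sup_right ?_
    rw [Subgroup.zpowers_le]
    exact Subgroup.mem_sup_left hxU
  have h3 : P.relIndex X * X.relIndex (U ⊔ P) = P.relIndex (U ⊔ P) :=
    Subgroup.relIndex_mul_relIndex _ _ _ le_sup_left hXle
  have h4 : P.relIndex X ≠ 1 := by
    rw [Ne, Subgroup.relIndex_eq_one]
    intro h5
    obtain ⟨c, hc⟩ := h5 (Subgroup.mem_sup_right (Subgroup.mem_zpowers (Units.mk0 x hx0)))
    apply hxp c
    have := congrArg (fun z : Lˣ ↦ (z : L)) hc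
    exact this
  have h5 : X.relIndex (U ⊔ P) = 1 := by
    rw [← h3] at h1
    -- `A * B * C = p ^ 2`, `A ≠ 1`, `C ≠ 1`
    have hA : P.relIndex X ∣ p ^ 2 := ⟨_, by rw [← h1, mul_assoc]⟩
    have hC : (U ⊔ P).index ∣ p ^ 2 := ⟨_, by rw [← h1, mul_comm]⟩
    obtain ⟨i, hi, hi2⟩ := (Nat.dvd_prime_pow hp).1 hA
    obtain ⟨j, hj, hj2⟩ := (Nat.dvd_prime_pow hp).1 hC
    have hi0 : i ≠ 0 := by rintro rfl; exact h4 (by rw [hi2, pow_zero])
    have hj0 : j ≠ 0 := by rintro rfl; exact h2 (by rw [hj2, pow_zero])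
    have hB : X.relIndex (U ⊔ P) * (p ^ (i + j)) = p ^ 2 := by
      rw [← h1, hi2, hj2, pow_add]; ring
    have h6 : p ^ 2 ∣ p ^ (i + j) := pow_dvd_pow _ (by omega)
    have h7 : p ^ (i + j) ∣ p ^ 2 := ⟨_, by rw [← hB, mul_comm]⟩
    have h8 := Nat.dvd_antisymm h6 h7
    rw [← h8] at hB
    exact (mul_eq_right₀ (pow_ne_zero 2 hp.ne_zero)).1 hB
  rw [Subgroup.relIndex_eq_one] at h5
  have h6 : Units.mk0 u hu0 ∈ X := h5 (Subgroup.mem_sup_left ((hmemU _).2 hu))
  rw [hX, Subgroup.mem_sup] at h6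
  obtain ⟨_, ⟨c, rfl⟩, _, ⟨k, rfl⟩, hk⟩ := h6
  have hk' : (c : L) ^ p * x ^ k = u := by
    have := congrArg (fun z : Lˣ ↦ (z : L)) hk
    simpa using this
  refine ⟨(k % p).toNat, c * x ^ (k / p), ?_⟩
  have hp0 : (p : ℤ) ≠ 0 := by exact_mod_cast hp.ne_zero
  have h7 : (((k % p).toNat : ℕ) : ℤ) = k % p := Int.toNat_of_nonneg (Int.emod_nonneg _ hp0)
  rw [← zpow_natCast x, h7, mul_pow, ← zpow_natCast (x ^ (k / p)), ← zpow_mul, ← hk']
  rw [mul_left_comm, ← zpow_add₀ hx0, mul_comm (k / (p : ℤ)), Int.emod_add_mul_ediv]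

/-- `q ≠ 2`, `a` a unit which is not a square: norms from `L(√a)` have the norm of a square. -/
theorem exists_norm_eq_of_mem_normGrp (hq : 2 ≠ q) {a : L} (ha : ‖a‖ = 1)
    (h : ∀ c : L, c ^ 2 ≠ a) {u : Lˣ} (hu : u ∈ normGrp L 2 a) :
    ∃ c : L, ‖(u : L)‖ = ‖c ^ 2‖ := by
  obtain ⟨x, y, hxy⟩ := exists_sub_of_mem_normGrp h hu
  rcases lt_trichotomy ‖x‖ ‖y‖ with hlt | heq | hgt
  · refine ⟨y, ?_⟩
    have h1 : ‖x ^ 2 - a * y ^ 2 - (-(a * y ^ 2))‖ < ‖-(a * y ^ 2)‖ := by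
      rw [sub_neg_eq_add, sub_add_cancel, norm_neg, norm_mul, ha, one_mul, norm_pow, norm_pow]
      exact pow_lt_pow_left₀ hlt (norm_nonneg _) two_ne_zero
    rw [hxy, Local.norm_eq_of_norm_sub_lt h1, norm_neg, norm_mul, ha, one_mul]
  · refine ⟨y, ?_⟩
    have hy0 : y ≠ 0 := by
      rintro rfl
      rw [norm_zero, norm_eq_zero] at heq
      rw [heq] at hxy
      exact u.ne_zero (by rw [hxy]; ring)
    rw [hxy]
    have h2 : x ^ 2 - a * y ^ 2 = ((x / y) ^ 2 - a) * y ^ 2 := by field_simp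
    rw [h2, norm_mul]
    have hx1 : ‖x / y‖ = 1 := by
      rw [norm_div, heq, div_self (norm_ne_zero_iff.2 hy0)]
    have h3 : ‖(x / y) ^ 2 - a‖ = 1 := by
      apply le_antisymm
      · rw [sub_eq_add_neg]
        refine (IsUltrametricDist.norm_add_le_max _ _).trans (max_le ?_ ?_)
        · rw [norm_pow, hx1, one_pow]
        · rw [norm_neg, ha]
      · by_contra hlt
        push Not at hlt
        have hxy0 : x / y ≠ 0 := by
          rw [← norm_ne_zero_iff, hx1]; exact one_ne_zero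
        obtain ⟨c, hc⟩ := exists_pow_eq_of_norm_sub_lt L Nat.prime_two hq (u := a) (w := x / y)
          hxy0 (by
            rw [norm_sub_rev, norm_pow, hx1, one_pow]
            exact hlt)
        exact h c hc
    rw [h3, one_mul]
  · refine ⟨x, ?_⟩
    have h1 : ‖x ^ 2 - a * y ^ 2 - x ^ 2‖ < ‖x ^ 2‖ := by
      rw [sub_sub_cancel_left, norm_neg, norm_mul, ha, one_mul, norm_pow, norm_pow]
      exact pow_lt_pow_left₀ hgt (norm_nonneg _) two_ne_zero
    rw [hxy, Local.norm_eq_of_norm_sub_lt h1]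

/-- the case `p = 2` of `unit_mem_normGrp`. -/
theorem unit_mem_normGrp_two (hq : 2 ≠ q) {π : L} (hπ0 : π ≠ 0)
    (hπ : ∀ u c : L, ‖u‖ = 1 → π ≠ u * c ^ 2) {a : L} (ha : ‖a‖ = 1)
    (u : Lˣ) (hu : ‖(u : L)‖ = 1) : u ∈ normGrp L 2 a := by
  by_cases h : ∃ c : L, c ^ 2 = a
  · rw [normGrp_eq_top h]; exact Subgroup.mem_top _
  push Not at h
  have hζ : IsPrimitiveRoot (-1 : L) 2 := IsPrimitiveRoot.neg_one 0 (by norm_num)
  have hidx := index_normGrp L Nat.prime_two hζ h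
  have key : ∀ w : Lˣ, ‖(w : L)‖ = ‖π‖ → w ∉ normGrp L 2 a := by
    intro w hw hmem
    obtain ⟨c, hc⟩ := exists_norm_eq_of_mem_normGrp L hq ha h hmem
    have hc0 : c ≠ 0 := by
      rintro rfl
      rw [hw, zero_pow two_ne_zero, norm_zero, norm_eq_zero] at hc
      exact hπ0 hc
    refine hπ (π / c ^ 2) c ?_ ?_
    · rw [norm_div, ← hw, hc, div_self]
      rw [norm_ne_zero_iff]; exact pow_ne_zero 2 hc0
    · rw [div_mul_cancel₀ _ (pow_ne_zero 2 hc0)]
  set P : Lˣ := Units.mk0 π hπ0 with hP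
  have h1 : P ∉ normGrp L 2 a := key P rfl
  have h2 : u * P ∉ normGrp L 2 a := key _ (by rw [Units.val_mul, norm_mul, hu, one_mul]; rfl)
  by_contra hcon
  have h3 := (Subgroup.mul_mem_iff_of_index_two hidx (a := u) (b := P))
  tauto

theorem unit_mem_normGrp (hp : p.Prime) (hpq : p ≠ q) {ζ : L}
    (hζ : IsPrimitiveRoot ζ p) {π : L} (hπ0 : π ≠ 0)
    (hπ : ∀ u c : L, ‖u‖ = 1 → π ≠ u * c ^ p) {a : L} (ha : ‖a‖ = 1)
    (u : Lˣ) (hu : ‖(u : L)‖ = 1) : u ∈ normGrp L p a := by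
  by_cases hp2 : p = 2
  · subst hp2
    exact unit_mem_normGrp_two L hpq hπ0 hπ ha u hu
  · exact NormGrp.unit_mem_normGrp L hp hp2 hpq hζ hπ0 hπ ha u hu

end loc

namespace LocEmb

open Fermat.Agent.CFT.NormGrp.LocEmb

variable {K : Type*} [Field K] [NumberField K] (e : LocEmb K) {p : ℕ}

theorem isPow_iff (hp : p.Prime) (hpq : p ≠ e.q) {x : K}
    (hx : e.v.valuation K x = 1) :
    (∃ c : e.L, c ^ p = e.toL x) ↔ ChoosePrime.IsPowMod e.v p x := by
  constructor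
  · rintro ⟨c, hc⟩
    have hc1 : ‖c‖ = 1 := by
      have h1 := congrArg norm hc
      rw [norm_pow, (e.valuation_eq_one_iff x).1 hx] at h1
      exact (pow_eq_one_iff_of_nonneg (norm_nonneg _) hp.ne_zero).1 h1
    obtain ⟨y, hy⟩ := e.exists_toL_near c one_pos
    refine ⟨y, ?_⟩
    rw [e.valuation_lt_one_iff, map_sub, map_pow, ← hc]
    have hy1 : ‖e.toL y‖ ≤ 1 := by
      have h2 : e.toL y = c - (c - e.toL y) := by ring
      rw [h2, sub_eq_add_neg]
      refine (IsUltrametricDist.norm_add_le_max _ _).trans (max_le hc1.le ?_)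
      rw [norm_neg]; exact hy.le
    have h3 : c ^ p - (e.toL y) ^ p =
        (∑ i ∈ Finset.range p, c ^ i * (e.toL y) ^ (p - 1 - i)) * (c - e.toL y) :=
      (geom_sum₂_mul c (e.toL y) p).symm
    rw [h3, norm_mul]
    refine (mul_le_of_le_one_left (norm_nonneg _) ?_).trans_lt hy
    apply IsUltrametricDist.norm_sum_le_of_forall_le_of_nonneg zero_le_one
    intro i _
    rw [norm_mul, norm_pow, norm_pow, hc1, one_pow, one_mul]
    exact pow_le_one₀ (norm_nonneg _) hy1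
  · rintro ⟨c, hc⟩
    rw [e.valuation_lt_one_iff, map_sub, map_pow] at hc
    have hx' : ‖e.toL x‖ = 1 := (e.valuation_eq_one_iff x).1 hx
    have h1 : ‖(e.toL c) ^ p‖ = 1 := by
      rw [← hx']
      apply Local.norm_eq_of_norm_sub_lt
      rw [hx', norm_sub_rev]
      exact hc
    have hc0 : e.toL c ≠ 0 := by
      intro h0
      rw [h0, zero_pow hp.ne_zero, norm_zero] at h1
      exact zero_ne_one h1
    exact exists_pow_eq_of_norm_sub_lt e.L hp hpq hc0 (by rw [h1]; exact hc)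

theorem exists_uniformizer : ∃ π : K, e.v.valuation K π = WithZero.exp (-1 : ℤ) ∧
    e.toL π ≠ 0 := by
  obtain ⟨π, hπ⟩ := e.v.valuation_exists_uniformizer K
  refine ⟨π, hπ, ?_⟩
  rw [Ne, map_eq_zero]
  rintro rfl
  rw [map_zero] at hπ
  exact WithZero.coe_ne_zero hπ.symm

theorem unit_eq_pow_mul (hp : p.Prime) (hpq : p ≠ e.q) {ζ : K}
    (hζ : IsPrimitiveRoot ζ p) {x : K} (hx : e.v.valuation K x = 1)
    (hxp : ¬ ChoosePrime.IsPowMod e.v p x) {u : e.L} (hu : ‖u‖ = 1) :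
    ∃ (i : ℕ) (c : e.L), u = (e.toL x) ^ i * c ^ p := by
  obtain ⟨π, hπ, hπ0⟩ := exists_uniformizer e
  have hζ' : IsPrimitiveRoot (e.toL ζ) p := hζ.map_of_injective e.toL.injective
  refine I8.unit_eq_pow_mul e.L hp hpq hζ' hπ0 (e.uniformizer_ne hp hπ)
    ((e.valuation_eq_one_iff x).1 hx) ?_ hu
  intro c hc
  exact hxp ((isPow_iff e hp hpq hx).1 ⟨c, hc⟩)

theorem unit_mem_N (hp : p.Prime) (hpq : p ≠ e.q) {ζ : K}
    (hζ : IsPrimitiveRoot ζ p) {a : K} (ha : e.v.valuation K a = 1)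
    (u : (e.L)ˣ) (hu : ‖(u : e.L)‖ = 1) : u ∈ e.N p a := by
  obtain ⟨π, hπ, hπ0⟩ := exists_uniformizer e
  have hζ' : IsPrimitiveRoot (e.toL ζ) p := hζ.map_of_injective e.toL.injective
  exact unit_mem_normGrp e.L hp hpq hζ' hπ0 (e.uniformizer_ne hp hπ)
    ((e.valuation_eq_one_iff a).1 ha) u hu

theorem toU_mem_N_of_unit (hp : p.Prime) (hpq : p ≠ e.q) {ζ : K}
    (hζ : IsPrimitiveRoot ζ p) {a : K} (ha : e.v.valuation K a = 1)
    (x : Kˣ) (hx : e.v.valuation K (x : K) = 1) : e.toU x ∈ e.N p a :=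
  unit_mem_N e hp hpq hζ ha _ ((e.valuation_eq_one_iff _).1 hx)

theorem index_N (hp : p.Prime) {ζ : K} (hζ : IsPrimitiveRoot ζ p) {a : K}
    (ha : ∀ c : e.L, c ^ p ≠ e.toL a) : (e.N p a).index = p :=
  index_normGrp e.L hp (hζ.map_of_injective e.toL.injective) ha

theorem index_pow (hp : p.Prime) {ζ : K} (hζ : IsPrimitiveRoot ζ p) :
    (powMonoidHom p : (e.L)ˣ →* (e.L)ˣ).range.index =
      p ^ 2 * (if p = e.q then e.q ^ finrank ℚ_[e.q] e.L else 1) :=
  I8.index_pow e.L hp (hζ.map_of_injective e.toL.injective)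

end LocEmb

end Fermat.Agent.LT.I8
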