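import Fermat.Agent.CFT.SUnitsHerbrand

/-!
# Herbrand quotient of `S`-units over totally complex fields, all primes `p` (including `2`)
-/

set_option autoImplicit false
set_option linter.unusedSectionVars false

open NumberField IsDedekindDomain Module

open Fermat.Agent.CFT Fermat.Agent.CFT.SUnits Fermat.Agent.CFT.Herbrand Fermat.Agent.CFT.SUH

namespace Fermat.Agent.LT.I8

section number

variable {K F : Type*} [Field K] [NumberField K] [Field F] [NumberField F] [Algebra K F]

variable (K) in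
theorem finrank_eq_two_mul [IsTotallyComplex K] :
    finrank ℚ K = 2 * (NumberField.Units.rank K + 1) := by
  have h1 := InfinitePlace.card_add_two_mul_card_eq_rank K
  have h2 := InfinitePlace.card_eq_nrRealPlaces_add_nrComplexPlaces K
  have h3 : InfinitePlace.nrRealPlaces K = 0 := IsTotallyComplex.nrRealPlaces_eq_zero K
  have h4 : 0 < finrank ℚ K := finrank_pos
  have h5 : NumberField.Units.rank K = Fintype.card (InfinitePlace K) - 1 := rfl
  omega

theorem rank_eq [IsTotallyComplex K] {p : ℕ} (hdeg : finrank K F = p) :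
    NumberField.Units.rank F + 1 = p * (NumberField.Units.rank K + 1) := by
  have : IsTotallyComplex F := isTotallyComplex_of_algebra K F
  have h1 := finrank_eq_two_mul K
  have h2 := finrank_eq_two_mul F
  have h3 : finrank ℚ K * finrank K F = finrank ℚ F := finrank_mul_finrank ℚ K F
  rw [hdeg, h1, h2] at h3
  have h4 : 2 * (p * (NumberField.Units.rank K + 1)) = 2 * (NumberField.Units.rank F + 1) := by
    rw [← h3]; ring
  omega

variable [IsTotallyComplex K] [IsGalois K F]

/-- **Herbrand quotient of the `S`-units** in a cyclic extension of prime degree of a totally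
complex field: `p * |Ĥ⁰(E_F)| = p^b * |Ĥ⁻¹(E_F)|`. -/
theorem herbrand_sunit {p : ℕ} [hp : Fact p.Prime] (hdeg : finrank K F = p)
    {σ : F ≃ₐ[K] F} (hσ : σ ≠ 1) (S : Set (HeightOneSpectrum (𝓞 K))) [Finite S] :
    hc (dM (sAct S σ)) (nM p (sAct S σ)) ≠ 0 ∧ hc (nM p (sAct S σ)) (dM (sAct S σ)) ≠ 0 ∧
    p * hc (dM (sAct S σ)) (nM p (sAct S σ)) =
      p ^ nonsplit F S * hc (nM p (sAct S σ)) (dM (sAct S σ)) := by
  have hp0 : p ≠ 0 := hp.out.ne_zero
  have hs : ∀ x, (sAct S σ)^[p] x = x := by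
    intro x
    ext
    rw [coe_sAct_iterate, pow_eq_one' hdeg]
    rfl
  have hk := card_ker_pow_sunit (above F S) hp0
  have hi : (powMonoidHom p : (above F S).unit F →* (above F S).unit F).range.index ≠ 0 := by
    rw [index_range_pow _ p hp0]
    exact Nat.mul_ne_zero (pow_ne_zero _ hp0) hk
  obtain ⟨a, b, c, d, e⟩ := tate_lemma_mul p (sAct S σ) hs hi hk
  refine ⟨a, b, ?_⟩
  rw [← SUH.qM_congr (fixedEquiv hdeg hσ S) p, qM_fg _ p hp0 hk,
    qM_fg _ p hp0 (card_ker_pow_sunit S hp0), finrank_sunit, finrank_sunit, ← pow_mul] at e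
  have h1 := card_above_eq (F := F) hp.out hdeg S
  have h2 := rank_eq (K := K) (F := F) hdeg
  have hpp : (0 : ℚ) < p := Nat.cast_pos.2 hp.out.pos
  have h3 : (Nat.card S + Units.rank K) * p + (p - 1) =
      (p - 1) * nonsplit F S + (Nat.card (above F S) + Units.rank F) := by
    have := hp.out.two_le
    have h4 : p * (Units.rank K + 1) = p * Units.rank K + p := by ring
    have h5 : (Nat.card S + Units.rank K) * p = p * Nat.card S + p * Units.rank K := by ring
    omega
  set r : ℚ := (hc (dM (sAct S σ)) (nM p (sAct S σ)) : ℚ) / hc (nM p (sAct S σ)) (dM (sAct S σ))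
    with hr
  have hr0 : 0 < r := div_pos (Nat.cast_pos.2 (Nat.pos_of_ne_zero a))
    (Nat.cast_pos.2 (Nat.pos_of_ne_zero b))
  have h6 : (p * r) ^ (p - 1) = ((p : ℚ) ^ nonsplit F S) ^ (p - 1) := by
    have h7 : (p : ℚ) ^ (Nat.card (above F S) + Units.rank F) ≠ 0 := pow_ne_zero _ hpp.ne'
    apply mul_right_cancel₀ h7
    calc (p * r) ^ (p - 1) * (p : ℚ) ^ (Nat.card (above F S) + Units.rank F)
        = (p : ℚ) ^ (p - 1) * (r ^ (p - 1) * (p : ℚ) ^ (Nat.card (above F S) + Units.rank F)) := by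
          rw [mul_pow]; ring
      _ = (p : ℚ) ^ ((Nat.card S + Units.rank K) * p + (p - 1)) := by
          rw [e, pow_add]; ring
      _ = _ := by
          rw [h3, pow_add, ← pow_mul, mul_comm (p - 1)]
  have h8 : (p : ℚ) * r = (p : ℚ) ^ nonsplit F S := by
    have hp1 : p - 1 ≠ 0 := by have := hp.out.two_le; omega
    exact (pow_left_inj₀ (mul_nonneg hpp.le hr0.le) (pow_nonneg hpp.le _) hp1).1 h6
  have h9 : (p : ℚ) * hc (dM (sAct S σ)) (nM p (sAct S σ)) =
      (p : ℚ) ^ nonsplit F S * hc (nM p (sAct S σ)) (dM (sAct S σ)) := by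
    rw [← h8, hr]
    have : (hc (nM p (sAct S σ)) (dM (sAct S σ)) : ℚ) ≠ 0 := Nat.cast_ne_zero.2 b
    field_simp
  exact_mod_cast h9

/-- `p * |E_K / N E_F| = p ^ b`. -/
theorem relIndex_norm_sunit {p : ℕ} [hp : Fact p.Prime] (hdeg : finrank K F = p)
    {S : Set (HeightOneSpectrum (𝓞 K))} [Finite S] (hS : ClassTrivial S)
    (hur : ∀ w : HeightOneSpectrum (𝓞 F), w ∉ above F S →
      (below K w).asIdeal.ramificationIdx' w.asIdeal = 1) :
    p * (((above F S).unit F).map (nrm K F)).relIndex (S.unit K) = p ^ nonsplit F S := by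
  have h1 : Nat.card (F ≃ₐ[K] F) = p := by rw [IsGalois.card_aut_eq_finrank, hdeg]
  have h2 : Nontrivial (F ≃ₐ[K] F) := by
    rw [← Finite.one_lt_card_iff_nontrivial, h1]
    exact hp.out.one_lt
  obtain ⟨σ, hσ⟩ := exists_ne (1 : F ≃ₐ[K] F)
  rw [relIndex_norm hdeg hσ, (herbrand_sunit hdeg hσ S).2.2, hm1_sunit hdeg hσ hS hur, mul_one]

end number

end Fermat.Agent.LT.I8
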