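import Fermat.Agent.CFT.FirstIneq
import Fermat.Agent.LT.I8.NormGrp2
import Fermat.Agent.LT.I8.SUH2

/-!
# The first inequality (index formula) for Kummer extensions of prime degree of totally complex
fields, `p = 2` allowed
-/

set_option autoImplicit false
set_option linter.unusedSectionVars false

open NumberField IsDedekindDomain Module Polynomial
open Fermat.Agent.CFT Fermat.Agent.CFT.W Fermat.Agent.CFT.Embed Fermat.Agent.CFT.SUnits
open Fermat.Agent.CFT.NormGrp Fermat.Agent.CFT.First

namespace Fermat.Agent.LT.I8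

variable {K : Type*} [Field K] [NumberField K] {ι : Type*} (e : ι → LocEmb K)

section index

variable {F : Type*} [Field F] [NumberField F] [Algebra K F] {p : ℕ} {ζ a : K} {α : F}
  {σ : F ≃ₐ[K] F}

theorem index_H [Finite ι] (he : Function.Injective fun i ↦ (e i).v)
    (hD : Kummer.Data K F p ζ a α σ) (hp : p.Prime) (hζ : IsPrimitiveRoot ζ p)
    (hα : α ≠ 0) : (H e p a).index = p ^ SUH.nonsplit F (pls e) := by
  classical
  have := Fintype.ofFinite ι
  rw [H, index_pi_dep]
  have h1 : ∀ i, ((e i).N p a).index =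
      if (∀ c : (e i).L, c ^ p ≠ (e i).toL a) then p else 1 := by
    intro i
    split_ifs with h
    · exact LocEmb.index_N (e i) hp hζ h
    · push Not at h
      rw [LocEmb.N, normGrp_eq_top h, Subgroup.index_top]
  rw [Finset.prod_congr rfl fun i _ ↦ h1 i, Finset.prod_ite, Finset.prod_const, Finset.prod_const,
    one_pow, mul_one, SUH.nonsplit]
  congr 1
  rw [← Fintype.card_subtype, ← Nat.card_eq_fintype_card]
  let eq := Equiv.ofInjective _ he
  have h2 : ∀ i, (∀ c : (e i).L, c ^ p ≠ (e i).toL a) ↔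
      SUH.gnum F ((eq i : pls e) : HeightOneSpectrum (𝓞 K)) = 1 := by
    intro i
    change _ ↔ SUH.gnum F (pl (e i).φ) = 1
    rw [gnum_eq_one_iff (e i).q hD hp hζ hα]
    constructor
    · intro h c hc hca
      exact h ⟨c, hc⟩ (Subtype.ext hca)
    · intro h c hc
      exact h c.1 c.2 (congrArg Subtype.val hc)
  exact Nat.card_congr (eq.subtypeEquiv h2)

/-- **The index formula.** -/
theorem index_formula [IsTotallyComplex K] [Finite ι] (he : Function.Injective fun i ↦ (e i).v)
    (hD : Kummer.Data K F p ζ a α σ) (hp : p.Prime) (hζ : IsPrimitiveRoot ζ p)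
    (hα : α ≠ 0) (hS : ClassTrivial (pls e))
    (hSp : ∀ v : HeightOneSpectrum (𝓞 K), (p : 𝓞 K) ∈ v.asIdeal → v ∈ pls e)
    (haS : ∀ v : HeightOneSpectrum (𝓞 K), v ∉ pls e → v.valuation K a = 1) :
    (((pls e).unit K).map (diag e) ⊔ H e p a).index =
      p * (((SUH.above F (pls e)).unit F).map (SUH.nrm K F)).relIndex
        ((pls e).unit K ⊓ (H e p a).comap (diag e)) ∧
    (((pls e).unit K).map (diag e) ⊔ H e p a).index ≠ 0 := by
  have := hD.galois
  have : Fact p.Prime := ⟨hp⟩
  set E := (pls e).unit K with hE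
  set C := (H e p a).comap (diag e) with hC
  set NE := ((SUH.above F (pls e)).unit F).map (SUH.nrm K F) with hNE
  have h1 : p * NE.relIndex E = p ^ SUH.nonsplit F (pls e) := by
    apply relIndex_norm_sunit hD.finrank_eq hS
    intro w hw
    exact Unram.unramified_of_valuation_eq_one hp hζ hD _ (fun h ↦ hw (hSp _ h))
      (haS _ (fun h ↦ hw h)) w rfl
  have h2 : (E.map (diag e) ⊔ H e p a).index * C.relIndex E =
      p ^ SUH.nonsplit F (pls e) := by
    rw [← index_H e he hD hp hζ hα, hC, Subgroup.relIndex_comap,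
      ← Subgroup.relIndex_sup_right, mul_comm]
    exact Subgroup.relIndex_mul_index le_sup_right
  have hNEle : NE ≤ E ⊓ C := by
    refine le_inf (norm_mem_unit hD hp hζ hα _) ?_
    rintro _ ⟨y, -, rfl⟩
    exact norm_mem_H e hD hp hζ y
  have h3 : NE.relIndex (E ⊓ C) * C.relIndex E = NE.relIndex E := by
    rw [← Subgroup.inf_relIndex_left E C]
    exact Subgroup.relIndex_mul_relIndex _ _ _ hNEle inf_le_left
  have hpos : p ^ SUH.nonsplit F (pls e) ≠ 0 := pow_ne_zero _ hp.ne_zero
  have h4 : C.relIndex E ≠ 0 := by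
    intro h0
    rw [h0, mul_zero] at h2
    exact hpos h2.symm
  refine ⟨?_, ?_⟩
  · apply Nat.eq_of_mul_eq_mul_right (Nat.pos_of_ne_zero h4)
    rw [h2, mul_assoc, h3, h1]
  · intro h0
    rw [h0, zero_mul] at h2
    exact hpos h2.symm

end index

end Fermat.Agent.LT.I8
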