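import Fermat.Agent.CFT.SecondIneq
import Fermat.Agent.LT.I8.First2

/-!
# The second inequality for Kummer extensions of prime degree over totally complex fields,
`p = 2` allowed
-/

set_option autoImplicit false
set_option linter.unusedSectionVars false

open NumberField IsDedekindDomain Module Polynomial
open Fermat.Agent.CFT Fermat.Agent.CFT.W Fermat.Agent.CFT.Embed Fermat.Agent.CFT.SUnits
open Fermat.Agent.CFT.NormGrp Fermat.Agent.CFT.First Fermat.Agent.CFT.ChoosePrime
open Fermat.Agent.CFT.Second (pw mem_pw pow_mem_pw mem_pw_units relIndex_zpowers_le exists_not_mem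
  Aux exists_unit_mul_pow pls_sum injective_sum exists_embedding_of_eq sum_finrank_le' PV mem_PV
  PV_le_H card_rootsOfUnity' relIndex_pw_unit card_pls)

namespace Fermat.Agent.LT.I8

variable {K : Type*} [Field K] [NumberField K] {p : ℕ}

/-- In `K_v`, `v ∤ p`, the group of units modulo `p`-th powers has order at most `p`. -/
theorem relIndex_units_le (e : LocEmb K) (hp : p.Prime) (hpq : p ≠ e.q) {ζ : K}
    (hζ : IsPrimitiveRoot ζ p) (X : Subgroup (e.L)ˣ) (hX : ∀ x ∈ X, ‖(x : e.L)‖ = 1) :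
    (pw p (e.L)ˣ).relIndex X ≤ p ∧ (pw p (e.L)ˣ).relIndex X ≠ 0 := by
  obtain ⟨π, hπ⟩ := e.v.valuation_exists_uniformizer K
  have hπ0 : e.toL π ≠ 0 := by
    rw [Ne, map_eq_zero]
    rintro rfl
    rw [map_zero] at hπ
    exact WithZero.coe_ne_zero hπ.symm
  have hPi : (pw p (e.L)ˣ).index = p ^ 2 := by
    rw [pw, LocEmb.index_pow e hp hζ, if_neg hpq, mul_one]
  have h1 : (pw p (e.L)ˣ).relIndex (X ⊔ pw p (e.L)ˣ) * (X ⊔ pw p (e.L)ˣ).index = p ^ 2 := by
    rw [← hPi]; exact Subgroup.relIndex_mul_index le_sup_right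
  have h2 : (X ⊔ pw p (e.L)ˣ).index ≠ 1 := by
    rw [Ne, Subgroup.index_eq_one]
    intro htop
    have h3 : Units.mk0 _ hπ0 ∈ X ⊔ pw p (e.L)ˣ := by rw [htop]; exact Subgroup.mem_top _
    rw [Subgroup.mem_sup] at h3
    obtain ⟨y, hy, _, ⟨c, rfl⟩, hyc⟩ := h3
    refine e.uniformizer_ne hp hπ y c (hX y hy) ?_
    have := congrArg (fun z : (e.L)ˣ ↦ (z : e.L)) hyc
    exact this.symm
  rw [Subgroup.relIndex_sup_right] at h1
  have hC : (X ⊔ pw p (e.L)ˣ).index ∣ p ^ 2 := ⟨_, by rw [← h1, mul_comm]⟩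
  obtain ⟨j, hj, hj2⟩ := (Nat.dvd_prime_pow hp).1 hC
  have hj0 : j ≠ 0 := by rintro rfl; exact h2 (by rw [hj2, pow_zero])
  have h0 : (pw p (e.L)ˣ).relIndex X ≠ 0 := by
    intro h0
    rw [h0, zero_mul] at h1
    exact (pow_ne_zero 2 hp.ne_zero) h1.symm
  refine ⟨?_, h0⟩
  have h3 : p ≤ (X ⊔ pw p (e.L)ˣ).index := by
    rw [hj2]
    exact Nat.le_self_pow hj0 p
  have h4 : (pw p (e.L)ˣ).relIndex X * p ≤ p * p := by
    rw [← pow_two, ← h1]
    exact Nat.mul_le_mul_left _ h3
  exact Nat.le_of_mul_le_mul_right h4 hp.pos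

theorem exists_aux (hp : p.Prime) {ζ : K} (hζ : IsPrimitiveRoot ζ p)
    {E : Subgroup Kˣ} {a : Kˣ} {s : ℕ} (hs : (pw p Kˣ).relIndex E = p ^ s) {B : Set (HeightOneSpectrum (𝓞 K))} (hB : B.Finite)
    (hBp : ∀ v : HeightOneSpectrum (𝓞 K), (p : 𝓞 K) ∈ v.asIdeal → v ∈ B)
    (hBE : ∀ x ∈ E, ∀ v ∉ B, v.valuation K (x : K) = 1) (k : ℕ) (hk : k < s) :
    ∃ (κ : Type) (_ : Fintype κ) (T : κ → LocEmb K), Fintype.card κ = k ∧
      Aux p (a : K) E B T := by
  induction k with
  | zero =>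
    refine ⟨Empty, inferInstance, fun x ↦ x.elim, rfl, fun x ↦ x.elim, fun x ↦ x.elim,
      fun x ↦ x.elim, fun u _ ↦ ⟨1, E.one_mem, fun x ↦ x.elim⟩⟩
  | succ k ih =>
    obtain ⟨κ, _, T, hcard, hT⟩ := ih (by omega)
    have hpq : ∀ j, p ≠ (T j).q := fun j h ↦ hT.not_mem j (hBp _ (((T j).q_eq_iff hp).1 h))
    -- the subgroup of elements which are `p`-th powers at all the places of `T`
    set Ek : Subgroup Kˣ := ⨅ j, (pw p ((T j).L)ˣ).comap (T j).toU with hEk
    have h1 : ∀ j, ((pw p ((T j).L)ˣ).comap (T j).toU).relIndex E ≤ p ∧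
        ((pw p ((T j).L)ˣ).comap (T j).toU).relIndex E ≠ 0 := by
      intro j
      rw [Subgroup.relIndex_comap]
      apply relIndex_units_le (T j) hp (hpq j) hζ
      rintro _ ⟨x, hx, rfl⟩
      exact ((T j).valuation_eq_one_iff _).1 (hBE x hx _ (hT.not_mem j))
    have h2 : Ek.relIndex E ≤ p ^ k := by
      rw [hEk, ← hcard, ← Finset.card_univ, ← Finset.prod_const]
      exact (Subgroup.relIndex_iInf_le _).trans (Finset.prod_le_prod' fun j _ ↦ (h1 j).1)
    have h3 : Ek.relIndex E ≠ 0 := Subgroup.relIndex_iInf_ne_zero fun j ↦ (h1 j).2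
    obtain ⟨f, hfk, hfE, hfa⟩ := exists_not_mem hp hs (a := a) hk h2 h3
    obtain ⟨P, hP1, -, hP3, hP4, hP5⟩ := exists_prime hp 1 K hζ f [a] rfl (by
      intro hmem
      apply hfa
      have hle : Subgroup.closure {x | x ∈ [a]} ≤ Subgroup.zpowers a := by
        rw [Subgroup.closure_le]
        intro x hx
        rw [Set.mem_ofPred_eq, List.mem_singleton] at hx
        rw [hx]
        exact Subgroup.mem_zpowers a
      exact (sup_le_sup_right hle _) hmem) (B ∪ Set.range fun j ↦ (T j).v)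
      (hB.union (Set.finite_range _))
    obtain ⟨t, rfl⟩ := LocEmb.exists_locEmb K P
    have htB : t.v ∉ B := fun h ↦ hP1 (Or.inl h)
    have htT : ∀ j, (T j).v ≠ t.v := fun j h ↦ hP1 (Or.inr ⟨j, h⟩)
    have hpt : p ≠ t.q := fun h ↦ htB (hBp _ ((t.q_eq_iff hp).1 h))
    refine ⟨Option κ, inferInstance, fun o ↦ o.elim t T, ?_, ?_, ?_, ?_, ?_⟩
    · rw [Fintype.card_option, hcard]
    · rintro (_ | i) (_ | j) h
      · rfl
      · exact absurd h.symm (htT j)
      · exact absurd h (htT i)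
      · exact congrArg some (hT.inj h)
    · rintro (_ | j)
      · exact htB
      · exact hT.not_mem j
    · rintro (_ | j)
      · exact (hP5 a (List.mem_singleton_self a)).2
      · exact hT.isPow j
    · intro u hu
      obtain ⟨x, hxE, hx⟩ := hT.surj (fun j ↦ u (some j)) (fun j ↦ hu (some j))
      have hx1 : ‖t.toL (x : K)‖ = 1 := (t.valuation_eq_one_iff _).1 (hBE x hxE _ htB)
      have hx0 : t.toL (x : K) ≠ 0 := by
        rw [Ne, map_eq_zero]; exact x.ne_zero
      let u0 : t.L := u none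
      have hu0 : ‖u0‖ = 1 := hu none
      obtain ⟨i, c, hic⟩ := LocEmb.unit_eq_pow_mul t hp hpt hζ hP3 hP4
        (u := u0 / t.toL (x : K)) (by rw [norm_div, hu0, hx1, div_one])
      refine ⟨x * f ^ i, mul_mem hxE (pow_mem hfE i), ?_⟩
      rintro (_ | j)
      · refine ⟨c, ?_⟩
        change u0 = t.toL ((x * f ^ i : Kˣ) : K) * c ^ p
        rw [div_eq_iff hx0] at hic
        rw [hic]
        simp only [Units.val_mul, Units.val_pow_eq_pow_val, map_mul, map_pow]
        ring
      · obtain ⟨d, hd⟩ := hx j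
        have hfj : f ∈ (pw p ((T j).L)ˣ).comap (T j).toU := (Subgroup.mem_iInf.1 hfk) j
        obtain ⟨g, hg⟩ := hfj
        have hg' : (T j).toL (f : K) = (g : (T j).L) ^ p := by
          have := congrArg (fun z : ((T j).L)ˣ ↦ (z : (T j).L)) hg
          exact this.symm
        have key : ∀ w : (T j).L, w = (T j).toL (x : K) * d ^ p →
            w = (T j).toL ((x * f ^ i : Kˣ) : K) * (d * ((g : (T j).L) ^ i)⁻¹) ^ p := by
          rintro w rfl
          have hg0 : (g : (T j).L) ≠ 0 := g.ne_zero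
          simp only [Units.val_mul, Units.val_pow_eq_pow_val, map_mul, map_pow, hg']
          rw [mul_pow, inv_pow, pow_right_comm (g : (T j).L) i p, mul_assoc,
            mul_left_comm (((g : (T j).L) ^ p) ^ i), mul_inv_cancel₀
            (pow_ne_zero i (pow_ne_zero p hg0)), mul_one]
        exact ⟨_, key _ hd⟩

/-- **Key lemma**: an `S ∪ T`-unit which is a `p`-th power at all `v ∈ S` is a `p`-th power. -/
theorem exists_pow_of_local [IsTotallyComplex K] (hp : p.Prime) {ζ : K} (hζ : IsPrimitiveRoot ζ p)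
    {ι κ : Type} [Finite ι] [Finite κ] {e : ι → LocEmb K} {T : κ → LocEmb K} {a : K}
    {B : Set (HeightOneSpectrum (𝓞 K))}
    (he : Function.Injective fun i ↦ (e i).v) (hS : ClassTrivial (pls e))
    (hSp : ∀ v : HeightOneSpectrum (𝓞 K), (p : 𝓞 K) ∈ v.asIdeal → v ∈ pls e)
    (hSB : pls e ⊆ B) (hT : Aux p a ((pls e).unit K) B T) {b : Kˣ}
    (hb : b ∈ (pls e ∪ pls T).unit K) (hb' : ∀ i, ∃ c : (e i).L, c ^ p = (e i).toL (b : K)) :
    ∃ c : K, c ^ p = b := by
  by_contra hcon
  push Not at hcon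
  have hirr : Fact (Irreducible (X ^ p - C (b : K) : K[X])) :=
    ⟨X_pow_sub_C_irreducible_of_prime hp hcon⟩
  let F := AdjoinRoot (X ^ p - C (b : K) : K[X])
  have hfr : finrank K F = p := Kummer.finrank_adjoinRoot hp
  have hfd : FiniteDimensional K F := FiniteDimensional.of_finrank_pos (by rw [hfr]; exact hp.pos)
  have hchar : CharZero F := charZero_of_injective_algebraMap (algebraMap K F).injective
  have hNF : NumberField F := by
    have : FiniteDimensional ℚ F := FiniteDimensional.trans ℚ K F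
    exact { to_charZero := hchar, to_finiteDimensional := this }
  obtain ⟨σ, hD⟩ := Kummer.exists_data hp hζ hcon (Kummer.root_pow (p := p) (a := (b : K))) hfr
  have hα : (AdjoinRoot.root (X ^ p - C (b : K) : K[X]) : F) ≠ 0 := by
    intro h0
    have h1 := hD.pow_eq
    rw [h0, zero_pow hp.ne_zero, eq_comm, map_eq_zero] at h1
    exact b.ne_zero h1
  have hST : ∀ j, (T j).v ∉ pls e := fun j h ↦ hT.not_mem j (hSB h)
  have hinj := injective_sum he hT.inj hST
  have hpls := pls_sum e T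
  have h1 := index_formula (Sum.elim e T) hinj hD hp hζ hα
    (hS.mono (by rw [hpls]; exact Set.subset_union_left))
    (fun v hv ↦ by rw [hpls]; exact Or.inl (hSp v hv))
    (fun v hv ↦ hb v (by rwa [hpls] at hv))
  have h2 : ((pls (Sum.elim e T)).unit K).map (diag (Sum.elim e T)) ⊔
      H (Sum.elim e T) p (b : K) = ⊤ := by
    rw [eq_top_iff]
    intro x _
    obtain ⟨y, hy, hy2⟩ := exists_unit_mul_pow hp.ne_zero hS hSB hT (fun j ↦ x (Sum.inr j))
    have h3 : x = diag (Sum.elim e T) y * ((diag (Sum.elim e T) y)⁻¹ * x) := by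
      rw [mul_inv_cancel_left]
    rw [h3]
    refine Subgroup.mul_mem_sup ⟨y, by rwa [hpls], rfl⟩ ?_
    rw [mem_H]
    rintro (i | j)
    · have h4 : (e i).N p (b : K) = ⊤ := by
        rw [LocEmb.N, normGrp_eq_top (hb' i)]
      change _ ∈ (e i).N p (b : K)
      rw [h4]
      exact Subgroup.mem_top _
    · obtain ⟨c, hc⟩ := hy2 j
      let xj : ((T j).L)ˣ := x (Sum.inr j)
      have hc' : xj = (T j).toU y * c ^ p := hc
      have h4 : ((T j).toU y)⁻¹ * xj ∈ (T j).N p (b : K) := by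
        rw [hc', inv_mul_cancel_left]
        exact pow_mem_normGrp hp c
      exact h4
  rw [h2, Subgroup.index_top] at h1
  exact hp.one_lt.ne' (Nat.dvd_one.1 ⟨_, h1.1⟩)

theorem index_PV [IsTotallyComplex K] (hp : p.Prime) {ζ : K} (hζ : IsPrimitiveRoot ζ p)
    {ι : Type} [Fintype ι] {e : ι → LocEmb K}
    (he : Function.Injective fun i ↦ (e i).v) :
    (PV p e).index ≤ p ^ (2 * (Fintype.card ι + NumberField.Units.rank K + 1)) ∧
      (PV p e).index ≠ 0 := by
  have h1 : (PV p e).index = p ^ (2 * Fintype.card ι +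
      ∑ i, (if p = (e i).q then finrank ℚ_[(e i).q] (e i).L else 0)) := by
    rw [PV, index_pi_dep, pow_add, pow_mul, ← Finset.prod_pow_eq_pow_sum, ← Finset.card_univ,
      ← Finset.prod_const, ← Finset.prod_mul_distrib]
    refine Finset.prod_congr rfl fun i _ ↦ ?_
    rw [pw, LocEmb.index_pow (e i) hp hζ]
    congr 1
    split_ifs with h
    · exact congrArg (· ^ finrank ℚ_[(e i).q] (e i).L) h.symm
    · rfl
  refine ⟨?_, by rw [h1]; exact pow_ne_zero _ hp.ne_zero⟩
  rw [h1]
  refine Nat.pow_le_pow_right hp.pos ?_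
  have h2 := sum_finrank_le' hp he
  rw [finrank_eq_two_mul K] at h2
  omega

/-- **The count.** -/
theorem index_le [IsTotallyComplex K] (hp : p.Prime) {ζ : K} (hζ : IsPrimitiveRoot ζ p)
    {ι κ : Type} [Fintype ι] [Fintype κ] {e : ι → LocEmb K} {T : κ → LocEmb K} {a : K}
    {B : Set (HeightOneSpectrum (𝓞 K))}
    (he : Function.Injective fun i ↦ (e i).v) (hS : ClassTrivial (pls e))
    (hSp : ∀ v : HeightOneSpectrum (𝓞 K), (p : 𝓞 K) ∈ v.asIdeal → v ∈ pls e)
    (hSB : pls e ⊆ B) (hT : Aux p a ((pls e).unit K) B T)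
    (hκ : Fintype.card κ = Fintype.card ι + NumberField.Units.rank K) :
    (((pls e ∪ pls T).unit K).map (diag e) ⊔ PV p e).index ≤ p ∧
      (((pls e ∪ pls T).unit K).map (diag e) ⊔ PV p e).index ≠ 0 := by
  obtain ⟨h1, h0⟩ := index_PV hp hζ he
  set E' := (pls e ∪ pls T).unit K with hE'
  have h2 : (PV p e).relIndex (E'.map (diag e)) * (E'.map (diag e) ⊔ PV p e).index =
      (PV p e).index := by
    rw [← Subgroup.relIndex_sup_right]
    exact Subgroup.relIndex_mul_index le_sup_right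
  have h3 : (PV p e).relIndex (E'.map (diag e)) = (pw p Kˣ).relIndex E' := by
    rw [← Subgroup.relIndex_comap, ← Subgroup.inf_relIndex_right,
      ← Subgroup.inf_relIndex_right (pw p Kˣ)]
    congr 1
    ext b
    simp only [Subgroup.mem_inf, Subgroup.mem_comap, and_congr_left_iff]
    intro hb
    rw [mem_PV, mem_pw_units hp.ne_zero]
    constructor
    · intro h
      exact exists_pow_of_local hp hζ he hS hSp hSB hT hb fun i ↦
        (mem_pw_units hp.ne_zero _).1 (h i)
    · rintro ⟨c, hc⟩ i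
      rw [mem_pw_units hp.ne_zero]
      exact ⟨(e i).toL c, by rw [← map_pow, hc]; rfl⟩
  have hST : ∀ j, (T j).v ∉ pls e := fun j h ↦ hT.not_mem j (hSB h)
  have hinj := injective_sum he hT.inj hST
  have hcard : Nat.card ↑(pls e ∪ pls T) = Fintype.card ι + Fintype.card κ := by
    rw [← pls_sum, card_pls hinj, Nat.card_sum, Nat.card_eq_fintype_card,
      Nat.card_eq_fintype_card]
  rw [h3, hE', relIndex_pw_unit hp hζ, ← hE', hcard, hκ] at h2
  refine ⟨?_, fun h ↦ ?_⟩
  · rw [← h2] at h1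
    have h4 : 2 * (Fintype.card ι + NumberField.Units.rank K + 1) =
      (Fintype.card ι + (Fintype.card ι + NumberField.Units.rank K) +
        NumberField.Units.rank K + 1) + 1 := by ring
    rw [h4, pow_succ p (_ + 1)] at h1
    exact Nat.le_of_mul_le_mul_left h1 (pow_pos hp.pos _)
  · rw [h, mul_zero] at h2
    exact h0 h2.symm

end Fermat.Agent.LT.I8
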