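import Fermat.Agent.CFT.HasseNorm
import Fermat.Agent.LT.I8.Second2

/-!
# The second inequality and the Hasse norm theorem for Kummer extensions of prime degree of
totally complex fields, `p = 2` allowed
-/

set_option autoImplicit false
set_option linter.unusedSectionVars false

open NumberField IsDedekindDomain Module Polynomial
open Fermat.Agent.CFT Fermat.Agent.CFT.W Fermat.Agent.CFT.Embed Fermat.Agent.CFT.SUnits
open Fermat.Agent.CFT.NormGrp Fermat.Agent.CFT.First Fermat.Agent.CFT.ChoosePrime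
open Fermat.Agent.CFT.Second (pw mem_pw pow_mem_pw mem_pw_units relIndex_zpowers_le exists_not_mem
  Aux exists_unit_mul_pow pls_sum injective_sum exists_embedding_of_eq sum_finrank_le' PV mem_PV
  PV_le_H card_rootsOfUnity' relIndex_pw_unit card_pls)
open Fermat.Agent.CFT.HasseNorm (globNorm mem_globNorm exists_family finite_mem not_isPow_of_data)

namespace Fermat.Agent.LT.I8

variable {K : Type*} [Field K] [NumberField K] {p : ℕ}

/-- auxiliary places exist -/
theorem exists_aux' [IsTotallyComplex K] (hp : p.Prime) {ζ : K} (hζ : IsPrimitiveRoot ζ p)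
    {ι : Type} [Fintype ι] {e : ι → LocEmb K} {a : Kˣ}
    (he : Function.Injective fun i ↦ (e i).v)
    (hSp : ∀ v : HeightOneSpectrum (𝓞 K), (p : 𝓞 K) ∈ v.asIdeal → v ∈ pls e) :
    ∃ (κ : Type) (_ : Fintype κ) (T : κ → LocEmb K),
      Fintype.card κ = Fintype.card ι + NumberField.Units.rank K ∧
      Aux p (a : K) ((pls e).unit K) (pls e) T := by
  refine exists_aux hp hζ (relIndex_pw_unit hp hζ (pls e)) (Set.toFinite _) hSp
    (fun x hx v hv ↦ hx v hv) _ ?_
  rw [card_pls he, Nat.card_eq_fintype_card]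
  exact Nat.lt_succ_self _

theorem second_inequality_aux [IsTotallyComplex K] (hp : p.Prime) {ζ : K} (hζ : IsPrimitiveRoot ζ p)
    {ι : Type} [Fintype ι] {e : ι → LocEmb K} {a : Kˣ}
    (he : Function.Injective fun i ↦ (e i).v) (hS : ClassTrivial (pls e))
    (hSp : ∀ v : HeightOneSpectrum (𝓞 K), (p : 𝓞 K) ∈ v.asIdeal → v ∈ pls e)
    (ha : a ∈ (pls e).unit K) :
    (globNorm p (a : K) e).index ≤ p ∧ (globNorm p (a : K) e).index ≠ 0 := by
  obtain ⟨κ, _, T, hκ, hT⟩ := exists_aux' (a := a) hp hζ he hSp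
  obtain ⟨h1, h0⟩ := index_le hp hζ he hS hSp le_rfl hT hκ
  have hle : ((pls e ∪ pls T).unit K).map (diag e) ⊔ PV p e ≤ globNorm p (a : K) e := by
    refine sup_le ?_ ?_
    · rintro _ ⟨y, hy, rfl⟩
      refine ⟨y, fun i ↦ ?_, fun e' he' ↦ ?_⟩
      · rw [diag_apply, div_self']
        exact Subgroup.one_mem _
      · have he'S : e'.v ∉ pls e := by
          rintro ⟨i, hi⟩
          exact he' i hi
        have hpq : p ≠ e'.q := fun h ↦ he'S (hSp _ ((e'.q_eq_iff hp).1 h))
        by_cases h : e'.v ∈ pls T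
        · obtain ⟨j, hj⟩ := h
          have h2 : IsPowMod e'.v p (a : K) := by
            have h3 : (T j).v = e'.v := hj
            rw [← h3]
            exact hT.isPow j
          rw [LocEmb.N, normGrp_eq_top ((LocEmb.isPow_iff e' hp hpq (ha _ he'S)).2 h2)]
          exact Subgroup.mem_top _
        · exact LocEmb.toU_mem_N_of_unit e' hp hpq hζ (ha _ he'S) y (hy _ (by
            rw [Set.mem_union, not_or]; exact ⟨he'S, h⟩))
    · intro x hx
      rw [mem_PV] at hx
      refine ⟨1, fun i ↦ ?_, fun e' _ ↦ by rw [map_one]; exact Subgroup.one_mem _⟩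
      rw [map_one, one_div]
      exact inv_mem (range_pow_le_normGrp hp (hx i))
  have hdvd := Subgroup.index_dvd_of_le hle
  exact ⟨(Nat.le_of_dvd (Nat.pos_of_ne_zero h0) hdvd).trans h1,
    fun h ↦ h0 (by rw [h, zero_dvd_iff] at hdvd; exact hdvd)⟩

/-- **The second inequality** for Kummer extensions of prime degree (`p = 2` allowed) over totally complex fields. -/
theorem second_inequality [IsTotallyComplex K] (hp : p.Prime) {ζ : K} (hζ : IsPrimitiveRoot ζ p)
    {ι : Type} [Finite ι] (e : ι → LocEmb K) {a : K} (ha : a ≠ 0)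
    (he : Function.Injective fun i ↦ (e i).v) :
    (globNorm p a e).index ≤ p ∧ (globNorm p a e).index ≠ 0 := by
  have := Fintype.ofFinite ι
  let a' : Kˣ := Units.mk0 a ha
  obtain ⟨S, hSf, hSle, hS⟩ := exists_classTrivial K
    (pls e ∪ {v : HeightOneSpectrum (𝓞 K) | (p : 𝓞 K) ∈ v.asIdeal} ∪
      {v : HeightOneSpectrum (𝓞 K) | v.valuation K (a' : K) ≠ 1})
    (((Set.finite_range _).union (finite_mem hp.ne_zero)).union
      (ChoosePrime.finite_valuation_ne_one a'))
  obtain ⟨n, e₁, he₁, hpls₁⟩ := exists_family (S \ pls e) (hSf.subset Set.sdiff_subset)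
  have hdisj : ∀ j, (e₁ j).v ∉ pls e := by
    intro j
    have h1 : (e₁ j).v ∈ pls e₁ := mem_pls e₁ j
    rw [hpls₁] at h1
    exact h1.2
  have hinj := injective_sum he he₁ hdisj
  have hpls : pls (Sum.elim e e₁) = S := by
    rw [pls_sum, hpls₁, Set.union_sdiff_cancel]
    exact fun v hv ↦ hSle (Or.inl (Or.inl hv))
  obtain ⟨h1, h0⟩ := second_inequality_aux (a := a') hp hζ hinj (by rwa [hpls])
    (fun v hv ↦ by rw [hpls]; exact hSle (Or.inl (Or.inr hv)))
    (fun v hv ↦ by
      rw [hpls] at hv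
      by_contra hne
      exact hv (hSle (Or.inr hne)))
  let f : (∀ i, ((e i).L)ˣ) →* (∀ i, ((Sum.elim e e₁ i).L)ˣ) :=
    { toFun := fun x i ↦ match i with
        | Sum.inl i => x i
        | Sum.inr _ => 1
      map_one' := by funext i; rcases i with i | i <;> rfl
      map_mul' := by
        intro x y
        funext i
        rcases i with i | i
        · rfl
        · exact (one_mul 1).symm }
  have hle : (globNorm p (a' : K) (Sum.elim e e₁)).comap f ≤ globNorm p a e := by
    rintro x ⟨y, hy1, hy2⟩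
    refine ⟨y, fun i ↦ hy1 (Sum.inl i), fun e' he' ↦ ?_⟩
    by_cases h : e'.v ∈ pls e₁
    · obtain ⟨j, hj⟩ := h
      have h2 : (e₁ j).toU y / 1 ∈ (e₁ j).N p a := hy1 (Sum.inr j)
      rw [div_one] at h2
      exact LocEmb.mem_N_of_v_eq hj hp h2
    · apply hy2
      rintro (i | i)
      · exact he' i
      · exact fun h' ↦ h ⟨i, h'⟩
  have hdvd := Subgroup.index_dvd_of_le hle
  rw [Subgroup.index_comap] at hdvd
  have hdvd2 := hdvd.trans (Subgroup.relIndex_dvd_index_of_normal _ _)
  exact ⟨(Nat.le_of_dvd (Nat.pos_of_ne_zero h0) hdvd2).trans h1,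
    fun h ↦ h0 (by rw [h, zero_dvd_iff] at hdvd2; exact hdvd2)⟩

/-- **The Hasse norm theorem** for Kummer extensions of prime degree (`p = 2` allowed) over totally complex fields. -/
theorem hasse_norm [IsTotallyComplex K] (hp : p.Prime) {ζ : K} (hζ : IsPrimitiveRoot ζ p)
    {F : Type*} [Field F] [NumberField F] [Algebra K F] {a : K} {α : F} {σ : F ≃ₐ[K] F}
    (hD : Kummer.Data K F p ζ a α σ) (hα : α ≠ 0) (x : Kˣ)
    (hx : ∀ e : LocEmb K, e.toU x ∈ e.N p a) :
    ∃ y : Fˣ, Units.map (Algebra.norm K : F →* K) y = x := by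
  have ha : a ≠ 0 := by
    rintro rfl
    exact not_isPow_of_data hD hp hζ hα 0 (zero_pow hp.ne_zero)
  let a' : Kˣ := Units.mk0 a ha
  obtain ⟨S, hSf, hSle, hS⟩ := exists_classTrivial K
    ({v : HeightOneSpectrum (𝓞 K) | (p : 𝓞 K) ∈ v.asIdeal} ∪
      {v : HeightOneSpectrum (𝓞 K) | v.valuation K (a' : K) ≠ 1} ∪
      {v : HeightOneSpectrum (𝓞 K) | v.valuation K (x : K) ≠ 1})
    (((finite_mem hp.ne_zero).union (ChoosePrime.finite_valuation_ne_one a')).union
      (ChoosePrime.finite_valuation_ne_one x))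
  obtain ⟨n, e, he, hpls⟩ := exists_family S hSf
  subst hpls
  have hSp : ∀ v : HeightOneSpectrum (𝓞 K), (p : 𝓞 K) ∈ v.asIdeal → v ∈ pls e :=
    fun v hv ↦ hSle (Or.inl (Or.inl hv))
  have haS : a' ∈ (pls e).unit K := fun v hv ↦ by
    by_contra hne
    exact hv (hSle (Or.inl (Or.inr hne)))
  have hxS : x ∈ (pls e).unit K := fun v hv ↦ by
    by_contra hne
    exact hv (hSle (Or.inr hne))
  obtain ⟨κ, _, T, hκ, hT⟩ := exists_aux' (a := a') hp hζ he hSp
  obtain ⟨h1, h0⟩ := index_le hp hζ he hS hSp le_rfl hT hκ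
  have hST : ∀ j, (T j).v ∉ pls e := hT.not_mem
  have hinj := injective_sum he hT.inj hST
  have hpls := pls_sum e T
  obtain ⟨h2, h3⟩ := index_formula (Sum.elim e T) hinj hD hp hζ hα
    (hS.mono (by rw [hpls]; exact Set.subset_union_left))
    (fun v hv ↦ by rw [hpls]; exact Or.inl (hSp v hv))
    (fun v hv ↦ haS v (fun h ↦ hv (by rw [hpls]; exact Or.inl h)))
  let π : (∀ i, ((Sum.elim e T i).L)ˣ) →* (∀ i, ((e i).L)ˣ) :=
    { toFun := fun x i ↦ x (Sum.inl i)
      map_one' := rfl
      map_mul' := fun x y ↦ rfl }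
  have hπ : Function.Surjective π := by
    intro z
    refine ⟨fun i ↦ match i with
        | Sum.inl i => z i
        | Sum.inr _ => 1, rfl⟩
  have hle : (((pls e ∪ pls T).unit K).map (diag e) ⊔ PV p e).comap π ≤
      ((pls (Sum.elim e T)).unit K).map (diag (Sum.elim e T)) ⊔ H (Sum.elim e T) p a := by
    intro z hz
    rw [Subgroup.mem_comap, Subgroup.mem_sup] at hz
    obtain ⟨_, ⟨y, hy, rfl⟩, w, hw, hyw⟩ := hz
    rw [mem_PV] at hw
    have h4 : z = diag (Sum.elim e T) y * ((diag (Sum.elim e T) y)⁻¹ * z) := by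
      rw [mul_inv_cancel_left]
    rw [h4]
    refine Subgroup.mul_mem_sup ⟨y, by rwa [hpls], rfl⟩ ?_
    rw [mem_H]
    rintro (i | j)
    · have h5 := congrFun hyw i
      let zi : ((e i).L)ˣ := z (Sum.inl i)
      have h6 : (e i).toU y * w i = zi := h5
      have h7 : ((e i).toU y)⁻¹ * zi ∈ (e i).N p a := by
        rw [← h6, inv_mul_cancel_left]
        exact range_pow_le_normGrp hp (hw i)
      exact h7
    · have hpq : p ≠ (T j).q := fun h ↦ hST j (hSp _ (((T j).q_eq_iff hp).1 h))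
      have h8 : (T j).N p a = ⊤ :=
        normGrp_eq_top ((LocEmb.isPow_iff (T j) hp hpq (haS _ (hST j))).2 (hT.isPow j))
      change _ ∈ (T j).N p a
      rw [h8]
      exact Subgroup.mem_top _
  have hdvd := Subgroup.index_dvd_of_le hle
  rw [Subgroup.index_comap_of_surjective _ hπ] at hdvd
  have h9 := (Nat.le_of_dvd (Nat.pos_of_ne_zero h0) hdvd).trans h1
  rw [h2] at h9 h3
  have h10 : (((SUH.above F (pls (Sum.elim e T))).unit F).map (SUH.nrm K F)).relIndex
      ((pls (Sum.elim e T)).unit K ⊓ (H (Sum.elim e T) p a).comap (diag (Sum.elim e T))) = 1 := by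
    have h11 := (mul_ne_zero_iff.1 h3).2
    have h12 : _ ≤ p * 1 := h9.trans_eq (mul_one p).symm
    have h13 := Nat.le_of_mul_le_mul_left h12 hp.pos
    omega
  rw [Subgroup.relIndex_eq_one] at h10
  have hxmem : x ∈ (pls (Sum.elim e T)).unit K ⊓
      (H (Sum.elim e T) p a).comap (diag (Sum.elim e T)) := by
    refine Subgroup.mem_inf.2
      ⟨fun v hv ↦ hxS v (fun h ↦ hv (by rw [hpls]; exact Or.inl h)), ?_⟩
    rw [Subgroup.mem_comap, mem_H]
    intro i
    exact hx _
  obtain ⟨y, -, hy⟩ := h10 hxmem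
  exact ⟨y, hy⟩

end Fermat.Agent.LT.I8
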