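import Fermat.Agent.CFT2.API

/-!
# Characters of divisor groups: extension, push-forward and pull-back

* `exists_extension` : extending characters to `ℂˣ`;
* `mapDomain_fiber` : the push-forward of a divisor;
* `pullD` : the pull-back of divisors along a map with finite fibres.
-/

set_option autoImplicit false

open NumberField IsDedekindDomain Module

namespace Fermat.Agent.LT.I8

section ext

noncomputable instance divisibleAdditiveUnits : DivisibleBy (Additive ℂˣ) ℕ :=
  divisibleByOfSMulRightSurj _ _ fun {n} hn x => by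
    obtain ⟨z, hz⟩ := IsAlgClosed.exists_pow_nat_eq ((x.toMul : ℂˣ) : ℂ) (Nat.pos_of_ne_zero hn)
    have hz0 : z ≠ 0 := by
      rintro rfl
      rw [zero_pow hn] at hz
      exact (Units.ne_zero _) hz.symm
    refine ⟨Additive.ofMul (Units.mk0 z hz0), ?_⟩
    apply Additive.toMul.injective
    ext
    exact hz

/-- Extension of characters with values in `ℂˣ`. -/
theorem exists_extension {A B : Type*} [AddCommGroup A] [AddCommGroup B] (g : B →+ A)
    (φ : B →+ Additive ℂˣ) (h : ∀ b, g b = 0 → φ b = 0) :
    ∃ ψ : A →+ Additive ℂˣ, ∀ b, ψ (g b) = φ b := by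
  letI : DivisibleBy (Additive ℂˣ) ℤ := AddGroup.divisibleByIntOfDivisibleByNat _
  have hB : Module.Baer ℤ (Additive ℂˣ) := Module.Baer.of_divisible _
  obtain ⟨ψ, hψ⟩ := hB.extension_property_addMonoidHom (QuotientAddGroup.kerLift g)
    (QuotientAddGroup.kerLift_injective g) (QuotientAddGroup.lift g.ker φ fun b hb => h b hb)
  refine ⟨ψ, fun b => ?_⟩
  have h1 := DFunLike.congr_fun hψ (b : B ⧸ g.ker)
  exact h1

end ext

section push

variable {X Y : Type*}

theorem mapDomain_fiber (b : Y → X) (D : Y →₀ ℤ) (x : X) (s : Finset Y)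
    (hs : ∀ y, b y = x ↔ y ∈ s) : Finsupp.mapDomain b D x = ∑ y ∈ s, D y := by
  classical
  induction D using Finsupp.induction_linear with
  | zero => simp
  | add f g hf hg =>
    rw [Finsupp.mapDomain_add, Finsupp.add_apply, hf, hg, ← Finset.sum_add_distrib]
    rfl
  | single y n =>
    rw [Finsupp.mapDomain_single]
    by_cases h : b y = x
    · rw [h, Finsupp.single_eq_same, Finset.sum_eq_single y]
      · rw [Finsupp.single_eq_same]
      · intro z _ hz
        exact Finsupp.single_eq_of_ne hz
      · intro h'
        exact absurd ((hs y).1 h) h'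
    · rw [Finsupp.single_eq_of_ne (Ne.symm h), Finset.sum_eq_zero]
      intro z hz
      refine Finsupp.single_eq_of_ne ?_
      rintro rfl
      exact h ((hs _).2 hz)

/-- pull-back of divisors along a map with finite fibres -/
noncomputable def pullD (b : Y → X) (hb : ∀ x, (b ⁻¹' {x}).Finite) :
    (X →₀ ℤ) →+ (Y →₀ ℤ) where
  toFun D := Finsupp.ofSupportFinite (fun y => D (b y)) (by
    refine Set.Finite.subset (Set.Finite.biUnion D.support.finite_toSet fun x _ => hb x) ?_
    intro y hy
    simp only [Set.mem_iUnion]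
    exact ⟨b y, Finset.mem_coe.2 (Finsupp.mem_support_iff.2 hy), rfl⟩)
  map_zero' := by
    ext y
    rfl
  map_add' D D' := by
    ext y
    rfl

@[simp] theorem pullD_apply (b : Y → X) (hb : ∀ x, (b ⁻¹' {x}).Finite) (D : X →₀ ℤ) (y : Y) :
    pullD b hb D y = D (b y) := rfl

end push

section ev

variable {K F : Type*} [Field K] [NumberField K] [Field F] [NumberField F]
  {G : Type*} [CommGroup G]

open Fermat.Agent.CFT2

/-- evaluation is a homomorphism -/
noncomputable def evH (f : HeightOneSpectrum (𝓞 K) → G) :
    (HeightOneSpectrum (𝓞 K) →₀ ℤ) →+ Additive G where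
  toFun D := Additive.ofMul (ev f D)
  map_zero' := by rw [ev_zero]; rfl
  map_add' D D' := by rw [ev_add]; rfl

theorem evH_apply (f : HeightOneSpectrum (𝓞 K) → G) (D : HeightOneSpectrum (𝓞 K) →₀ ℤ) :
    evH f D = Additive.ofMul (ev f D) := rfl

/-- every character of the divisor group is an evaluation -/
theorem eq_ev (ψ : (HeightOneSpectrum (𝓞 K) →₀ ℤ) →+ Additive G)
    (D : HeightOneSpectrum (𝓞 K) →₀ ℤ) :
    (ψ D).toMul = ev (fun v => (ψ (Finsupp.single v 1)).toMul) D := by
  induction D using Finsupp.induction_linear with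
  | zero => rw [map_zero, ev_zero]; rfl
  | add f g hf hg => rw [map_add, ev_add, ← hf, ← hg]; rfl
  | single v n =>
    rw [ev_single, ← toMul_zsmul, ← map_zsmul, Finsupp.smul_single, smul_eq_mul, mul_one]

theorem ev_mapDomain (b : HeightOneSpectrum (𝓞 F) → HeightOneSpectrum (𝓞 K))
    (f : HeightOneSpectrum (𝓞 K) → G) (D : HeightOneSpectrum (𝓞 F) →₀ ℤ) :
    ev f (Finsupp.mapDomain b D) = ev (fun w => f (b w)) D := by
  induction D using Finsupp.induction_linear with
  | zero => rw [Finsupp.mapDomain_zero, ev_zero, ev_zero]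
  | add D D' h h' => rw [Finsupp.mapDomain_add, ev_add, ev_add, h, h']
  | single v n => rw [Finsupp.mapDomain_single, ev_single, ev_single]

theorem ev_pullD (b : HeightOneSpectrum (𝓞 F) → HeightOneSpectrum (𝓞 K))
    (hb : ∀ x, (b ⁻¹' {x}).Finite) (f : HeightOneSpectrum (𝓞 F) → G)
    (D : HeightOneSpectrum (𝓞 K) →₀ ℤ) :
    ev f (pullD b hb D) = ev (fun v => ∏ w ∈ (hb v).toFinset, f w) D := by
  classical
  induction D using Finsupp.induction_linear with
  | zero => rw [map_zero, ev_zero, ev_zero]
  | add D D' h h' => rw [map_add, ev_add, ev_add, h, h']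
  | single v n =>
    have h1 : pullD b hb (Finsupp.single v n) =
        ∑ w ∈ (hb v).toFinset, Finsupp.single w n := by
      ext w
      rw [pullD_apply, Finsupp.finset_sum_apply]
      by_cases h : b w = v
      · rw [h, Finsupp.single_eq_same, Finset.sum_eq_single w]
        · rw [Finsupp.single_eq_same]
        · intro z _ hz
          exact Finsupp.single_eq_of_ne (Ne.symm hz)
        · intro h'
          exact absurd ((hb v).mem_toFinset.2 h) h'
      · rw [Finsupp.single_eq_of_ne h, Finset.sum_eq_zero]
        intro z hz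
        refine Finsupp.single_eq_of_ne ?_
        rintro rfl
        exact h ((hb v).mem_toFinset.1 hz)
    rw [h1, ev_single, ← Finset.prod_zpow]
    have h2 : ∀ s : Finset (HeightOneSpectrum (𝓞 F)),
        ev f (∑ w ∈ s, Finsupp.single w n) = ∏ w ∈ s, f w ^ n := by
      intro s
      induction s using Finset.induction_on with
      | empty => rw [Finset.sum_empty, ev_zero, Finset.prod_empty]
      | insert a s ha ih => rw [Finset.sum_insert ha, ev_add, ev_single, ih, Finset.prod_insert ha]
    exact h2 _

end ev

end Fermat.Agent.LT.I8
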