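import Fermat.Agent.LT.I8.Quad

/-!
# Decomposition groups and splitting in quadratic subextensions

`N / L` Galois, `u` a place of `N`.
* `stab_iff_zpowers` : the decomposition group of an unramified place is generated by Frobenius;
* `split_iff_fixG` : for `L ⊂ F ⊂ F' ⊂ N`, `[F' : F] = 2`, the place of `F` below `u` splits in `F'`
  iff the elements of the decomposition group of `u` fixing `F` fix `F'`.
-/

set_option autoImplicit false
set_option linter.unusedSectionVars false

open NumberField IsDedekindDomain Module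
open scoped Pointwise

namespace Fermat.Agent.LT.I8

open Fermat.Agent.CFT Fermat.Agent.CFT2 Fermat.Agent.CFT.SUH

section stab

variable {L N : Type*} [Field L] [NumberField L] [Field N] [NumberField N] [Algebra L N]

theorem mem_act_iff (g : N ≃ₐ[L] N) (u : HeightOneSpectrum (𝓞 N)) (x : 𝓞 N) :
    x ∈ (act g u).asIdeal ↔ g⁻¹ • x ∈ u.asIdeal := by
  have h1 : (RingOfIntegers.mapRingEquiv g.toRingEquiv).symm x = g⁻¹ • x := by
    ext
    rfl
  show (RingOfIntegers.mapRingEquiv g.toRingEquiv).symm x ∈ u.asIdeal ↔ _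
  rw [h1]

theorem act_asIdeal (g : N ≃ₐ[L] N) (u : HeightOneSpectrum (𝓞 N)) :
    (act g u).asIdeal = g • u.asIdeal := by
  ext x
  rw [mem_act_iff, Ideal.mem_pointwise_smul_iff_inv_smul_mem]

theorem act_eq_iff (g : N ≃ₐ[L] N) (u : HeightOneSpectrum (𝓞 N)) :
    act g u = u ↔ g • u.asIdeal = u.asIdeal := by
  rw [← act_asIdeal]
  constructor
  · intro h; rw [h]
  · intro h; exact HeightOneSpectrum.ext h

theorem inertia_eq_bot [IsGalois L N] {u : HeightOneSpectrum (𝓞 N)}
    (hu : (below L u).asIdeal.ramificationIdx' u.asIdeal = 1) :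
    u.asIdeal.inertia (N ≃ₐ[L] N) = ⊥ := by
  have : PerfectField (below L u).asIdeal.ResidueField := by
    have : Finite (𝓞 L ⧸ (below L u).asIdeal) :=
      Ideal.finiteQuotientOfFreeOfNeBot _ (below L u).ne_bot
    infer_instance
  have h1 := Ideal.card_inertia_eq_ramificationIdxIn (G := N ≃ₐ[L] N) (below L u).asIdeal u.asIdeal
  rw [Ideal.ramificationIdxIn_eq_ramificationIdx (below L u).asIdeal u.asIdeal (N ≃ₐ[L] N),
    ← Ideal.ramificationIdx'_eq_ramificationIdx (below L u).asIdeal u.asIdeal (below L u).ne_bot,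
    hu] at h1
  exact Subgroup.card_eq_one.1 h1

/-- At an unramified place, the decomposition group is generated by a Frobenius. -/
theorem mem_zpowers_of_stab [IsGalois L N] {u : HeightOneSpectrum (𝓞 N)}
    (hu : (below L u).asIdeal.ramificationIdx' u.asIdeal = 1) {σ : N ≃ₐ[L] N}
    (hσ : IsArithFrobAt (𝓞 L) σ u.asIdeal) {h : N ≃ₐ[L] N} (hh : act h u = u) :
    h ∈ Subgroup.zpowers σ := by
  set p := (below L u).asIdeal with hp
  set P := u.asIdeal with hP
  have hPo : P.LiesOver p := inferInstance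
  haveI : p.IsMaximal := (below L u).isMaximal
  haveI : P.IsMaximal := u.isMaximal
  letI : Field (𝓞 L ⧸ p) := Ideal.Quotient.field _
  letI : Field (𝓞 N ⧸ P) := Ideal.Quotient.field _
  haveI : Finite (𝓞 L ⧸ p) := Ideal.finiteQuotientOfFreeOfNeBot _ (below L u).ne_bot
  haveI : Finite (𝓞 N ⧸ P) := Ideal.finiteQuotientOfFreeOfNeBot _ u.ne_bot
  letI := Fintype.ofFinite (𝓞 L ⧸ p)
  let f := Ideal.Quotient.stabilizerHom P p (N ≃ₐ[L] N)
  have hσs : σ ∈ MulAction.stabilizer (N ≃ₐ[L] N) P := hσ.mem_stabilizer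
  have hhs : h ∈ MulAction.stabilizer (N ≃ₐ[L] N) P := (act_eq_iff h u).1 hh
  have h1 : f ⟨σ, hσs⟩ = FiniteField.frobeniusAlgEquivOfAlgebraic (𝓞 L ⧸ p) (𝓞 N ⧸ P) := by
    ext b
    obtain ⟨b, rfl⟩ := Ideal.Quotient.mk_surjective b
    rw [FiniteField.coe_frobeniusAlgEquivOfAlgebraic]
    show Ideal.Quotient.mk P (σ • b) = (Ideal.Quotient.mk P b) ^ (Fintype.card (𝓞 L ⧸ p))
    rw [← map_pow, Ideal.Quotient.eq, ← Nat.card_eq_fintype_card]
    exact hσ b
  obtain ⟨n, hn⟩ := (FiniteField.bijective_frobeniusAlgEquivOfAlgebraic_pow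
    (𝓞 L ⧸ p) (𝓞 N ⧸ P)).2 (f ⟨h, hhs⟩)
  have h2 : f (⟨σ, hσs⟩ ^ (n : ℕ)) = f ⟨h, hhs⟩ := by
    rw [map_pow, h1]
    exact hn
  have h3 : (⟨h, hhs⟩ : MulAction.stabilizer (N ≃ₐ[L] N) P) * (⟨σ, hσs⟩ ^ (n : ℕ))⁻¹ ∈ f.ker := by
    rw [MonoidHom.mem_ker, map_mul, map_inv, h2, mul_inv_cancel]
  have h4 : (h * (σ ^ (n : ℕ))⁻¹) ∈ P.inertia (N ≃ₐ[L] N) := by
    rw [← Ideal.Quotient.map_ker_stabilizer_subtype P p (N ≃ₐ[L] N)]
    exact ⟨_, h3, rfl⟩
  rw [inertia_eq_bot hu, Subgroup.mem_bot, mul_inv_eq_one] at h4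
  rw [h4]
  exact ⟨(n : ℕ), by simp⟩

theorem act_frob [IsGalois L N] {u : HeightOneSpectrum (𝓞 N)} {σ : N ≃ₐ[L] N}
    (hσ : IsArithFrobAt (𝓞 L) σ u.asIdeal) : act σ u = u :=
  (act_eq_iff σ u).2 hσ.mem_stabilizer

theorem act_pow_eq {u : HeightOneSpectrum (𝓞 N)} {σ : N ≃ₐ[L] N} (h : act σ u = u) (k : ℤ) :
    act (σ ^ k) u = u := by
  rw [act_eq_iff] at h ⊢
  exact (MulAction.stabilizer (N ≃ₐ[L] N) u.asIdeal).zpow_mem h k

theorem exists_frob [IsGalois L N] (u : HeightOneSpectrum (𝓞 N)) :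
    ∃ σ : N ≃ₐ[L] N, IsArithFrobAt (𝓞 L) σ u.asIdeal := by
  haveI : Finite (𝓞 N ⧸ u.asIdeal) := Ideal.finiteQuotientOfFreeOfNeBot _ u.ne_bot
  exact IsArithFrobAt.exists_of_isInvariant (𝓞 L) (N ≃ₐ[L] N) u.asIdeal

end stab

section tower

variable {L F N : Type*} [Field L] [NumberField L] [Field F] [NumberField F] [Field N]
  [NumberField N] [Algebra L F] [Algebra L N] [Algebra F N] [IsScalarTower L F N]

theorem below_below (u : HeightOneSpectrum (𝓞 N)) : below L (below F u) = below L u := by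
  ext x
  have h1 : algebraMap (𝓞 F) (𝓞 N) (algebraMap (𝓞 L) (𝓞 F) x) = algebraMap (𝓞 L) (𝓞 N) x := by
    ext
    exact (IsScalarTower.algebraMap_apply L F N (x : L)).symm
  show algebraMap (𝓞 F) (𝓞 N) (algebraMap (𝓞 L) (𝓞 F) x) ∈ u.asIdeal ↔ _
  rw [h1]
  rfl

variable (L F N) in
/-- the subgroup of `Gal(N/L)` fixing `F` -/
def fixG : Subgroup (N ≃ₐ[L] N) where
  carrier := {g | ∀ x : F, g (algebraMap F N x) = algebraMap F N x}
  one_mem' := fun _ => rfl
  mul_mem' := fun {g h} hg hh x => by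
    show g (h _) = _
    rw [hh, hg]
  inv_mem' := fun {g} hg x => by
    show g.symm _ = _
    rw [AlgEquiv.symm_apply_eq, hg]

theorem mem_fixG {g : N ≃ₐ[L] N} :
    g ∈ fixG L F N ↔ ∀ x : F, g (algebraMap F N x) = algebraMap F N x := Iff.rfl

/-- an element of `Gal(N/L)` fixing `F` as an element of `Gal(N/F)` -/
def toFix (g : N ≃ₐ[L] N) (hg : g ∈ fixG L F N) : N ≃ₐ[F] N :=
  { g with commutes' := hg }

@[simp] theorem toFix_apply (g : N ≃ₐ[L] N) (hg : g ∈ fixG L F N) (x : N) :
    toFix g hg x = g x := rfl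

theorem act_toFix (g : N ≃ₐ[L] N) (hg : g ∈ fixG L F N) (u : HeightOneSpectrum (𝓞 N)) :
    act (toFix g hg) u = act g u := rfl

theorem act_restrictScalars (g : N ≃ₐ[F] N) (u : HeightOneSpectrum (𝓞 N)) :
    act (g.restrictScalars L) u = act g u := rfl

theorem restrictScalars_mem (g : N ≃ₐ[F] N) : g.restrictScalars L ∈ fixG L F N :=
  fun x => g.commutes x

/-- transitivity of `fixG` on the places above a place of `F` -/
theorem exists_fixG_act [IsGalois L N] {u u' : HeightOneSpectrum (𝓞 N)}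
    (h : below F u = below F u') : ∃ g ∈ fixG L F N, act g u = u' := by
  haveI : IsGalois F N := IsGalois.tower_top_of_isGalois L F N
  obtain ⟨g, hg⟩ := exists_act_eq (K := F) u u' h
  exact ⟨g.restrictScalars L, restrictScalars_mem g, hg⟩

theorem below_act_fixG {g : N ≃ₐ[L] N} (hg : g ∈ fixG L F N) (u : HeightOneSpectrum (𝓞 N)) :
    below F (act g u) = below F u := by
  rw [← act_toFix g hg]
  exact below_act _ _

theorem below_act_restrictNormal [Normal L F] (g : N ≃ₐ[L] N) (u : HeightOneSpectrum (𝓞 N)) :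
    below F (act g u) = act (g.restrictNormal F) (below F u) := by
  ext x
  show algebraMap (𝓞 F) (𝓞 N) x ∈ (act g u).asIdeal ↔ _
  rw [mem_act_iff, mem_act_iff]
  show _ ↔ algebraMap (𝓞 F) (𝓞 N) _ ∈ u.asIdeal
  have h1 : g⁻¹ • algebraMap (𝓞 F) (𝓞 N) x =
      algebraMap (𝓞 F) (𝓞 N) ((g.restrictNormal F)⁻¹ • x) := by
    ext
    show g⁻¹ (algebraMap F N (x : F)) = algebraMap F N ((g.restrictNormal F)⁻¹ (x : F))
    have h2 : (g.restrictNormal F)⁻¹ = (g⁻¹).restrictNormal F := by
      exact (map_inv (AlgEquiv.restrictNormalHom F : (N ≃ₐ[L] N) →* (F ≃ₐ[L] F)) g).symm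
    rw [h2, AlgEquiv.restrictNormal_commutes]
  rw [h1]

end tower

section split

variable {L F F' N : Type*} [Field L] [NumberField L] [Field F] [NumberField F] [Field F']
  [NumberField F'] [Field N] [NumberField N] [Algebra L F] [Algebra L F'] [Algebra L N]
  [Algebra F F'] [Algebra F N] [Algebra F' N] [IsScalarTower L F N] [IsScalarTower L F' N]
  [IsScalarTower F F' N] [IsScalarTower L F F'] [IsGalois L N]

/-- **Splitting of a place in a quadratic subextension** in terms of the decomposition group. -/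
theorem split_iff_fixG (hd : finrank F F' = 2) (u : HeightOneSpectrum (𝓞 N)) :
    Split F F' (below F u) ↔
      ∀ g ∈ fixG L F N, act g u = u → g ∈ fixG L F' N := by
  haveI : IsGalois F N := IsGalois.tower_top_of_isGalois L F N
  haveI : IsGalois F' N := IsGalois.tower_top_of_isGalois L F' N
  haveI : Algebra.IsQuadraticExtension F F' := ⟨hd⟩
  haveI : IsGalois F F' := ⟨⟩
  obtain ⟨τ, hτ, hall⟩ := exists_tau (K := F) (F := F') hd
  have h0 : below F (below F' u) = below F u := below_below u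
  rw [← h0, split_iff hall]
  constructor
  · intro h g hg hgu
    by_contra hg'
    apply h
    have h1 := below_act_restrictNormal (L := F) (F := F') (toFix g hg) u
    rw [act_toFix, hgu] at h1
    rcases hall ((toFix g hg).restrictNormal F') with h2 | h2
    · exfalso
      apply hg'
      intro x
      have h3 := AlgEquiv.restrictNormal_commutes (toFix g hg) F' x
      rw [h2] at h3
      exact h3.symm
    · rw [h2] at h1
      exact h1.symm
  · intro h h1
    obtain ⟨g', hg'⟩ := AlgEquiv.restrictNormalHom_surjective (F := F) (K₁ := F') N τ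
    have h2 : below F' (act g' u) = below F' u := by
      have := below_act_restrictNormal (L := F) (F := F') g' u
      rw [this]
      have h3 : g'.restrictNormal F' = τ := hg'
      rw [h3, h1]
    obtain ⟨k, hk⟩ := exists_act_eq (K := F') _ _ h2
    have h3 := h ((k.restrictScalars L) * (g'.restrictScalars L))
      (mul_mem (fun x => by
        show k (algebraMap F N x) = _
        rw [IsScalarTower.algebraMap_apply F F' N, k.commutes]) (restrictScalars_mem g')) (by
        rw [← act_act]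
        exact hk)
    apply hτ
    rw [← hg']
    ext x
    apply FaithfulSMul.algebraMap_injective F' N
    show algebraMap F' N (g'.restrictNormal F' x) = algebraMap F' N x
    rw [AlgEquiv.restrictNormal_commutes]
    have h4 : k (g' (algebraMap F' N x)) = algebraMap F' N x := h3 x
    have h5 : k (algebraMap F' N x) = algebraMap F' N x := k.commutes x
    exact k.injective (h4.trans h5.symm)

end split

end Fermat.Agent.LT.I8
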