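import Mathlib

/-!
# Subgroups of the quaternion group

A group of order `8` with an element `z ≠ 1` such that `g ^ 2 = z` for all `g ≠ 1, z`: for a
subgroup `H` of index `2` there are two other subgroups of index two, covering the group, with
pairwise intersections `{1, z}`.
-/

set_option autoImplicit false

namespace Fermat.Agent.LT.I8

section

variable {G : Type*} [Group G] {z : G}

theorem zpow_cases {σ : G} (hz : z * z = 1) (hσ : σ * σ = z) (k : ℤ) :
    σ ^ k = 1 ∨ σ ^ k = z ∨ σ ^ k = σ ∨ σ ^ k = σ * z := by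
  have hz' : ∀ m : ℤ, z ^ m = 1 ∨ z ^ m = z := by
    intro m
    rcases Int.even_or_odd' m with ⟨j, rfl | rfl⟩
    · left
      rw [zpow_mul, zpow_ofNat, sq, hz, one_zpow]
    · right
      rw [zpow_add, zpow_mul, zpow_ofNat, sq, hz, one_zpow, one_mul, zpow_one]
  rcases Int.even_or_odd' k with ⟨j, rfl | rfl⟩
  · rw [zpow_mul, zpow_ofNat, sq, hσ]
    rcases hz' j with h | h
    · exact Or.inl h
    · exact Or.inr (Or.inl h)
  · rw [add_comm, zpow_add, zpow_one, zpow_mul, zpow_ofNat, sq, hσ]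
    rcases hz' j with h | h
    · rw [h, mul_one]
      exact Or.inr (Or.inr (Or.inl rfl))
    · rw [h]
      exact Or.inr (Or.inr (Or.inr rfl))

theorem mem_zpowers_cases {σ g : G} (hz : z * z = 1) (hσ : σ * σ = z)
    (hg : g ∈ Subgroup.zpowers σ) : g = 1 ∨ g = z ∨ g = σ ∨ g = σ * z := by
  obtain ⟨k, rfl⟩ := hg
  exact zpow_cases hz hσ k

variable (hcard : Nat.card G = 8) (hz : z ≠ 1) (hsq : ∀ g : G, g ≠ 1 → g ≠ z → g * g = z)
include hcard hz hsq

theorem z_mul_z : z * z = 1 := by
  by_contra h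
  have h1 : z⁻¹ ≠ 1 := inv_ne_one.2 hz
  have h2 : z⁻¹ ≠ z := fun h' => h (inv_eq_iff_mul_eq_one.1 h')
  have h3 := hsq _ h1 h2
  have h4 : z ^ 3 = 1 := by
    rw [pow_succ, pow_two, ← inv_eq_iff_mul_eq_one, mul_inv_rev, h3]
  have h5 : z ^ 8 = 1 := by rw [← hcard]; exact pow_card_eq_one'
  apply hz
  calc z = z ^ 9 * (z ^ 8)⁻¹ := by group
    _ = (z ^ 3) ^ 3 * (z ^ 8)⁻¹ := by rw [← pow_mul]
    _ = 1 := by rw [h4, h5]; simp

theorem z_comm (g : G) : g * z = z * g := by
  by_cases h1 : g = 1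
  · rw [h1, one_mul, mul_one]
  by_cases h2 : g = z
  · rw [h2]
  rw [← hsq g h1 h2, mul_assoc]

theorem card_zpowers_four {g : G} (h1 : g ≠ 1) (h2 : g ≠ z) :
    Nat.card (Subgroup.zpowers g) = 4 := by
  rw [Nat.card_zpowers]
  haveI : Fact (Nat.Prime 2) := ⟨Nat.prime_two⟩
  have h3 : orderOf g = 2 ^ (1 + 1) := by
    refine orderOf_eq_prime_pow ?_ ?_
    · rw [pow_one, pow_two, hsq g h1 h2]
      exact hz
    · rw [show 2 ^ (1 + 1) = 2 * 2 from rfl, pow_mul, pow_two g, hsq g h1 h2, pow_two,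
        z_mul_z hcard hz hsq]
  exact h3

theorem index_zpowers {g : G} (h1 : g ≠ 1) (h2 : g ≠ z) : (Subgroup.zpowers g).index = 2 := by
  have h3 := (Subgroup.zpowers g).card_mul_index
  rw [card_zpowers_four hcard hz hsq h1 h2, hcard] at h3
  omega

omit hsq in
theorem exists_mem_ne (K : Subgroup G) (hK : K.index = 2) : ∃ g ∈ K, g ≠ 1 ∧ g ≠ z := by
  have hfin : Finite G := Nat.finite_of_card_ne_zero (by rw [hcard]; norm_num)
  by_contra hcon
  push Not at hcon
  have h1 := K.card_mul_index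
  rw [hK, hcard] at h1
  have h2 : (K : Set G) ⊆ {1, z} := by
    intro g hg
    by_cases h : g = 1
    · exact Or.inl h
    · exact Or.inr (hcon g hg h)
  have h3 := Set.ncard_le_ncard h2 (Set.toFinite _)
  rw [Set.ncard_pair (Ne.symm hz), ← Nat.card_coe_set_eq] at h3
  have h4 : Nat.card (K : Set G) = Nat.card K := rfl
  omega

/-- Index two subgroups of the quaternion group. -/
theorem q8_subgroups (H : Subgroup G) (hH : H.index = 2) :
    z ∈ H ∧ ∃ H₂ H₃ : Subgroup G, H₂.index = 2 ∧ H₃.index = 2 ∧ z ∈ H₂ ∧ z ∈ H₃ ∧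
      (∀ g, g ∈ H ∨ g ∈ H₂ ∨ g ∈ H₃) ∧ (∀ g, g ∈ H → g ∈ H₂ → g = 1 ∨ g = z) ∧
      (∀ g, g ∈ H → g ∈ H₃ → g = 1 ∨ g = z) ∧ (∀ g, g ∈ H₂ → g ∈ H₃ → g = 1 ∨ g = z) := by
  classical
  have hfin : Finite G := Nat.finite_of_card_ne_zero (by rw [hcard]; norm_num)
  have hzz := z_mul_z hcard hz hsq
  have hcomm := z_comm hcard hz hsq
  obtain ⟨i, hi, hi1, hiz⟩ := exists_mem_ne hcard hz H hH
  have hzH : z ∈ H := by
    rw [← hsq i hi1 hiz]
    exact mul_mem hi hi
  have hne : H ≠ ⊤ := by
    intro h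
    rw [h, Subgroup.index_top] at hH
    omega
  obtain ⟨j, -, hj⟩ := SetLike.exists_of_lt (lt_top_iff_ne_top.2 hne)
  have hj1 : j ≠ 1 := fun h => hj (h ▸ one_mem _)
  have hjz : j ≠ z := fun h => hj (h ▸ hzH)
  have hk : i * j ∉ H := fun h => hj ((Subgroup.mul_mem_cancel_left _ hi).1 h)
  have hk1 : i * j ≠ 1 := fun h => hk (h ▸ one_mem _)
  have hkz : i * j ≠ z := fun h => hk (h ▸ hzH)
  have hjj := hsq j hj1 hjz
  have hkk := hsq _ hk1 hkz
  have hii := hsq i hi1 hiz
  have hH' : H = Subgroup.zpowers i := by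
    symm
    apply Subgroup.eq_of_le_of_card_ge
    · rw [Subgroup.zpowers_le]
      exact hi
    · rw [card_zpowers_four hcard hz hsq hi1 hiz]
      have h1 := H.card_mul_index
      rw [hH, hcard] at h1
      omega
  refine ⟨hzH, Subgroup.zpowers j, Subgroup.zpowers (i * j), index_zpowers hcard hz hsq hj1 hjz,
    index_zpowers hcard hz hsq hk1 hkz, ?_, ?_, ?_, ?_, ?_, ?_⟩
  · rw [← hjj]
    exact mul_mem (Subgroup.mem_zpowers j) (Subgroup.mem_zpowers j)
  · rw [← hkk]
    exact mul_mem (Subgroup.mem_zpowers _) (Subgroup.mem_zpowers _)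
  · intro g
    by_cases hg : g ∈ H
    · exact Or.inl hg
    right
    have hzj : z ∈ Subgroup.zpowers j := by
      rw [← hjj]
      exact mul_mem (Subgroup.mem_zpowers j) (Subgroup.mem_zpowers j)
    have hzk : z ∈ Subgroup.zpowers (i * j) := by
      rw [← hkk]
      exact mul_mem (Subgroup.mem_zpowers _) (Subgroup.mem_zpowers _)
    have h1 : g * j⁻¹ ∈ H := by
      rw [Subgroup.mul_mem_iff_of_index_two hH, inv_mem_iff]
      exact ⟨fun h => absurd h hg, fun h => absurd h hj⟩
    rw [hH'] at h1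
    rcases mem_zpowers_cases hzz hii h1 with h | h | h | h
    · left
      rw [mul_inv_eq_one] at h
      rw [h]
      exact Subgroup.mem_zpowers j
    · left
      rw [mul_inv_eq_iff_eq_mul] at h
      rw [h]
      exact mul_mem hzj (Subgroup.mem_zpowers j)
    · right
      rw [mul_inv_eq_iff_eq_mul] at h
      rw [h]
      exact Subgroup.mem_zpowers _
    · right
      rw [mul_inv_eq_iff_eq_mul, mul_assoc, ← hcomm j, ← mul_assoc] at h
      rw [h]
      exact mul_mem (Subgroup.mem_zpowers _) hzk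
  · intro g hg hg2
    rcases mem_zpowers_cases hzz hjj hg2 with h | h | h | h
    · exact Or.inl h
    · exact Or.inr h
    · exact absurd (h ▸ hg) hj
    · exact absurd ((Subgroup.mul_mem_cancel_right _ hzH).1 (h ▸ hg)) hj
  · intro g hg hg2
    rcases mem_zpowers_cases hzz hkk hg2 with h | h | h | h
    · exact Or.inl h
    · exact Or.inr h
    · exact absurd (h ▸ hg) hk
    · exact absurd ((Subgroup.mul_mem_cancel_right _ hzH).1 (h ▸ hg)) hk
  · intro g hg hg2
    rcases mem_zpowers_cases hzz hjj hg with h | h | h | h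
    · exact Or.inl h
    · exact Or.inr h
    · exfalso
      rcases mem_zpowers_cases hzz hkk hg2 with h' | h' | h' | h'
      · exact hj1 (h.symm.trans h')
      · exact hjz (h.symm.trans h')
      · exact hi1 (mul_eq_right.1 (h'.symm.trans h))
      · have h3 : (i * z) * j = j := by
          rw [mul_assoc, ← hcomm j, ← mul_assoc]
          exact h'.symm.trans h
        have h4 : i * z = 1 := mul_eq_right.1 h3
        apply hiz
        rw [← hzz] at h4
        exact mul_right_cancel h4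
    · exfalso
      rcases mem_zpowers_cases hzz hkk hg2 with h' | h' | h' | h'
      · have h3 : j * z = z * z := by rw [hzz]; exact h.symm.trans h'
        exact hjz (mul_right_cancel h3)
      · have h3 : j * z = 1 * z := by rw [one_mul]; exact h.symm.trans h'
        exact hj1 (mul_right_cancel h3)
      · have h3 : i * j = z * j := by rw [← hcomm j]; exact h'.symm.trans h
        exact hiz (mul_right_cancel h3)
      · have h3 : i * j = j := mul_right_cancel (h'.symm.trans h)
        exact hi1 (mul_eq_right.1 h3)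

end

end Fermat.Agent.LT.I8
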