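import Fermat.Agent.LT.I8.Main
import Fermat.Agent.LT.I8.Group
import Fermat.Agent.CFT2.QR2
import Fermat.Agent.CFT2.CH
import Fermat.Agent.CFT2.HN

/-!
# The order four character of a quaternion extension, final form
-/

set_option autoImplicit false
set_option linter.unusedSectionVars false

open NumberField IsDedekindDomain Module
open scoped Pointwise

universe u

namespace Fermat.Agent.LT.I8

open Fermat.Agent.CFT Fermat.Agent.CFT2 Fermat.Agent.CFT.SUH

section fixed

variable {L N : Type u} [Field L] [NumberField L] [Field N] [NumberField N] [Algebra L N]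
  [IsGalois L N]

theorem mem_fixG_fixedField (H : Subgroup (N ≃ₐ[L] N)) {g : N ≃ₐ[L] N} :
    g ∈ fixG L (IntermediateField.fixedField H) N ↔ g ∈ H := by
  conv_rhs => rw [← IntermediateField.fixingSubgroup_fixedField H]
  rw [IntermediateField.mem_fixingSubgroup_iff]
  constructor
  · intro h x hx
    exact h ⟨x, hx⟩
  · intro h x
    exact h x x.2

theorem finrank_fixedField (H : Subgroup (N ≃ₐ[L] N)) :
    finrank L (IntermediateField.fixedField H) = H.index := by
  have h1 := finrank_mul_finrank L (IntermediateField.fixedField H) N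
  rw [IntermediateField.finrank_fixedField_eq_card, ← IsGalois.card_aut_eq_finrank L N,
    ← H.index_mul_card] at h1
  exact Nat.eq_of_mul_eq_mul_right Nat.card_pos h1

variable {F : Type u} [Field F] [NumberField F] [Algebra L F] [Algebra F N] [IsScalarTower L F N]

theorem card_fixG : Nat.card (fixG L F N) = finrank F N := by
  haveI : IsGalois F N := IsGalois.tower_top_of_isGalois L F N
  rw [← IsGalois.card_aut_eq_finrank F N]
  refine Nat.card_congr
    { toFun := fun g => toFix g.1 g.2
      invFun := fun g => ⟨g.restrictScalars L, restrictScalars_mem g⟩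
      left_inv := fun g => rfl
      right_inv := fun g => rfl }

theorem index_fixG : (fixG L F N).index = finrank L F := by
  have h1 := (fixG L F N).index_mul_card
  rw [card_fixG, IsGalois.card_aut_eq_finrank L N, ← finrank_mul_finrank L F N] at h1
  exact Nat.eq_of_mul_eq_mul_right finrank_pos h1

/-- isomorphic normal subextensions have the same group -/
theorem fixG_eq_of_algEquiv {F' : Type u} [Field F'] [NumberField F'] [Algebra L F'] [Algebra F' N]
    [IsScalarTower L F' N] [Normal L F] (e : F ≃ₐ[L] F') : fixG L F N = fixG L F' N := by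
  let f : F →ₐ[L] N := IsScalarTower.toAlgHom L F N
  let f' : F →ₐ[L] N := (IsScalarTower.toAlgHom L F' N).comp e.toAlgHom
  have key : f.fieldRange = f'.fieldRange := by
    haveI : Normal L f.fieldRange := Normal.of_algEquiv (AlgEquiv.ofInjectiveField f)
    have h1 := AlgHom.fieldRange_of_normal (E := f.fieldRange)
      (f'.comp (AlgEquiv.ofInjectiveField f).symm.toAlgHom)
    rw [← h1]
    ext x
    rw [AlgHom.mem_fieldRange, AlgHom.mem_fieldRange]
    constructor
    · rintro ⟨y, rfl⟩
      exact ⟨_, rfl⟩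
    · rintro ⟨y, rfl⟩
      refine ⟨AlgEquiv.ofInjectiveField f y, ?_⟩
      show f' ((AlgEquiv.ofInjectiveField f).symm (AlgEquiv.ofInjectiveField f y)) = _
      rw [AlgEquiv.symm_apply_apply]
  ext g
  constructor
  · intro h x
    have h1 : algebraMap F' N x ∈ f.fieldRange := by
      rw [key]
      refine ⟨e.symm x, ?_⟩
      show algebraMap F' N (e (e.symm x)) = _
      rw [AlgEquiv.apply_symm_apply]
    obtain ⟨y, hy⟩ := h1
    have hy' : algebraMap F N y = algebraMap F' N x := hy
    rw [← hy']
    exact h y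
  · intro h x
    have h1 : algebraMap F N x ∈ f'.fieldRange := by
      rw [← key]
      exact ⟨x, rfl⟩
    obtain ⟨y, hy⟩ := h1
    have hy' : algebraMap F' N (e y) = algebraMap F N x := hy
    rw [← hy']
    exact h (e y)

end fixed

section final

variable {L M N : Type u} [Field L] [NumberField L] [Field M] [NumberField M] [Field N]
  [NumberField N] [Algebra L M] [Algebra L N] [Algebra M N] [IsScalarTower L M N] [IsGalois L N]

variable (M) in
/-- The properties of the order four character `ψ` (a function on the places of `M`, trivial at the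
places above `S`) attached to a quaternion extension `N / L`, `L ⊂ M ⊂ N`, `[M : L] = 2`. -/
structure PsiSpec (S : Set (HeightOneSpectrum (𝓞 L))) (z : N ≃ₐ[L] N) (n : ℕ)
    (ψ : HeightOneSpectrum (𝓞 M) → ℂˣ) : Prop where
  pos : 1 ≤ n
  ray : ∀ x : Mˣ, Close (above M S) n x → ev ψ (dvs (Additive.ofMul x)) = 1
  bad : ∀ v ∈ above M S, ψ v = 1
  pow_four : ∀ v, ψ v ^ 4 = 1
  inert : ∀ v ∉ above M S, ¬ Split L M (below L v) → ψ v = -1
  split : ∀ v v' : HeightOneSpectrum (𝓞 M), v ∉ above M S → below L v = below L v' → v ≠ v' →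
    ψ v * ψ v' = 1
  frob_one : ∀ u : HeightOneSpectrum (𝓞 N), below L u ∉ S →
    IsArithFrobAt (𝓞 L) (1 : N ≃ₐ[L] N) u.asIdeal → ψ (below M u) = 1
  frob_z : ∀ u : HeightOneSpectrum (𝓞 N), below L u ∉ S →
    IsArithFrobAt (𝓞 L) z u.asIdeal → ψ (below M u) = -1
  frob_four : ∀ u : HeightOneSpectrum (𝓞 N), below L u ∉ S → ∀ σ : N ≃ₐ[L] N,
    IsArithFrobAt (𝓞 L) σ u.asIdeal → σ ≠ 1 → σ ≠ z → σ ∈ fixG L M N → ψ (below M u) ^ 2 = -1
  exists_four : ∃ v ∉ above M S, ψ v ^ 2 = -1

variable [IsTotallyComplex L]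

/-- **The order four character of a quaternion extension.** -/
theorem exists_psiSpec (hcard : Nat.card (N ≃ₐ[L] N) = 8) {z : N ≃ₐ[L] N}
    (hz : z ≠ 1) (hsq : ∀ g : N ≃ₐ[L] N, g ≠ 1 → g ≠ z → g * g = z) (hd : finrank L M = 2)
    {S : Set (HeightOneSpectrum (𝓞 L))} (hS : S.Finite) (hur : ∀ w ∉ S, Unr L N w) :
    ∃ n ψ, PsiSpec M S z n ψ := by
  have hzz := z_mul_z hcard hz hsq
  have hidx : (fixG L M N).index = 2 := by rw [index_fixG, hd]
  obtain ⟨hzM, H₂, H₃, hi2, hi3, hz2, hz3, hcov, h12, h13, h23⟩ :=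
    q8_subgroups hcard hz hsq (fixG L M N) hidx
  -- the fields
  let M' := IntermediateField.fixedField (Subgroup.zpowers z)
  let M₂ := IntermediateField.fixedField H₂
  let M₃ := IntermediateField.fixedField H₃
  have hmem : ∀ x : M, algebraMap M N x ∈ M' := by
    intro x
    rw [IntermediateField.mem_fixedField_iff]
    intro g hg
    exact (Subgroup.zpowers_le.2 hzM) hg x
  let f : M →+* M' :=
    { toFun := fun x => ⟨algebraMap M N x, hmem x⟩
      map_one' := Subtype.ext (map_one _)
      map_mul' := fun x y => Subtype.ext (map_mul _ x y)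
      map_zero' := Subtype.ext (map_zero _)
      map_add' := fun x y => Subtype.ext (map_add _ x y) }
  letI : Algebra M M' := f.toAlgebra
  haveI : IsScalarTower M M' N := IsScalarTower.of_algebraMap_eq fun x => rfl
  haveI : IsScalarTower L M M' := IsScalarTower.of_algebraMap_eq fun x => by
    apply Subtype.ext
    show algebraMap L N x = algebraMap M N (algebraMap L M x)
    rw [← IsScalarTower.algebraMap_apply]
  have hzc : ∀ g, g ∈ Subgroup.zpowers z ↔ g = 1 ∨ g = z := by
    intro g
    constructor
    · rintro ⟨k, rfl⟩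
      rcases Int.even_or_odd' k with ⟨j, rfl | rfl⟩
      · left
        show z ^ (2 * j) = 1
        rw [zpow_mul, zpow_ofNat, sq, hzz, one_zpow]
      · right
        show z ^ (2 * j + 1) = z
        rw [zpow_add, zpow_mul, zpow_ofNat, sq, hzz, one_zpow, one_mul, zpow_one]
    · rintro (rfl | rfl)
      · exact one_mem _
      · exact Subgroup.mem_zpowers _
  have hzcard : Nat.card (Subgroup.zpowers z) = 2 := by
    rw [Nat.card_zpowers]
    exact orderOf_eq_prime (by rw [sq, hzz]) hz
  have hN : finrank M' N = 2 := by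
    rw [IntermediateField.finrank_fixedField_eq_card, hzcard]
  have hM' : finrank M M' = 2 := by
    have h1 := finrank_mul_finrank L M M'
    have h2 : finrank L M' = (Subgroup.zpowers z).index := finrank_fixedField _
    have h3 := (Subgroup.zpowers z).card_mul_index
    rw [hzcard, hcard] at h3
    rw [h2, hd] at h1
    omega
  have Q : QData M M' M₂ M₃ z :=
    { z_ne := hz
      z_sq := hzz
      sq := hsq
      dM := hd
      d2 := by rw [finrank_fixedField, hi2]
      d3 := by rw [finrank_fixedField, hi3]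
      dM' := hM'
      dN := hN
      hM' := fun g => by rw [mem_fixG_fixedField, hzc]
      hM := hzM
      h2 := by rw [mem_fixG_fixedField]; exact hz2
      h3 := by rw [mem_fixG_fixedField]; exact hz3
      cover := fun g => by rw [mem_fixG_fixedField, mem_fixG_fixedField]; exact hcov g
      i12 := fun g => by rw [mem_fixG_fixedField]; exact h12 g
      i13 := fun g => by rw [mem_fixG_fixedField]; exact h13 g
      i23 := fun g => by rw [mem_fixG_fixedField, mem_fixG_fixedField]; exact h23 g }
  haveI : IsTotallyComplex M := isTotallyComplex_of_algebra L M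
  haveI : IsTotallyComplex M' := isTotallyComplex_of_algebra L M'
  haveI : Algebra.IsQuadraticExtension L M := ⟨hd⟩
  haveI : Algebra.IsQuadraticExtension L M₃ := ⟨Q.d3⟩
  have hur' : ∀ v ∉ above M' S, Unr M' N v := fun v hv => unr_top (L := L) (hur _ hv)
  have hur1 : ∀ v ∉ above M S, Unr M M' v := fun v hv =>
    unr_bot (L := M) (F := M') (N := N) (unr_top (L := L) (hur _ hv))
  have e32 : IsEmpty (M₃ ≃ₐ[L] M₂) := ⟨fun e => by
    have h1 := fixG_eq_of_algEquiv (N := N) e
    obtain ⟨g, hg, hg1, hgz⟩ := exists_mem_ne hcard hz H₂ hi2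
    have h2 : g ∈ H₃ := by
      rw [← mem_fixG_fixedField H₃, h1, mem_fixG_fixedField]
      exact hg
    exact (h23 g hg h2).elim hg1 hgz⟩
  have e12 : IsEmpty (M ≃ₐ[L] M₂) := ⟨fun e => by
    have h1 := fixG_eq_of_algEquiv (N := N) e
    obtain ⟨g, hg, hg1, hgz⟩ := exists_mem_ne hcard hz H₂ hi2
    have h2 : g ∈ fixG L M N := by
      rw [h1, mem_fixG_fixedField]
      exact hg
    exact (h12 g h2 hg).elim hg1 hgz⟩
  obtain ⟨n, hn, ψ, h1, h2, h3, h4, h5, h6, h7⟩ := exists_psi Q hur
    (qr hN (SUH.finite_above hS) hur') (hn hM' (SUH.finite_above hS) hur1)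
    (qr hd hS fun w hw => unr_bot (hur w hw))
    (qr2 Q.d2 hS fun w hw => unr_bot (hur w hw))
    (ch Q.d3 Q.d2 e32 S hS) (ch hd Q.d2 e12 S hS)
  exact ⟨n, ψ, hn, h1, h2, h3, h4, h5, fun u hu hσ => (h6 u hu _ hσ).1 rfl,
    fun u hu hσ => (h6 u hu _ hσ).2.1 rfl, fun u hu σ hσ => (h6 u hu _ hσ).2.2, h7⟩

end final

end Fermat.Agent.LT.I8
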