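import Fermat.Agent.LT.I8.Final
import Fermat.Agent.EXT.FiniteLevel

/-!
# The order four character, for a group acting on `N`
-/

set_option autoImplicit false
set_option linter.unusedSectionVars false

open NumberField IsDedekindDomain Module
open scoped Pointwise

universe u

namespace Fermat.Agent.LT.I8

open Fermat.Agent.CFT Fermat.Agent.CFT2 Fermat.Agent.CFT.SUH

section group

variable {L M N : Type u} [Field L] [NumberField L] [Field M] [NumberField M] [Field N]
  [NumberField N] [Algebra L M] [Algebra L N] [Algebra M N] [IsScalarTower L M N] [IsGalois L N]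
  {G : Type*} [Group G] [Finite G] [MulSemiringAction G N] [IsGaloisGroup G L N]

variable (L N) in
/-- the isomorphism from `G` to the Galois group -/
noncomputable def eG (G : Type*) [Group G] [Finite G] [MulSemiringAction G N]
    [IsGaloisGroup G L N] : G ≃* (N ≃ₐ[L] N) := IsGaloisGroup.mulEquivAlgEquiv G L N

theorem eG_apply (g : G) (x : N) : eG L N G g x = g • x := rfl

theorem eG_smul (g : G) (x : 𝓞 N) : eG L N G g • x = g • x := by
  ext
  rfl

variable (L) in
theorem isArithFrobAt_iff (g : G) (P : Ideal (𝓞 N)) :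
    IsArithFrobAt (𝓞 L) (eG L N G g) P ↔ IsArithFrobAt (𝓞 L) g P := by
  have h : ∀ x : 𝓞 N, eG L N G g • x = g • x := eG_smul g
  constructor
  · intro h1 x
    have := h1 x
    change eG L N G g • x - _ ∈ P at this
    rw [h] at this
    exact this
  · intro h1 x
    have := h1 x
    change g • x - _ ∈ P at this
    rw [← h] at this
    exact this

variable (M) in
/-- The properties of the order four character, for a group `G` acting on `N`. -/
structure PsiSpecG (S : Set (HeightOneSpectrum (𝓞 L))) (z : G) (n : ℕ)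
    (ψ : HeightOneSpectrum (𝓞 M) → ℂˣ) : Prop where
  pos : 1 ≤ n
  ray : ∀ x : Mˣ, Close (above M S) n x → ev ψ (dvs (Additive.ofMul x)) = 1
  bad : ∀ v ∈ above M S, ψ v = 1
  pow_four : ∀ v, ψ v ^ 4 = 1
  inert : ∀ v ∉ above M S, ¬ Split L M (below L v) → ψ v = -1
  split : ∀ v v' : HeightOneSpectrum (𝓞 M), v ∉ above M S → below L v = below L v' → v ≠ v' →
    ψ v * ψ v' = 1
  frob_one : ∀ u : HeightOneSpectrum (𝓞 N), below L u ∉ S →
    IsArithFrobAt (𝓞 L) (1 : G) u.asIdeal → ψ (below M u) = 1
  frob_z : ∀ u : HeightOneSpectrum (𝓞 N), below L u ∉ S →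
    IsArithFrobAt (𝓞 L) z u.asIdeal → ψ (below M u) = -1
  frob_four : ∀ u : HeightOneSpectrum (𝓞 N), below L u ∉ S → ∀ σ : G,
    IsArithFrobAt (𝓞 L) σ u.asIdeal → σ ≠ 1 → σ ≠ z →
    (∀ x : M, σ • algebraMap M N x = algebraMap M N x) → ψ (below M u) ^ 2 = -1
  exists_four : ∃ v ∉ above M S, ψ v ^ 2 = -1

/-- Triviality of inertia gives unramifiedness. -/
theorem unr_of_inertia {w : HeightOneSpectrum (𝓞 L)}
    (h : ∀ u : HeightOneSpectrum (𝓞 N), below L u = w → u.asIdeal.inertia G = ⊥) : Unr L N w := by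
  rintro u rfl
  refine EXT.FiniteLevel.ramificationIdx'_eq_one_of_inertia (below L u) u fun σ hσ => ?_
  obtain ⟨g, rfl⟩ := (eG L N G).surjective σ
  have h1 : g ∈ u.asIdeal.inertia G := fun x => by
    have h2 := hσ x
    rw [eG_smul] at h2
    exact h2
  rw [h u rfl, Subgroup.mem_bot] at h1
  rw [h1, map_one]

/-- **The order four character of a quaternion extension**, for a group acting. -/
theorem exists_psiSpecG [IsTotallyComplex L] (hcard : Nat.card G = 8) {z : G}
    (hz : z ≠ 1) (hsq : ∀ g : G, g ≠ 1 → g ≠ z → g * g = z) (hd : finrank L M = 2)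
    {S : Set (HeightOneSpectrum (𝓞 L))} (hS : S.Finite)
    (hur : ∀ u : HeightOneSpectrum (𝓞 N), below L u ∉ S → u.asIdeal.inertia G = ⊥) :
    ∃ n ψ, PsiSpecG (N := N) M S z n ψ := by
  set e := eG L N G with he
  obtain ⟨n, ψ, h⟩ := exists_psiSpec (L := L) (M := M) (N := N)
    (by rw [← hcard]; exact Nat.card_congr e.symm.toEquiv) (z := e z)
    (fun h => hz (e.injective (h.trans (map_one e).symm)))
    (fun g h1 h2 => by
      obtain ⟨g, rfl⟩ := e.surjective g
      rw [← map_mul, hsq g (fun h => h1 (by rw [h, map_one])) (fun h => h2 (by rw [h]))])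
    hd hS (fun w hw => unr_of_inertia (G := G) fun u hu => hur u (by rw [hu]; exact hw))
  exact ⟨n, ψ, h.pos, h.ray, h.bad, h.pow_four, h.inert, h.split,
    fun u hu hσ => h.frob_one u hu (by
      rw [← map_one e]
      exact (isArithFrobAt_iff L _ _).2 hσ),
    fun u hu hσ => h.frob_z u hu ((isArithFrobAt_iff L _ _).2 hσ),
    fun u hu σ hσ h1 h2 h3 => h.frob_four u hu (e σ) ((isArithFrobAt_iff L _ _).2 hσ)
      (fun h => h1 (e.injective (h.trans (map_one e).symm))) (fun h => h2 (e.injective h)) h3,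
    h.exists_four⟩

end group

end Fermat.Agent.LT.I8
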