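import Fermat.Agent.LT.I8.Psi
import Fermat.Agent.LT.I8.Dec

/-!
# The order four character attached to a quaternion extension

`N / L` Galois with group of quaternion type, `M / L` a quadratic subextension: construction of the
Hecke character `ψ` of `M` with `Ind ψ` = the two-dimensional representation of the group, from the
quadratic statements `QRStatement`, `QR2Statement`, `HNStatement`, `CHStatement`.
-/

set_option autoImplicit false
set_option linter.unusedSectionVars false

open NumberField IsDedekindDomain Module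
open scoped Pointwise

namespace Fermat.Agent.LT.I8

open Fermat.Agent.CFT Fermat.Agent.CFT2 Fermat.Agent.CFT.SUH

variable {L M M' M₂ M₃ N : Type*} [Field L] [NumberField L] [Field M] [NumberField M]
  [Field M'] [NumberField M'] [Field M₂] [NumberField M₂] [Field M₃] [NumberField M₃]
  [Field N] [NumberField N]
  [Algebra L M] [Algebra L M'] [Algebra L M₂] [Algebra L M₃] [Algebra L N]
  [Algebra M M'] [Algebra M N] [Algebra M' N] [Algebra M₂ N] [Algebra M₃ N]
  [IsScalarTower L M N] [IsScalarTower L M' N] [IsScalarTower L M₂ N] [IsScalarTower L M₃ N]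
  [IsScalarTower M M' N] [IsScalarTower L M M'] [IsGalois L N]

variable (M M' M₂ M₃) in
/-- The Galois theoretic data of a quaternion extension. -/
structure QData (z : N ≃ₐ[L] N) : Prop where
  z_ne : z ≠ 1
  z_sq : z * z = 1
  sq : ∀ g : N ≃ₐ[L] N, g ≠ 1 → g ≠ z → g * g = z
  dM : finrank L M = 2
  d2 : finrank L M₂ = 2
  d3 : finrank L M₃ = 2
  dM' : finrank M M' = 2
  dN : finrank M' N = 2
  hM' : ∀ g, g ∈ fixG L M' N ↔ g = 1 ∨ g = z
  hM : z ∈ fixG L M N
  h2 : z ∈ fixG L M₂ N
  h3 : z ∈ fixG L M₃ N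
  cover : ∀ g, g ∈ fixG L M N ∨ g ∈ fixG L M₂ N ∨ g ∈ fixG L M₃ N
  i12 : ∀ g, g ∈ fixG L M N → g ∈ fixG L M₂ N → g = 1 ∨ g = z
  i13 : ∀ g, g ∈ fixG L M N → g ∈ fixG L M₃ N → g = 1 ∨ g = z
  i23 : ∀ g, g ∈ fixG L M₂ N → g ∈ fixG L M₃ N → g = 1 ∨ g = z

section general

theorem mem_fixG_bot (g : N ≃ₐ[L] N) : g ∈ fixG L L N := fun x => g.commutes x

theorem mem_fixG_top {g : N ≃ₐ[L] N} : g ∈ fixG L N N ↔ g = 1 := by
  constructor
  · intro h
    ext x
    exact h x
  · rintro rfl
    exact one_mem _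

/-- Splitting in a quadratic extension of the base, in terms of Frobenius. -/
theorem split_iff_frob {F : Type*} [Field F] [NumberField F] [Algebra L F] [Algebra F N]
    [IsScalarTower L F N] (hd : finrank L F = 2) {u : HeightOneSpectrum (𝓞 N)}
    (hu : (below L u).asIdeal.ramificationIdx' u.asIdeal = 1) {σ : N ≃ₐ[L] N}
    (hσ : IsArithFrobAt (𝓞 L) σ u.asIdeal) : Split L F (below L u) ↔ σ ∈ fixG L F N := by
  have h := split_iff_fixG (L := L) (F := L) (F' := F) (N := N) hd u
  rw [h]
  constructor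
  · intro h1
    exact h1 σ (mem_fixG_bot σ) (act_frob hσ)
  · intro h1 g _ hg
    exact (Subgroup.zpowers_le.2 h1) (mem_zpowers_of_stab hu hσ hg)

theorem pow_cases {G : Type*} [Group G] {z σ : G} (hz : z * z = 1) (hσ : σ * σ = z) (k : ℤ) :
    σ ^ k = 1 ∨ σ ^ k = z ∨ σ ^ k = σ ∨ σ ^ k = σ * z := by
  have hz' : ∀ m : ℤ, z ^ m = 1 ∨ z ^ m = z := by
    intro m
    rcases Int.even_or_odd' m with ⟨j, rfl | rfl⟩
    · left
      rw [zpow_mul, zpow_ofNat, sq, hz, one_zpow]
    · right
      rw [zpow_add, zpow_mul, zpow_ofNat, sq, hz, one_zpow, one_mul, zpow_one]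
  rcases Int.even_or_odd' k with ⟨j, rfl | rfl⟩
  · rw [zpow_mul, zpow_ofNat, sq, hσ]
    rcases hz' j with h | h
    · exact Or.inl h
    · exact Or.inr (Or.inl h)
  · rw [add_comm, zpow_add, zpow_one, zpow_mul, zpow_ofNat, sq, hσ]
    rcases hz' j with h | h
    · rw [h, mul_one]
      exact Or.inr (Or.inr (Or.inl rfl))
    · rw [h]
      exact Or.inr (Or.inr (Or.inr rfl))

end general

section ram

variable {F : Type*} [Field F] [NumberField F] [Algebra L F] [Algebra F N] [IsScalarTower L F N]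

omit [IsGalois L N] in
theorem ram_tower (u : HeightOneSpectrum (𝓞 N)) :
    (below L u).asIdeal.ramificationIdx' u.asIdeal =
      (below F u).asIdeal.ramificationIdx' u.asIdeal *
        (below L u).asIdeal.ramificationIdx' (below F u).asIdeal := by
  obtain ⟨x, hx⟩ := (below L u).valuation_exists_uniformizer L
  have hx0 : x ≠ 0 := by
    rintro rfl
    rw [map_zero] at hx
    exact WithZero.coe_ne_zero hx.symm
  have h1 : ord (below L u) (Units.mk0 x hx0) = 1 := by
    rw [ord_eq_iff]
    exact hx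
  have h2 := ord_incU (K := L) u (Units.mk0 x hx0)
  have h3 := ord_incU (K := F) u (incU L F (Units.mk0 x hx0))
  have h4 := ord_incU (K := L) (below F u) (Units.mk0 x hx0)
  rw [below_below, h1, mul_one] at h4
  rw [h4] at h3
  rw [h1, mul_one] at h2
  have h5 : incU F N (incU L F (Units.mk0 x hx0)) = incU L N (Units.mk0 x hx0) := by
    ext
    exact (IsScalarTower.algebraMap_apply L F N x).symm
  rw [h5, h2] at h3
  exact_mod_cast h3

omit [IsGalois L N] in
theorem unr_bot {w : HeightOneSpectrum (𝓞 L)} (h : Unr L N w) : Unr L F w := by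
  intro v hv
  obtain ⟨u, rfl⟩ := exists_above (F := N) v
  have h1 : below L u = w := by rw [← hv, below_below]
  have h2 := ram_tower (L := L) (F := F) u
  rw [h1, h u h1] at h2
  exact Nat.eq_one_of_mul_eq_one_left h2.symm

omit [IsGalois L N] in
theorem unr_top {v : HeightOneSpectrum (𝓞 F)} (h : Unr L N (below L v)) : Unr F N v := by
  rintro u rfl
  rw [below_below] at h
  have h2 := ram_tower (L := L) (F := F) u
  rw [h u rfl] at h2
  exact Nat.eq_one_of_mul_eq_one_right h2.symm

end ram

namespace QData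

variable {z : N ≃ₐ[L] N} (Q : QData M M' M₂ M₃ z)
include Q

theorem comm (g : N ≃ₐ[L] N) : g * z = z * g := by
  by_cases h1 : g = 1
  · rw [h1, one_mul, mul_one]
  by_cases h2 : g = z
  · rw [h2]
  rw [← Q.sq g h1 h2, mul_assoc]

theorem act_z_iff {u u' : HeightOneSpectrum (𝓞 N)} (h : below L u = below L u') :
    act z u = u ↔ act z u' = u' := by
  obtain ⟨g, rfl⟩ := exists_act_eq (K := L) u u' h
  rw [act_act, ← Q.comm g, ← act_act]
  constructor
  · intro h; rw [h]
  · intro h
    have h2 := congrArg (act g⁻¹) h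
    rw [act_act g⁻¹ g, act_act g⁻¹ g, inv_mul_cancel, act_one, act_one] at h2
    exact h2

variable {u : HeightOneSpectrum (𝓞 N)} (hu : (below L u).asIdeal.ramificationIdx' u.asIdeal = 1)
  {σ : N ≃ₐ[L] N} (hσ : IsArithFrobAt (𝓞 L) σ u.asIdeal)
include hu hσ

theorem act_z_eq_iff : act z u = u ↔ σ ≠ 1 := by
  constructor
  · rintro h rfl
    have h1 := mem_zpowers_of_stab hu hσ h
    rw [Subgroup.zpowers_one_eq_bot, Subgroup.mem_bot] at h1
    exact Q.z_ne h1
  · intro h
    by_cases h2 : σ = z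
    · rw [← h2]; exact act_frob hσ
    · rw [← Q.sq σ h h2, ← act_act, act_frob hσ, act_frob hσ]

theorem split_top : Split M' N (below M' u) ↔ σ = 1 := by
  rw [split_iff_fixG (L := L) (F := M') (F' := N) (N := N) Q.dN u]
  constructor
  · intro h
    by_contra hne
    have h1 := (Q.act_z_eq_iff hu hσ).2 hne
    have h2 := h z ((Q.hM' z).2 (Or.inr rfl)) h1
    exact Q.z_ne (mem_fixG_top.1 h2)
  · intro h g hg hgu
    rcases (Q.hM' g).1 hg with rfl | rfl
    · exact one_mem _
    · exact absurd h ((Q.act_z_eq_iff hu hσ).1 hgu)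

theorem split_mid : Split M M' (below M u) ↔ (σ ∈ fixG L M N → σ = 1 ∨ σ = z) := by
  rw [split_iff_fixG (L := L) (F := M) (F' := M') (N := N) Q.dM' u]
  constructor
  · intro h h1
    exact (Q.hM' σ).1 (h σ h1 (act_frob hσ))
  · intro h g hg hgu
    rw [Q.hM']
    obtain ⟨k, hk⟩ := mem_zpowers_of_stab hu hσ hgu
    have hk' : σ ^ k = g := hk
    by_cases h1 : σ = 1
    · left
      rw [← hk', h1, one_zpow]
    by_cases h2 : σ = z
    · have h3 : ∀ m : ℤ, z ^ m = 1 ∨ z ^ m = z := by
        intro m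
        rcases Int.even_or_odd' m with ⟨j, rfl | rfl⟩
        · left
          rw [zpow_mul, zpow_ofNat, pow_two, Q.z_sq, one_zpow]
        · right
          rw [zpow_add, zpow_mul, zpow_ofNat, pow_two, Q.z_sq, one_zpow, one_mul, zpow_one]
      rw [← hk', h2]
      exact h3 k
    have h3 : σ ∉ fixG L M N := fun h4 => (h h4).elim h1 h2
    rcases pow_cases Q.z_sq (Q.sq σ h1 h2) k with h4 | h4 | h4 | h4
    · left; rw [← hk', h4]
    · right; rw [← hk', h4]
    · rw [h4] at hk'
      exact absurd (by rw [hk']; exact hg) h3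
    · rw [h4] at hk'
      apply absurd _ h3
      rw [← hk'] at hg
      have := mul_mem hg Q.hM
      rwa [mul_assoc, Q.z_sq, mul_one] at this

end QData

section main

variable (S : Set (HeightOneSpectrum (𝓞 L))) {z : N ≃ₐ[L] N}

open Classical in
variable (z) in
/-- `1` at the places splitting completely in `N` and in `S` -/
noncomputable def eps (w : HeightOneSpectrum (𝓞 L)) : ℤˣ :=
  if w ∈ S ∨ ∀ u : HeightOneSpectrum (𝓞 N), below L u = w → act z u ≠ u then 1 else -1

variable {S} (Q : QData M M' M₂ M₃ z)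

omit [IsScalarTower L M N] [IsScalarTower L M' N] [IsScalarTower L M₂ N] [IsScalarTower L M₃ N]
  [IsScalarTower M M' N] [IsScalarTower L M M'] [IsGalois L N] in
theorem above_above_eq [IsScalarTower L M M'] :
    above M' (above M S) = above M' S := by
  ext w
  show below L (below M w) ∈ S ↔ below L w ∈ S
  rw [below_below]

include Q

theorem eps_of_frob {u : HeightOneSpectrum (𝓞 N)} (hS : below L u ∉ S)
    (hu : (below L u).asIdeal.ramificationIdx' u.asIdeal = 1) {σ : N ≃ₐ[L] N}
    (hσ : IsArithFrobAt (𝓞 L) σ u.asIdeal) [Decidable (σ = 1)] :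
    eps S z (below L u) = if σ = 1 then 1 else -1 := by
  have h1 : (below L u ∈ S ∨ ∀ u' : HeightOneSpectrum (𝓞 N), below L u' = below L u →
      act z u' ≠ u') ↔ σ = 1 := by
    constructor
    · rintro (h | h)
      · exact absurd h hS
      · by_contra hne
        exact h u rfl ((Q.act_z_eq_iff hu hσ).2 hne)
    · intro h
      right
      intro u' hu' h2
      rw [Q.act_z_iff hu', Q.act_z_eq_iff hu hσ] at h2
      exact h2 h
  rw [eps]
  by_cases h : σ = 1
  · rw [if_pos (h1.2 h), if_pos h]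
  · rw [if_neg (fun h' => h (h1.1 h')), if_neg h]

/-- **The order four character of a quaternion extension.** -/
theorem exists_psi (hur : ∀ w ∉ S, Unr L N w)
    (hQR' : QRStatement M' N (above M' S)) (hHN : HNStatement M M' (above M S))
    (hQR : QRStatement L M S) (hQR2 : QR2Statement L M₂ S) (hCH : ∃ w ∉ S, Split L M₃ w ∧
      ¬ Split L M₂ w) (hCH' : ∃ w ∉ S, Split L M w ∧ ¬ Split L M₂ w) :
    ∃ n : ℕ, 1 ≤ n ∧ ∃ ψ : HeightOneSpectrum (𝓞 M) → ℂˣ,
      (∀ x : Mˣ, Close (above M S) n x → ev ψ (dvs (Additive.ofMul x)) = 1) ∧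
      (∀ v ∈ above M S, ψ v = 1) ∧ (∀ v, ψ v ^ 4 = 1) ∧
      (∀ v ∉ above M S, ¬ Split L M (below L v) → ψ v = -1) ∧
      (∀ v v' : HeightOneSpectrum (𝓞 M), v ∉ above M S → below L v = below L v' → v ≠ v' →
        ψ v * ψ v' = 1) ∧
      (∀ u : HeightOneSpectrum (𝓞 N), below L u ∉ S → ∀ σ : N ≃ₐ[L] N,
        IsArithFrobAt (𝓞 L) σ u.asIdeal → (σ = 1 → ψ (below M u) = 1) ∧
          (σ = z → ψ (below M u) = -1) ∧
          (σ ≠ 1 → σ ≠ z → σ ∈ fixG L M N → ψ (below M u) ^ 2 = -1)) ∧
      ∃ v ∉ above M S, ψ v ^ 2 = -1 := by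
  classical
  haveI : Algebra.IsQuadraticExtension M M' := ⟨Q.dM'⟩
  haveI : IsGalois M M' := ⟨⟩
  haveI : Algebra.IsQuadraticExtension L M := ⟨Q.dM⟩
  haveI : IsGalois L M := ⟨⟩
  -- the function `χ'`
  have hχ : ∀ w : HeightOneSpectrum (𝓞 M'),
      chi M' N (above M' S) w = eps S z (below L (below M w)) := by
    intro w
    rw [below_below]
    by_cases hw : below L w ∈ S
    · have h1 : w ∈ above M' S := hw
      rw [chi, if_pos (Or.inl h1), eps, if_pos (Or.inl hw)]
    · obtain ⟨u, rfl⟩ := exists_above (F := N) w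
      rw [below_below] at hw ⊢
      obtain ⟨σ, hσ⟩ := exists_frob (L := L) u
      have hu := hur _ hw u rfl
      rw [eps_of_frob Q hw hu hσ, chi]
      have h1 : below M' u ∉ above M' S := fun h => hw (by
        have : below L (below M' u) ∈ S := h
        rwa [below_below] at this)
      have h2 := Q.split_top hu hσ
      by_cases h3 : σ = 1
      · rw [if_pos h3, if_pos (Or.inr (h2.2 h3))]
      · rw [if_neg h3, if_neg]
        rintro (h | h)
        · exact h1 h
        · exact h3 (h2.1 h)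
  obtain ⟨n₁, hn₁, ψ, hψ1, hψ2, hψ3⟩ := exists_psi_aux (M := M) (M' := M') (R := above M S) Q.dM'
    (fun v hv => unr_bot (L := M) (F := M') (N := N) (unr_top (L := L) (hur _ hv)))
    (chi M' N (above M' S)) (fun v => eps S z (below L v)) hχ
    (fun v hv => by
      have : below L v ∈ S := hv
      rw [eps, if_pos (Or.inl this)])
    (by
      obtain ⟨n, hn⟩ := hQR'
      refine ⟨n, fun x hx => hn x ?_⟩
      rwa [above_above_eq] at hx) hHN
  -- values of `ψ` in terms of Frobenius
  have val : ∀ u : HeightOneSpectrum (𝓞 N), below L u ∉ S → ∀ σ : N ≃ₐ[L] N,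
      IsArithFrobAt (𝓞 L) σ u.asIdeal →
      (σ ∈ fixG L M N → σ ≠ 1 → σ ≠ z → ψ (below M u) ^ 2 = -1) ∧
      ((σ ∉ fixG L M N ∨ σ = 1 ∨ σ = z) →
        ψ (below M u) = sgnC (if σ = 1 then 1 else -1)) := by
    intro u hw σ hσ
    have hu := hur _ hw u rfl
    have h1 : below M u ∉ above M S := fun h => hw (by
      have : below L (below M u) ∈ S := h
      rwa [below_below] at this)
    have h2 := hψ3 _ h1
    rw [below_below, eps_of_frob Q hw hu hσ, dg] at h2
    have h3 := Q.split_mid hu hσ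
    constructor
    · intro h4 h5 h6
      have h7 : ¬ Split M M' (below M u) := fun h => (h3.1 h h4).elim h5 h6
      rw [if_neg h7, if_neg h5, sgnC_neg_one] at h2
      exact_mod_cast h2
    · intro h4
      have h7 : Split M M' (below M u) := h3.2 fun h5 => by
        rcases h4 with h | h
        · exact absurd h5 h
        · exact h
      rw [if_pos h7, zpow_one] at h2
      exact h2
  have notS : ∀ {u : HeightOneSpectrum (𝓞 N)}, below M u ∉ above M S → below L u ∉ S := by
    intro u h h'
    exact h (by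
      show below L (below M u) ∈ S
      rwa [below_below])
  have inert : ∀ v ∉ above M S, ¬ Split L M (below L v) → ψ v = -1 := by
    intro v hv hs
    obtain ⟨u, rfl⟩ := exists_above (F := N) v
    rw [below_below] at hs
    have hw := notS hv
    obtain ⟨σ, hσ⟩ := exists_frob (L := L) u
    have hu := hur _ hw u rfl
    have h1 := (split_iff_frob (F := M) Q.dM hu hσ)
    have h2 : σ ∉ fixG L M N := fun h => hs (h1.2 h)
    have h3 := (val u hw σ hσ).2 (Or.inl h2)
    have h4 : σ ≠ 1 := fun h => h2 (h ▸ one_mem _)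
    rw [h3, if_neg h4, sgnC_neg_one]
  have case12 : ∀ v ∉ above M S, Split L M (below L v) → Split L M₂ (below L v) →
      ψ v = sgnC (eps S z (below L v)) := by
    intro v hv hs hs2
    obtain ⟨u, rfl⟩ := exists_above (F := N) v
    rw [below_below] at hs hs2 ⊢
    have hw := notS hv
    obtain ⟨σ, hσ⟩ := exists_frob (L := L) u
    have hu := hur _ hw u rfl
    rw [split_iff_frob (F := M) Q.dM hu hσ] at hs
    rw [split_iff_frob (F := M₂) Q.d2 hu hσ] at hs2
    rw [(val u hw σ hσ).2 (Or.inr (Q.i12 σ hs hs2)), eps_of_frob Q hw hu hσ]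
  have case1 : ∀ v ∉ above M S, Split L M (below L v) → ¬ Split L M₂ (below L v) →
      ψ v ^ 2 = -1 := by
    intro v hv hs hs2
    obtain ⟨u, rfl⟩ := exists_above (F := N) v
    rw [below_below] at hs hs2
    have hw := notS hv
    obtain ⟨σ, hσ⟩ := exists_frob (L := L) u
    have hu := hur _ hw u rfl
    rw [split_iff_frob (F := M) Q.dM hu hσ] at hs
    rw [split_iff_frob (F := M₂) Q.d2 hu hσ] at hs2
    exact (val u hw σ hσ).1 hs (fun h => hs2 (h ▸ one_mem _)) (fun h => hs2 (h ▸ Q.h2))
  have case13 : ∀ w ∉ S, Split L M w → Split L M₃ w → Split L M₂ w := by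
    intro w hw hs hs3
    obtain ⟨u, rfl⟩ := exists_above (F := N) w
    obtain ⟨σ, hσ⟩ := exists_frob (L := L) u
    have hu := hur _ hw u rfl
    rw [split_iff_frob (F := M) Q.dM hu hσ] at hs
    rw [split_iff_frob (F := M₃) Q.d3 hu hσ] at hs3
    rw [split_iff_frob (F := M₂) Q.d2 hu hσ]
    rcases Q.i13 σ hs hs3 with rfl | rfl
    · exact one_mem _
    · exact Q.h2
  -- the character `μ` of `L`
  obtain ⟨τ, hτ, hall⟩ := exists_tau (K := L) (F := M) Q.dM
  let P : HeightOneSpectrum (𝓞 L) → ℂˣ := fun w =>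
    ∏ v ∈ (finite_below (K := L) (F := M) w).toFinset, ψ v
  let μ : HeightOneSpectrum (𝓞 L) → ℂˣ := fun w => P w * sgnC (chi L M S w)
  have hPs : ∀ v : HeightOneSpectrum (𝓞 M), act τ v ≠ v →
      P (below L v) = ψ v * ψ (act τ v) := by
    intro v hv
    rw [← Finset.prod_pair (Ne.symm hv)]
    refine Finset.prod_congr ?_ fun _ _ => rfl
    ext v'
    rw [Set.Finite.mem_toFinset, Finset.mem_insert, Finset.mem_singleton]
    constructor
    · intro h
      exact eq_or_eq_act hall (w := v) (w' := v') (Eq.symm h)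
    · rintro (rfl | rfl)
      · rfl
      · exact below_act τ v
  have hPi : ∀ v : HeightOneSpectrum (𝓞 M), act τ v = v → P (below L v) = ψ v := by
    intro v hv
    rw [← Finset.prod_singleton ψ v]
    refine Finset.prod_congr ?_ fun _ _ => rfl
    ext v'
    rw [Set.Finite.mem_toFinset, Finset.mem_singleton]
    constructor
    · intro h
      rcases eq_or_eq_act hall (w := v) (w' := v') (Eq.symm h) with h | h
      · exact h
      · rw [h, hv]
    · rintro rfl
      rfl
  have hμS : ∀ w ∈ S, μ w = 1 := by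
    intro w hw
    have h1 : P w = 1 := Finset.prod_eq_one fun v hv => hψ2 v (by
      have h2 : below L v = w := (finite_below (K := L) (F := M) w).mem_toFinset.1 hv
      show below L v ∈ S
      rw [h2]
      exact hw)
    show P w * sgnC (chi L M S w) = 1
    rw [h1, chi, if_pos (Or.inl hw), map_one, one_mul]
  have hμi : ∀ w ∉ S, ¬ Split L M w → μ w = 1 := by
    intro w hw hs
    obtain ⟨v, rfl⟩ := exists_above (F := M) w
    have h1 : act τ v = v := by
      by_contra h
      exact hs ((split_iff hall v).2 h)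
    show P (below L v) * sgnC (chi L M S (below L v)) = 1
    rw [hPi v h1, chi, if_neg (fun h => h.elim hw hs), sgnC_neg_one, inert v hw hs]
    exact neg_one_mul (-1 : ℂˣ) |>.trans (neg_neg 1)
  have hμ12 : ∀ w ∉ S, Split L M w → Split L M₂ w → μ w = 1 := by
    intro w hw hs hs2
    obtain ⟨v, rfl⟩ := exists_above (F := M) w
    have h1 : act τ v ≠ v := (split_iff hall v).1 hs
    have hb : below L (act τ v) = below L v := below_act τ v
    show P (below L v) * sgnC (chi L M S (below L v)) = 1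
    rw [hPs v h1, chi, if_pos (Or.inr hs), map_one, mul_one, case12 v hw hs hs2,
      case12 (act τ v) (by
        show below L (act τ v) ∉ S
        rw [hb]; exact hw) (by rw [hb]; exact hs) (by rw [hb]; exact hs2), hb, sgnC_sq]
  have hμ1 : ∀ w ∉ S, Split L M w → ¬ Split L M₂ w → μ w ^ 2 = 1 := by
    intro w hw hs hs2
    obtain ⟨v, rfl⟩ := exists_above (F := M) w
    have h1 : act τ v ≠ v := (split_iff hall v).1 hs
    have hb : below L (act τ v) = below L v := below_act τ v
    show (P (below L v) * sgnC (chi L M S (below L v))) ^ 2 = 1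
    rw [hPs v h1, chi, if_pos (Or.inr hs), map_one, mul_one, mul_pow, case1 v hw hs hs2,
      case1 (act τ v) (by
        show below L (act τ v) ∉ S
        rw [hb]; exact hw) (by rw [hb]; exact hs) (by rw [hb]; exact hs2)]
    exact neg_one_mul (-1 : ℂˣ) |>.trans (neg_neg 1)
  have hμ2 : ∀ w ∉ S, Split L M₂ w → μ w = 1 := fun w hw h2 => by
    by_cases h : Split L M w
    · exact hμ12 w hw h h2
    · exact hμi w hw h
  have hμ3 : ∀ w ∉ S, Split L M₃ w → μ w = 1 := fun w hw h3 => by
    by_cases h : Split L M w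
    · exact hμ12 w hw h (case13 w hw h h3)
    · exact hμi w hw h
  have hμsq : ∀ w, μ w ^ 2 = 1 := fun w => by
    by_cases hw : w ∈ S
    · rw [hμS w hw, one_pow]
    by_cases h2 : Split L M₂ w
    · rw [hμ2 w hw h2, one_pow]
    by_cases h : Split L M w
    · exact hμ1 w hw h h2
    · rw [hμi w hw h, one_pow]
  obtain ⟨n₂, hn₂⟩ := hQR
  have hμx : ∀ x : Lˣ, Close S (max n₁ n₂) x → ev μ (dvs (Additive.ofMul x)) = 1 := by
    intro x hx
    rw [ev_mul_fun, ← map_ev (chi L M S) sgnC, hn₂ x (close_mono (le_max_right _ _) hx), map_one, mul_one,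
      ← ev_pullD, ← dvs_incU (K := L) (F := M) (R := S)
        (fun v hv => unr_bot (N := N) (hur v hv))
        (fun v hv => ord_eq_zero_of_close hn₁ (close_mono (le_max_left _ _) hx) hv)]
    exact hψ1 _ (close_incU (close_mono (le_max_left _ _) hx))
  have hμ : ∀ w, μ w = 1 := by
    intro w
    by_cases hw : w ∈ S
    · exact hμS w hw
    by_cases h2 : Split L M₂ w
    · exact hμ2 w hw h2
    obtain ⟨w1, hw1, hs3, hs2⟩ := hCH
    obtain ⟨x, hx, hx2⟩ := hQR2 (max n₁ n₂) (Finsupp.single w 1 - Finsupp.single w1 1) (by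
      rw [ev_sub, ev_single, ev_single, zpow_one, zpow_one, chi, chi,
        if_neg (fun h => h.elim hw h2), if_neg (fun h => h.elim hw1 hs2), div_self'])
    have h3 : ev μ (dvs (Additive.ofMul x) +
        (Finsupp.single w 1 - Finsupp.single w1 1)) = 1 := by
      refine ev_eq_one fun v => ?_
      by_cases hv : v ∈ S
      · rw [hμS v hv, one_zpow]
      rcases hx2 v hv with h | ⟨k, hk⟩
      · rw [hμ2 v hv h, one_zpow]
      · rw [Finsupp.add_apply, dvs_apply, hk, ← two_mul, zpow_mul, zpow_ofNat, hμsq, one_zpow]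
    rw [ev_add, hμx x hx, one_mul, ev_sub, ev_single, ev_single, zpow_one, zpow_one,
      hμ3 w1 hw1 hs3, div_one] at h3
    exact h3
  refine ⟨n₁, hn₁, ψ, hψ1, hψ2, fun v => ?_, inert, fun v v' hv hb hne => ?_,
    fun u hw σ hσ => ?_, ?_⟩
  · by_cases hv : v ∈ above M S
    · rw [hψ2 v hv, one_pow]
    · have h1 := hψ3 v hv
      rw [dg] at h1
      have h2 := sgnC_sq (eps S z (below L v))
      split_ifs at h1
      · rw [zpow_one] at h1
        rw [h1, show (4 : ℕ) = 2 * 2 from rfl, pow_mul, pow_two (sgnC _), h2, one_pow]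
      · have h3 : ψ v ^ 2 = sgnC (eps S z (below L v)) := by exact_mod_cast h1
        rw [show (4 : ℕ) = 2 * 2 from rfl, pow_mul, h3, pow_two, h2]
  · have h1 : v' = act τ v := (eq_or_eq_act hall hb).resolve_left (Ne.symm hne)
    have h2 : act τ v ≠ v := fun h => hne (by rw [h1, h])
    have h3 := hμ (below L v)
    have hs : Split L M (below L v) := (split_iff hall v).2 h2
    have h4 : P (below L v) * sgnC (chi L M S (below L v)) = 1 := h3
    rw [hPs v h2, chi, if_pos (Or.inr hs), map_one, mul_one] at h4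
    rw [h1]
    exact h4
  · refine ⟨fun h => ?_, fun h => ?_, fun h1 h2 h3 => (val u hw σ hσ).1 h3 h1 h2⟩
    · rw [(val u hw σ hσ).2 (Or.inr (Or.inl h)), if_pos h, map_one]
    · rw [(val u hw σ hσ).2 (Or.inr (Or.inr h)), if_neg (by rw [h]; exact Q.z_ne), sgnC_neg_one]
  · obtain ⟨w, hw, hs, hs2⟩ := hCH'
    obtain ⟨v, rfl⟩ := exists_above (F := M) w
    exact ⟨v, hw, case1 v hw hs hs2⟩

end main

end Fermat.Agent.LT.I8
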