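import Fermat.Agent.LT.I8.FinalG
import Fermat.Agent.CFT2.RamSym

/-!
# Ramification of the order four character

`exists_ram`, `exists_ramG` : `ψ` is ramified at every place of odd residue characteristic over
which `N / L` is ramified.
-/

set_option autoImplicit false
set_option linter.unusedSectionVars false

open NumberField IsDedekindDomain Module
open scoped Pointwise

universe u

namespace Fermat.Agent.LT.I8

open Fermat.Agent.CFT Fermat.Agent.CFT2 Fermat.Agent.CFT.SUH

section quad

variable {K F : Type*} [Field K] [NumberField K] [Field F] [NumberField F] [Algebra K F]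
  [IsGalois K F]

theorem ramificationIdx'_le (w : HeightOneSpectrum (𝓞 F)) :
    (below K w).asIdeal.ramificationIdx' w.asIdeal ≤ finrank K F := by
  rw [← Fermat.Agent.Density.sum_e_f F (below K w),
    Ideal.ramificationIdx'_eq_ramificationIdx _ _ (below K w).ne_bot]
  let Q : Fermat.Agent.Density.Above F (below K w) := ⟨w, rfl⟩
  refine le_trans ?_ (Finset.single_le_sum (fun _ _ ↦ Nat.zero_le _) (Finset.mem_univ Q))
  exact Nat.le_mul_of_pos_right _ (Fermat.Agent.Density.f_pos F Q)

/-- The norm of an element close to `1` above `Q` is close to `1`. -/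
theorem close_nrm (hd : finrank K F = 2) {Q : HeightOneSpectrum (𝓞 K)} {n : ℕ} (hn : 1 ≤ n)
    {y : Fˣ} (hy : ∀ w : HeightOneSpectrum (𝓞 F), below K w = Q → Close {w} (2 * n) y) :
    Close {Q} n (nrm K F y) := by
  obtain ⟨τ, hτ, hall⟩ := exists_tau (K := K) (F := F) hd
  obtain ⟨w, hw⟩ := exists_above (F := F) Q
  have h1 : Close {w} (2 * n) y := hy w hw
  have h2 : Close {w} (2 * n) (Units.map (τ : F →* F) y) := by
    intro w' hw'
    rw [Set.mem_singleton_iff] at hw'
    rw [hw']
    have h3 : act τ (act τ w) = w := by rw [act_act, tau_mul_tau hτ hall, act_one]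
    have h4 := valuation_act τ (act τ w) ((y : F) - 1)
    rw [h3, map_sub, map_one] at h4
    have h5 : ((Units.map (τ : F →* F) y : Fˣ) : F) = τ (y : F) := rfl
    rw [h5, h4]
    exact hy (act τ w) (by rw [below_act, hw]) _ rfl
  have h3 : Close {w} (2 * n) (incU K F (nrm K F y)) := by
    rw [coe_nrm hτ hall hd]
    exact close_mul (by omega) h1 h2
  intro Q' hQ'
  rw [Set.mem_singleton_iff] at hQ'
  rw [hQ']
  have h4 := h3 w rfl
  have h5 := HeightOneSpectrum.valuation_liesOver F (below K w) w (((nrm K F y : Kˣ) : K) - 1)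
  have h6 : ((incU K F (nrm K F y) : Fˣ) : F) - 1 =
      algebraMap K F (((nrm K F y : Kˣ) : K) - 1) := by
    rw [map_sub, map_one]
    rfl
  rw [h6, ← h5, hw] at h4
  have h7 : (Q.asIdeal.ramificationIdx' w.asIdeal) ≤ 2 := by
    have := ramificationIdx'_le (K := K) w
    rwa [hd, hw] at this
  by_cases h0 : ((nrm K F y : Kˣ) : K) - 1 = 0
  · rw [h0, map_zero]
    exact zero_le
  · obtain ⟨k, hk⟩ : ∃ k : ℤ, Q.valuation K (((nrm K F y : Kˣ) : K) - 1) = WithZero.exp k := by
      have h8 : Q.valuation K (((nrm K F y : Kˣ) : K) - 1) ≠ 0 := (Valuation.ne_zero_iff _).2 h0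
      exact ⟨WithZero.log _, (WithZero.exp_log h8).symm⟩
    rw [hk] at h4 ⊢
    rw [← WithZero.exp_nsmul, WithZero.exp_le_exp, nsmul_eq_mul] at h4
    rw [WithZero.exp_le_exp]
    by_contra hlt
    push Not at hlt
    have h9 : ((Q.asIdeal.ramificationIdx' w.asIdeal : ℕ) : ℤ) ≤ 2 := by exact_mod_cast h7
    have h10 : (0 : ℤ) ≤ ((Q.asIdeal.ramificationIdx' w.asIdeal : ℕ) : ℤ) := Int.natCast_nonneg _
    push_cast at h4
    rcases le_or_gt 0 k with hk0 | hk0
    · have : 0 ≤ ((Q.asIdeal.ramificationIdx' w.asIdeal : ℕ) : ℤ) * k := mul_nonneg h10 hk0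
      omega
    · nlinarith

theorem ord_nrm_eq_zero (hd : finrank K F = 2) {Q : HeightOneSpectrum (𝓞 K)}
    {y : Fˣ} (hy : ∀ w : HeightOneSpectrum (𝓞 F), below K w = Q → ord w y = 0) :
    ord Q (nrm K F y) = 0 := by
  obtain ⟨τ, hτ, hall⟩ := exists_tau (K := K) (F := F) hd
  obtain ⟨w, hw⟩ := exists_above (F := F) Q
  have h3 : act τ (act τ w) = w := by rw [act_act, tau_mul_tau hτ hall, act_one]
  have h1 : ord w (incU K F (nrm K F y)) = 0 := by
    rw [coe_nrm hτ hall hd, ord_mul, hy w hw, zero_add]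
    have h2 := ord_act τ (act τ w) y
    rw [h3] at h2
    rw [h2]
    exact hy _ (by rw [below_act, hw])
  rw [ord_incU, hw] at h1
  have h4 : (Q.asIdeal.ramificationIdx' w.asIdeal) ≠ 0 := by
    rw [← hw]
    exact Ideal.IsDedekindDomain.ramificationIdx'_ne_zero_of_liesOver w.asIdeal (below K w).ne_bot
  rcases mul_eq_zero.1 h1 with h5 | h5
  · exact absurd (by exact_mod_cast h5) h4
  · exact h5

end quad

theorem ev_scale {K : Type*} [Field K] [NumberField K] {G : Type*} [CommGroup G]
    (f : HeightOneSpectrum (𝓞 K) → G) (d : HeightOneSpectrum (𝓞 K) → ℤ)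
    (D : HeightOneSpectrum (𝓞 K) →₀ ℤ) : ev f (scale d D) = ev (fun v ↦ f v ^ d v) D := by
  rw [ev_eq_finprod, ev_eq_finprod]
  refine finprod_congr fun v ↦ ?_
  rw [scale_apply, zpow_mul]

section tower

variable {L M M' N : Type u} [Field L] [NumberField L] [Field M] [NumberField M]
  [Field M'] [NumberField M'] [Field N] [NumberField N]
  [Algebra L M] [Algebra L M'] [Algebra L N] [Algebra M M'] [Algebra M N] [Algebra M' N]
  [IsScalarTower L M N] [IsScalarTower L M' N] [IsScalarTower M M' N] [IsScalarTower L M M']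
  [IsGalois L N] {S : Set (HeightOneSpectrum (𝓞 L))} {z : N ≃ₐ[L] N} {n : ℕ}
  {ψ : HeightOneSpectrum (𝓞 M) → ℂˣ}

/-- `ψ(v)^f = χ_{N/M'}(w)` for `w | v`. -/
theorem psi_dg (h : PsiSpec M S z n ψ) (hz : z ≠ 1) (hzz : z * z = 1)
    (hsq : ∀ g : N ≃ₐ[L] N, g ≠ 1 → g ≠ z → g * g = z) (hd : finrank L M = 2)
    (hd' : finrank M M' = 2) (hdN : finrank M' N = 2)
    (hM' : ∀ g : N ≃ₐ[L] N, g ∈ fixG L M' N ↔ g = 1 ∨ g = z) (hM : z ∈ fixG L M N)
    (hur : ∀ w ∉ S, Unr L N w) (w : HeightOneSpectrum (𝓞 M')) (hw : w ∉ above M' S) :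
    ψ (below M w) ^ dg M M' (below M w) = sgnC (chi M' N (above M' S) w) := by
  obtain ⟨u, rfl⟩ := exists_above (F := N) w
  have hb : below M (below M' u) = below M u := below_below u
  have hb' : below L (below M' u) = below L u := below_below u
  have hbM : below L (below M u) = below L u := below_below u
  have huS : below L u ∉ S := by
    intro h1
    apply hw
    show below L (below M' u) ∈ S
    rwa [hb']
  have hu1 : (below L u).asIdeal.ramificationIdx' u.asIdeal = 1 := hur _ huS u rfl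
  obtain ⟨σ, hσ⟩ := exists_frob (L := L) u
  have hσu : act σ u = u := act_frob hσ
  rw [hb]
  have hs1 := split_iff_fixG (L := L) (F := M) (F' := M') (N := N) hd' u
  have hs2 := split_iff_fixG (L := L) (F := M') (F' := N) (N := N) hdN u
  have hchi : ∀ hns : ¬ Split M' N (below M' u), chi M' N (above M' S) (below M' u) = -1 := by
    intro hns
    exact if_neg (by rw [not_or]; exact ⟨hw, hns⟩)
  have hchi1 : ∀ hns : Split M' N (below M' u), chi M' N (above M' S) (below M' u) = 1 := by
    intro hns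
    exact if_pos (Or.inr hns)
  by_cases h1 : σ = 1
  · subst h1
    have hstab : ∀ g : N ≃ₐ[L] N, act g u = u → g = 1 := by
      intro g hg
      have := mem_zpowers_of_stab hu1 hσ hg
      rwa [Subgroup.zpowers_one_eq_bot, Subgroup.mem_bot] at this
    have e1 : Split M M' (below M u) := hs1.2 fun g _ hg ↦ by
      rw [hstab g hg]; exact one_mem _
    have e2 : Split M' N (below M' u) := hs2.2 fun g _ hg ↦ by
      rw [hstab g hg]; exact one_mem _
    rw [dg, if_pos e1, zpow_one, hchi1 e2, map_one]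
    exact h.frob_one u huS hσ
  by_cases h2 : σ = z
  · subst h2
    have hstab : ∀ g : N ≃ₐ[L] N, act g u = u → g = 1 ∨ g = σ := by
      intro g hg
      obtain ⟨k, rfl⟩ := mem_zpowers_of_stab hu1 hσ hg
      rcases Int.even_or_odd' k with ⟨j, rfl | rfl⟩
      · left
        show σ ^ (2 * j) = 1
        rw [zpow_mul, zpow_ofNat, sq, hzz, one_zpow]
      · right
        show σ ^ (2 * j + 1) = σ
        rw [zpow_add, zpow_mul, zpow_ofNat, sq, hzz, one_zpow, one_mul, zpow_one]
    have e1 : Split M M' (below M u) := hs1.2 fun g _ hg ↦ (hM' g).2 (hstab g hg)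
    have e2 : ¬ Split M' N (below M' u) := by
      intro h3
      have h4 := hs2.1 h3 σ ((hM' σ).2 (Or.inr rfl)) hσu
      rw [mem_fixG_top] at h4
      exact hz h4
    rw [dg, if_pos e1, zpow_one, hchi e2, sgnC_neg_one]
    exact h.frob_z u huS hσ
  have hσσ := hsq σ h1 h2
  have hzu : act z u = u := by
    rw [← hσσ, ← act_act, hσu, hσu]
  have e2 : ¬ Split M' N (below M' u) := by
    intro h3
    have h4 := hs2.1 h3 z ((hM' z).2 (Or.inr rfl)) hzu
    rw [mem_fixG_top] at h4
    exact hz h4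
  rw [hchi e2, sgnC_neg_one]
  by_cases hσM : σ ∈ fixG L M N
  · have e1 : ¬ Split M M' (below M u) := by
      intro h3
      have h4 := hs1.1 h3 σ hσM hσu
      rw [hM'] at h4
      exact h4.elim h1 h2
    rw [dg, if_neg e1]
    exact_mod_cast h.frob_four u huS σ hσ h1 h2 hσM
  · have e1 : Split M M' (below M u) := by
      refine hs1.2 fun g hgM hg ↦ ?_
      rw [hM']
      obtain ⟨k, rfl⟩ := mem_zpowers_of_stab hu1 hσ hg
      rcases pow_cases hzz hσσ k with h5 | h5 | h5 | h5
      · exact Or.inl h5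
      · exact Or.inr h5
      · exfalso
        apply hσM
        have : σ ^ k ∈ fixG L M N := hgM
        rwa [h5] at this
      · exfalso
        apply hσM
        have : σ ^ k ∈ fixG L M N := hgM
        rw [h5] at this
        have h6 := mul_mem this (inv_mem hM)
        rwa [mul_inv_cancel_right] at h6
    rw [dg, if_pos e1, zpow_one]
    refine h.inert _ ?_ ?_
    · intro h3
      have h4 : below L (below M u) ∈ S := h3
      rw [hbM] at h4
      exact huS h4
    · rw [hbM, split_iff_frob hd hu1 hσ]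
      exact hσM

/-- `ψ ∘ N = χ_{N/M'}`. -/
theorem ev_psi_nrm [IsGalois M M'] (h : PsiSpec M S z n ψ) (hz : z ≠ 1) (hzz : z * z = 1)
    (hsq : ∀ g : N ≃ₐ[L] N, g ≠ 1 → g ≠ z → g * g = z) (hd : finrank L M = 2)
    (hd' : finrank M M' = 2) (hdN : finrank M' N = 2)
    (hM' : ∀ g : N ≃ₐ[L] N, g ∈ fixG L M' N ↔ g = 1 ∨ g = z) (hM : z ∈ fixG L M N)
    (hur : ∀ w ∉ S, Unr L N w) (y : M'ˣ) :
    ev ψ (dvs (Additive.ofMul (nrm M M' y))) =
      sgnC (ev (chi M' N (above M' S)) (dvs (Additive.ofMul y))) := by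
  have h1 : ev ψ (dvs (Additive.ofMul (nrm M M' y))) =
      ev ψ (scale (dg M M') (Finsupp.mapDomain (below M) (dvs (Additive.ofMul y)))) := by
    refine ev_congr_right fun v ↦ ?_
    by_cases hv : v ∈ above M S
    · exact Or.inl (h.bad v hv)
    · right
      rw [scale_apply, dvs_apply]
      exact ord_nrm_eq hd' y (unr_bot (L := M) (F := M') (N := N) (unr_top (L := L) (hur _ hv)))
  rw [h1, ev_scale, ev_mapDomain, map_ev]
  congr 1
  ext1 w
  by_cases hw : w ∈ above M' S
  · have hw' : below M w ∈ above M S := by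
      show below L (below M w) ∈ S
      rw [below_below]
      exact hw
    rw [h.bad _ hw', one_zpow, chi_of_mem hw, map_one]
  · exact psi_dg h hz hzz hsq hd hd' hdN hM' hM hur w hw

/-- ramification, with the intermediate field given -/
theorem exists_ram_aux [IsTotallyComplex M'] [IsGalois M M'] (h : PsiSpec M S z n ψ) (hz : z ≠ 1)
    (hzz : z * z = 1)
    (hsq : ∀ g : N ≃ₐ[L] N, g ≠ 1 → g ≠ z → g * g = z) (hd : finrank L M = 2)
    (hd' : finrank M M' = 2) (hdN : finrank M' N = 2)
    (hM' : ∀ g : N ≃ₐ[L] N, g ∈ fixG L M' N ↔ g = 1 ∨ g = z) (hM : z ∈ fixG L M N)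
    (hS : S.Finite) (hur : ∀ w ∉ S, Unr L N w) {P : HeightOneSpectrum (𝓞 M)}
    (hP : P ∈ above M S) (h2 : (2 : 𝓞 M) ∉ P.asIdeal)
    (hI : ∀ u : HeightOneSpectrum (𝓞 N), below M u = P → z ∈ u.asIdeal.inertia (N ≃ₐ[L] N))
    (e : ℕ) :
    ∃ x : Mˣ, ord P x = 0 ∧ (∀ Q ∈ above M S, Q ≠ P → Close {Q} e x) ∧
      ev ψ (dvs (Additive.ofMul x)) = -1 := by
  have hgal : IsGalois M' N := IsGalois.tower_top_of_isGalois L M' N
  obtain ⟨u, hu⟩ := exists_above (F := N) P
  set P' : HeightOneSpectrum (𝓞 M') := below M' u with hP'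
  have hbP : below M P' = P := by rw [hP', below_below, hu]
  have hP'S : P' ∈ above M' S := by
    show below L P' ∈ S
    rw [hP', below_below]
    have : below L P ∈ S := hP
    rwa [← hu, below_below] at this
  have h2' : (2 : 𝓞 M') ∉ P'.asIdeal := by
    intro hmem
    apply h2
    rw [← hbP]
    show algebraMap (𝓞 M) (𝓞 M') 2 ∈ P'.asIdeal
    rwa [map_ofNat]
  have hram : ¬ Unr M' N P' := by
    intro hun
    have h3 := inertia_eq_bot (L := M') (u := u) (hun u rfl)
    have h4 : toFix z ((hM' z).2 (Or.inr rfl)) ∈ u.asIdeal.inertia (N ≃ₐ[M'] N) := by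
      intro x
      exact hI u hu x
    rw [h3, Subgroup.mem_bot] at h4
    apply hz
    ext x
    exact DFunLike.congr_fun h4 x
  have hur' : ∀ v ∉ above M' S, Unr M' N v := fun v hv => unr_top (L := L) (hur _ hv)
  obtain ⟨y, hy1, hy2, hy3⟩ := exists_chi_neg hdN (SUH.finite_above hS) hur' hP'S h2' hram
    (2 * (e + 1))
  have hord : ∀ w ∈ above M' S, ord w y = 0 := by
    intro w hw
    by_cases hwP : w = P'
    · rw [hwP]; exact hy1
    · exact ord_eq_zero_of_close (by omega) (hy2 w hw hwP) (Set.mem_singleton _)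
  have hab : ∀ Q ∈ above M S, ∀ w : HeightOneSpectrum (𝓞 M'), below M w = Q →
      w ∈ above M' S := by
    intro Q hQ w hw
    show below L w ∈ S
    rw [← below_below (F := M), hw]
    exact hQ
  refine ⟨nrm M M' y, ord_nrm_eq_zero hd' fun w hw ↦ hord w (hab P hP w hw), ?_, ?_⟩
  · intro Q hQ hQP
    refine close_mono (Nat.le_succ e) (close_nrm hd' (Nat.le_add_left 1 e) fun w hw ↦ ?_)
    refine hy2 w (hab Q hQ w hw) ?_
    intro h3
    apply hQP
    rw [← hw, h3, hbP]
  · rw [ev_psi_nrm h hz hzz hsq hd hd' hdN hM' hM hur, hy3, sgnC_neg_one]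

end tower

section final

variable {L M N : Type u} [Field L] [NumberField L] [Field M] [NumberField M] [Field N]
  [NumberField N] [Algebra L M] [Algebra L N] [Algebra M N] [IsScalarTower L M N] [IsGalois L N]
  {S : Set (HeightOneSpectrum (𝓞 L))} {z : N ≃ₐ[L] N} {n : ℕ}
  {ψ : HeightOneSpectrum (𝓞 M) → ℂˣ}

/-- **Ramification of `ψ`.** -/
theorem exists_ram [IsTotallyComplex L] (hcard : Nat.card (N ≃ₐ[L] N) = 8) (hz : z ≠ 1)
    (hsq : ∀ g : N ≃ₐ[L] N, g ≠ 1 → g ≠ z → g * g = z) (hd : finrank L M = 2)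
    (hS : S.Finite) (hur : ∀ w ∉ S, Unr L N w) (h : PsiSpec M S z n ψ)
    {P : HeightOneSpectrum (𝓞 M)}
    (hP : P ∈ above M S) (h2 : (2 : 𝓞 M) ∉ P.asIdeal)
    (hI : ∀ u : HeightOneSpectrum (𝓞 N), below M u = P → z ∈ u.asIdeal.inertia (N ≃ₐ[L] N))
    (e : ℕ) :
    ∃ x : Mˣ, ord P x = 0 ∧ (∀ Q ∈ above M S, Q ≠ P → Close {Q} e x) ∧
      ev ψ (dvs (Additive.ofMul x)) = -1 := by
  have hzz := z_mul_z hcard hz hsq
  have hidx : (fixG L M N).index = 2 := by rw [index_fixG, hd]
  obtain ⟨hzM, -⟩ := q8_subgroups hcard hz hsq (fixG L M N) hidx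
  -- the field
  let M' := IntermediateField.fixedField (Subgroup.zpowers z)
  have hmem : ∀ x : M, algebraMap M N x ∈ M' := by
    intro x
    rw [IntermediateField.mem_fixedField_iff]
    intro g hg
    exact (Subgroup.zpowers_le.2 hzM) hg x
  let f : M →+* M' :=
    { toFun := fun x => ⟨algebraMap M N x, hmem x⟩
      map_one' := Subtype.ext (map_one _)
      map_mul' := fun x y => Subtype.ext (map_mul _ x y)
      map_zero' := Subtype.ext (map_zero _)
      map_add' := fun x y => Subtype.ext (map_add _ x y) }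
  let _ : Algebra M M' := f.toAlgebra
  have : IsScalarTower M M' N := IsScalarTower.of_algebraMap_eq fun x => rfl
  have : IsScalarTower L M M' := IsScalarTower.of_algebraMap_eq fun x => by
    apply Subtype.ext
    show algebraMap L N x = algebraMap M N (algebraMap L M x)
    rw [← IsScalarTower.algebraMap_apply]
  have hzc : ∀ g, g ∈ Subgroup.zpowers z ↔ g = 1 ∨ g = z := by
    intro g
    constructor
    · rintro ⟨k, rfl⟩
      rcases Int.even_or_odd' k with ⟨j, rfl | rfl⟩
      · left
        show z ^ (2 * j) = 1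
        rw [zpow_mul, zpow_ofNat, sq, hzz, one_zpow]
      · right
        show z ^ (2 * j + 1) = z
        rw [zpow_add, zpow_mul, zpow_ofNat, sq, hzz, one_zpow, one_mul, zpow_one]
    · rintro (rfl | rfl)
      · exact one_mem _
      · exact Subgroup.mem_zpowers _
  have hzcard : Nat.card (Subgroup.zpowers z) = 2 := by
    rw [Nat.card_zpowers]
    exact orderOf_eq_prime (by rw [sq, hzz]) hz
  have hN : finrank M' N = 2 := by
    rw [IntermediateField.finrank_fixedField_eq_card, hzcard]
  have hM' : finrank M M' = 2 := by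
    have h1 := finrank_mul_finrank L M M'
    have h2 : finrank L M' = (Subgroup.zpowers z).index := finrank_fixedField _
    have h3 := (Subgroup.zpowers z).card_mul_index
    rw [hzcard, hcard] at h3
    rw [h2, hd] at h1
    omega
  have : IsTotallyComplex M' := isTotallyComplex_of_algebra L M'
  have : Algebra.IsQuadraticExtension M M' := ⟨hM'⟩
  have : IsGalois M M' := inferInstance
  exact exists_ram_aux (M' := M') h hz hzz hsq hd hM' hN
    (fun g => by rw [mem_fixG_fixedField, hzc]) hzM hS hur hP h2 hI e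

end final

section group

variable {L M N : Type u} [Field L] [NumberField L] [Field M] [NumberField M] [Field N]
  [NumberField N] [Algebra L M] [Algebra L N] [Algebra M N] [IsScalarTower L M N] [IsGalois L N]
  {G : Type*} [Group G] [Finite G] [MulSemiringAction G N] [IsGaloisGroup G L N]
  {S : Set (HeightOneSpectrum (𝓞 L))} {z : G} {n : ℕ} {ψ : HeightOneSpectrum (𝓞 M) → ℂˣ}

theorem PsiSpecG.toPsiSpec (h : PsiSpecG (N := N) M S z n ψ) :
    PsiSpec M S (eG L N G z) n ψ where
  pos := h.pos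
  ray := h.ray
  bad := h.bad
  pow_four := h.pow_four
  inert := h.inert
  split := h.split
  frob_one u hu hσ := h.frob_one u hu ((isArithFrobAt_iff L (1 : G) _).1 (by rwa [map_one]))
  frob_z u hu hσ := h.frob_z u hu ((isArithFrobAt_iff L _ _).1 hσ)
  frob_four u hu σ hσ h1 h2 h3 := by
    obtain ⟨g, rfl⟩ := (eG L N G).surjective σ
    exact h.frob_four u hu g ((isArithFrobAt_iff L _ _).1 hσ)
      (fun h4 => h1 (by rw [h4, map_one])) (fun h4 => h2 (by rw [h4])) h3
  exists_four := h.exists_four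

/-- **Ramification of `ψ`** at all bad places of odd residue characteristic. -/
theorem exists_ramG [IsTotallyComplex L] (hcard : Nat.card G = 8) (hz : z ≠ 1)
    (hsq : ∀ g : G, g ≠ 1 → g ≠ z → g * g = z) (hd : finrank L M = 2)
    (hS : S.Finite)
    (hur : ∀ u : HeightOneSpectrum (𝓞 N), below L u ∉ S → u.asIdeal.inertia G = ⊥)
    (hram : ∀ u : HeightOneSpectrum (𝓞 N), below L u ∈ S → u.asIdeal.inertia G ≠ ⊥)
    (h : PsiSpecG (N := N) M S z n ψ) {P : HeightOneSpectrum (𝓞 M)}
    (hP : below L P ∈ S) (h2 : (2 : 𝓞 M) ∉ P.asIdeal) (e : ℕ) :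
    ∃ x : Mˣ, P.valuation M (x : M) = 1 ∧
      (∀ P' : HeightOneSpectrum (𝓞 M), P' ≠ P → below L P' ∈ S →
        P'.valuation M ((x : M) - 1) ≤ WithZero.exp (-(e : ℤ))) ∧
      ev ψ (dvs (Additive.ofMul x)) = -1 := by
  set ε := eG L N G with hε
  have hI : ∀ u : HeightOneSpectrum (𝓞 N), below M u = P →
      ε z ∈ u.asIdeal.inertia (N ≃ₐ[L] N) := by
    intro u hu
    have h1 : below L u ∈ S := by
      rw [← below_below (F := M), hu]
      exact hP
    have h3 : z ∈ u.asIdeal.inertia G := by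
      obtain ⟨g, hg1⟩ := (u.asIdeal.inertia G).ne_bot_iff_exists_ne_one.1 (hram u h1)
      have hg1' : (g : G) ≠ 1 := fun h4 => hg1 (Subtype.ext h4)
      by_cases hgz : (g : G) = z
      · rw [← hgz]; exact g.2
      · rw [← hsq g hg1' hgz]
        exact mul_mem g.2 g.2
    intro x
    have h4 := h3 x
    rw [← eG_smul (L := L)] at h4
    exact h4
  obtain ⟨x, hx1, hx2, hx3⟩ := exists_ram (L := L) (N := N)
    (by rw [← hcard]; exact Nat.card_congr ε.symm.toEquiv) (z := ε z)
    (fun h => hz (ε.injective (h.trans (map_one ε).symm)))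
    (fun g h1 h2 => by
      obtain ⟨g, rfl⟩ := ε.surjective g
      rw [← map_mul, hsq g (fun h => h1 (by rw [h, map_one])) (fun h => h2 (by rw [h]))])
    hd hS (fun w hw => unr_of_inertia (G := G) fun u hu => hur u (by rw [hu]; exact hw))
    h.toPsiSpec (P := P) hP h2 hI e
  refine ⟨x, ?_, fun P' hP' hS' => hx2 P' hS' hP' P' rfl, hx3⟩
  rwa [ord_eq_iff, neg_zero, WithZero.exp_zero] at hx1

end group

end Fermat.Agent.LT.I8
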