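import Fermat.Agent.LT.I8.FinalG
import Fermat.Agent.LT.I8.Ram
import Fermat.Agent.LT.I.Rec
import Fermat.Agent.LT.K.Tower
import Fermat.Agent.LT.K.Frob
import Fermat.Agent.LT.K.Ram

/-!
# LT, piece I: the data `Setup R.L R.M` from the order four character

* `exists_setup_abs` : for a quaternion extension `N / L` and a quadratic subextension `M / L`;
* `exists_setup` : for `R : Octa`.
-/

set_option autoImplicit false
set_option linter.unusedSectionVars false

open NumberField IsDedekindDomain Module WithZero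
open scoped Pointwise

namespace Fermat.Agent.LT.I

open Fermat.LT Fermat.Agent.CFT Fermat.Agent.CFT2 Fermat.Agent.LT.I8

section abs

variable {L M N : Type} [Field L] [NumberField L] [Field M] [NumberField M] [Field N]
  [NumberField N] [Algebra L M] [Algebra L N] [Algebra M N] [IsScalarTower L M N] [IsGalois L N]
  {G : Type} [Group G] [Finite G] [MulSemiringAction G N] [IsGaloisGroup G L N]

theorem unr_of_unr {w : Pl L} (h : CFT2.Unr L M w) : I.Unr M w := by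
  rintro P rfl x
  have h1 := HeightOneSpectrum.valuation_liesOver M (SUH.below L P) P x
  rw [h P rfl, pow_one] at h1
  exact h1.symm

theorem dv_eq_dvs (x : Mˣ) : dv (x : M) = dvs (Additive.ofMul x) := by
  ext P
  rw [dv_apply, dvs_apply]
  apply ov_of_val
  exact valuation_eq_exp_ord P x

/-- **The data of the construction** for a quaternion extension. -/
theorem exists_setup_abs [IsTotallyComplex L] (hcard : Nat.card G = 8) {z : G}
    (hz : z ≠ 1) (hsq : ∀ g : G, g ≠ 1 → g ≠ z → g * g = z) (hd : finrank L M = 2)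
    {S : Set (HeightOneSpectrum (𝓞 L))} (hS : S.Finite)
    (hur : ∀ u : HeightOneSpectrum (𝓞 N), SUH.below L u ∉ S → u.asIdeal.inertia G = ⊥) :
    ∃ e0 N0 : ℕ, 1 ≤ e0 ∧ e0 ≤ N0 ∧
      (∀ P : Pl M, SUH.below L P ∈ S → (e0 : ℤ) + dF M P ≤ N0) ∧
      ∀ A : Arch L, ∃ Z : Setup L M, Z.A = A ∧ Z.S = hS.toFinset ∧ Z.e0 = e0 ∧ Z.N = N0 ∧
      Z.N1 = 2 * N0 + 1 ∧ Z.N2 = 2 * (2 * N0 + 1) ∧
      ∀ w ∉ S, ∃ u : Pl N, SUH.below L u = w ∧ ∃ g : G, IsArithFrobAt (𝓞 L) g u.asIdeal ∧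
        ((g = 1 ∧ Z.lamZ w = 2) ∨ (g = z ∧ Z.lamZ w = -2) ∨ (g ≠ 1 ∧ g ≠ z ∧ Z.lamZ w = 0)) := by
  classical
  obtain ⟨n, ψ, h⟩ := exists_psiSpecG (L := L) (M := M) (N := N) hcard hz hsq hd hS hur
  have hgalLM : Algebra.IsQuadraticExtension L M := ⟨hd⟩
  have hgal : IsGalois L M := inferInstance
  obtain ⟨c, hc, hall⟩ := exists_tau (K := L) (F := M) hd
  have hurL : ∀ w ∉ S, CFT2.Unr L N w := fun w hw =>
    unr_of_inertia (G := G) fun u hu => hur u (by rw [hu]; exact hw)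
  have hurM : ∀ w ∉ S, CFT2.Unr L M w := fun w hw => unr_bot (N := N) (hurL w hw)
  have hfin := SUH.finite_above (F := M) hS
  let N0 : ℕ := (n + 1) + ∑ P ∈ hfin.toFinset, (dF M P).natAbs
  have hN0 : ∀ P : Pl M, SUH.below L P ∈ S → ((n + 1 : ℕ) : ℤ) + dF M P ≤ N0 := by
    intro P hP
    have h1 : (dF M P).natAbs ≤ ∑ P ∈ hfin.toFinset, (dF M P).natAbs :=
      Finset.single_le_sum (f := fun P => (dF M P).natAbs) (fun _ _ => Nat.zero_le _)
        (hfin.mem_toFinset.2 hP)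
    have h2 : (N0 : ℤ) = ((n + 1 : ℕ) : ℤ) +
        ((∑ P ∈ hfin.toFinset, (dF M P).natAbs : ℕ) : ℤ) := by
      show (((n + 1) + ∑ P ∈ hfin.toFinset, (dF M P).natAbs : ℕ) : ℤ) = _
      push_cast
      rfl
    have h3 : dF M P ≤ ((∑ P ∈ hfin.toFinset, (dF M P).natAbs : ℕ) : ℤ) := by
      have : ((dF M P).natAbs : ℤ) ≤ ((∑ P ∈ hfin.toFinset, (dF M P).natAbs : ℕ) : ℤ) := by
        exact_mod_cast h1
      omega
    omega
  have hn0 : n + 1 ≤ N0 := Nat.le_add_right _ _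
  refine ⟨n + 1, N0, Nat.le_add_left _ _, hn0, hN0, fun A => ?_⟩
  have hemb : ∀ i : A.I, ∃ f : M →+* ℂ, ∀ x, f (algebraMap L M x) = A.emb i x := by
    intro i
    let _ : Algebra L ℂ := (A.emb i).toAlgebra
    let f : M →ₐ[L] ℂ := IsAlgClosed.lift
    exact ⟨f, fun x => f.commutes x⟩
  choose emb hemb using hemb
  let Q : Quad L M := ⟨A, c, hc, hd, emb, hemb⟩
  have hsplit : ∀ P : Pl M, Split L M (SUH.below L P) ↔ Q.cP P ≠ P := fun P => by
    rw [split_iff hall P]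
    rfl
  have hψc : ∀ P : Pl M, SUH.below L P ∉ S → ψ P * ψ (Q.cP P) = 1 := by
    intro P hP
    by_cases h1 : Q.cP P = P
    · rw [h1, h.inert P hP (by rw [hsplit]; exact fun h2 => h2 h1)]
      norm_num
    · exact h.split P (Q.cP P) hP (Q.below_cP P).symm (Ne.symm h1)
  let Z : Setup L M :=
    { Q with
      S := hS.toFinset
      unr := fun w hw => unr_of_unr (hurM w (by rwa [hS.mem_toFinset] at hw))
      ψ := ψ
      ψ_S := fun P hP => h.bad P (by rwa [hS.mem_toFinset] at hP)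
      ψ_four := h.pow_four
      ψ_cP := fun P hP => hψc P (by rwa [hS.mem_toFinset] at hP)
      ψ_inert := fun P hP hPP => h.inert P (by rwa [hS.mem_toFinset] at hP) (by
        rw [hsplit]; exact fun h2 => h2 hPP)
      ψ_sq := by
        obtain ⟨P, hP, hP2⟩ := h.exists_four
        exact ⟨P, by rw [hS.mem_toFinset]; exact hP, hP2⟩
      e0 := n + 1
      ψ_dv := fun x hx => by
        rw [dv_eq_dvs]
        exact h.ray x (fun P hP => le_trans (hx P (by rw [hS.mem_toFinset]; exact hP))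
          (exp_le_exp.2 (by push_cast; omega)))
      N := N0
      dM_le := fun P hP => by
        have := hN0 P (by rwa [hS.mem_toFinset] at hP)
        omega
      N1 := 2 * N0 + 1
      hN1 := le_rfl
      N2 := 2 * (2 * N0 + 1)
      hN2 := le_rfl
      he0 := by omega }
  refine ⟨Z, rfl, rfl, rfl, rfl, rfl, rfl, ?_⟩
  intro w hw
  obtain ⟨u, hu⟩ := SUH.exists_above (F := N) (up M w)
  have hub : SUH.below L u = w := by
    rw [← below_below (F := M), hu]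
    exact below_up w
  have hu1 : (SUH.below L u).asIdeal.ramificationIdx' u.asIdeal = 1 :=
    hurL _ (by rw [hub]; exact hw) u rfl
  obtain ⟨σ, hσ⟩ := exists_frob (L := L) u
  obtain ⟨g, rfl⟩ := (eG L N G).surjective σ
  have hg := (isArithFrobAt_iff L g u.asIdeal).1 hσ
  refine ⟨u, hub, g, hg, ?_⟩
  have huS : SUH.below L u ∉ S := by rw [hub]; exact hw
  have hsp : Q.cP (up M w) ≠ up M w ↔ eG L N G g ∈ fixG L M N := by
    rw [← hsplit, below_up, ← hub]
    exact split_iff_frob hd hu1 hσ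
  have hPw : SUH.below L (up M w) ∉ S := by rw [below_up]; exact hw
  have hlam1 : Q.cP (up M w) ≠ up M w → Z.lamZ w = (ψ (up M w) : ℂ) + ((ψ (up M w) : ℂ))⁻¹ := by
    intro h1
    have h2 : Z.lamZ w = (ψ (up M w) : ℂ) + (ψ (Q.cP (up M w)) : ℂ) := if_neg h1
    rw [h2, eq_inv_of_mul_eq_one_right (hψc _ hPw), Units.val_inv_eq_inv_val]
  have hlam0 : ¬ (Q.cP (up M w) ≠ up M w) → Z.lamZ w = 0 := by
    intro h1
    rw [ne_eq, not_not] at h1
    exact if_pos h1
  by_cases h1 : g = 1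
  · left
    refine ⟨h1, ?_⟩
    subst h1
    have h2 := h.frob_one u huS hg
    rw [hu] at h2
    rw [hlam1 (hsp.2 (by rw [map_one]; exact one_mem _)), h2, Units.val_one]
    norm_num
  have hcard' : Nat.card (N ≃ₐ[L] N) = 8 := by
    rw [← hcard]; exact Nat.card_congr (eG L N G).symm.toEquiv
  have hidx : (fixG L M N).index = 2 := by rw [index_fixG, hd]
  obtain ⟨hzM, -⟩ := q8_subgroups hcard' (z := eG L N G z)
    (fun h => hz ((eG L N G).injective (h.trans (map_one _).symm)))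
    (fun g h1 h2 => by
      obtain ⟨g, rfl⟩ := (eG L N G).surjective g
      rw [← map_mul, hsq g (fun h => h1 (by rw [h, map_one])) (fun h => h2 (by rw [h]))])
    (fixG L M N) hidx
  by_cases h2 : g = z
  · right; left
    refine ⟨h2, ?_⟩
    subst h2
    have h3 := h.frob_z u huS hg
    rw [hu] at h3
    rw [hlam1 (hsp.2 hzM), h3, Units.val_neg, Units.val_one]
    norm_num
  · right; right
    refine ⟨h1, h2, ?_⟩
    by_cases h3 : eG L N G g ∈ fixG L M N
    · have h4 := h.frob_four u huS g hg h1 h2 h3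
      rw [hu] at h4
      have h5 : ((ψ (up M w) : ℂˣ) : ℂ) ^ 2 = -1 := by
        rw [← Units.val_pow_eq_pow_val, h4, Units.val_neg, Units.val_one]
      rw [hlam1 (hsp.2 h3)]
      have h6 : ((ψ (up M w) : ℂˣ) : ℂ) ≠ 0 := Units.ne_zero _
      field_simp
      rw [h5]
      norm_num
    · exact hlam0 (fun h4 => h3 (hsp.1 h4))

end abs

section octa

open Fermat.Agent.LT.K

/-- `-1` as an element of `Q8` -/
def negQ8 : Q8 := ⟨-1, C4_le_Q8 (Z2_le_C4 (Or.inr rfl))⟩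

theorem negQ8_ne : negQ8 ≠ 1 := by
  intro h
  have h1 := congrArg (fun g : Q8 => (g : G3) 0 0) h
  change (-1 : G3) 0 0 = (1 : G3) 0 0 at h1
  revert h1
  decide

theorem Q8_sq (g : Q8) (h1 : g ≠ 1) (h2 : g ≠ negQ8) : g * g = negQ8 := by
  have key : ∀ a b c d : ZMod 3, isQ a b c d → ¬ (a = 1 ∧ b = 0 ∧ c = 0 ∧ d = 1) →
      ¬ (a = -1 ∧ b = 0 ∧ c = 0 ∧ d = -1) →
      a * a + b * c = -1 ∧ a * b + b * d = 0 ∧ c * a + d * c = 0 ∧ c * b + d * d = -1 := by
    decide +kernel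
  have h3 : ¬ ((g : G3) 0 0 = 1 ∧ (g : G3) 0 1 = 0 ∧ (g : G3) 1 0 = 0 ∧ (g : G3) 1 1 = 1) := by
    intro h
    exact h1 (Subtype.ext (G3.ext_iff'.2 h))
  have h4 : ¬ ((g : G3) 0 0 = -1 ∧ (g : G3) 0 1 = 0 ∧ (g : G3) 1 0 = 0 ∧ (g : G3) 1 1 = -1) := by
    intro h
    exact h2 (Subtype.ext (G3.ext_iff'.2 h))
  have h5 := key _ _ _ _ (mem_Q8.1 g.2) h3 h4
  apply Subtype.ext
  apply G3.ext_iff'.2
  rw [Subgroup.coe_mul, mul00, mul01, mul10, mul11]
  exact h5

theorem inertia_eq_bot_of_smul {N : Type*} [Field N] [NumberField N] {G : Type*} [Group G]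
    [MulSemiringAction G N] {P : Ideal (𝓞 N)} {h : G} (hP : P.inertia G = ⊥) :
    (h • P).inertia G = ⊥ := by
  rw [Subgroup.eq_bot_iff_forall] at hP ⊢
  intro g hg
  have h1 : h⁻¹ * g * h ∈ P.inertia G := by
    intro x
    have h2 := hg (h • x)
    change g • h • x - h • x ∈ h • P at h2
    change (h⁻¹ * g * h) • x - x ∈ P
    rw [Ideal.mem_pointwise_smul_iff_inv_smul_mem, smul_sub, inv_smul_smul] at h2
    rwa [mul_smul, mul_smul]
  have h3 := hP _ h1
  have h4 : g = h * (h⁻¹ * g * h) * h⁻¹ := by group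
  rw [h4, h3, mul_one, mul_inv_cancel]

/-- **The data of the construction** for an octahedral representation; the numbers do not depend on
the archimedean data. -/
theorem exists_setup_unif (R : Octa) :
    ∃ (S : Finset (Pl R.L)) (e0 N : ℕ), (∀ w, w ∈ S ↔ (R.ab w).inertia Q8 ≠ ⊥) ∧
      1 ≤ e0 ∧ e0 ≤ N ∧ (∀ P : Pl R.M, SUH.below R.L P ∈ S → (e0 : ℤ) + dF R.M P ≤ N) ∧
      ∀ A : Arch R.L, ∃ Z : Setup R.L R.M, Z.A = A ∧ Z.S = S ∧ Z.e0 = e0 ∧ Z.N = N ∧
        Z.N1 = 2 * N + 1 ∧ Z.N2 = 2 * (2 * N + 1) ∧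
        ∀ w ∉ S, Z.lamZ w = ((R.lam w : ℤ) : ℂ) := by
  have hgal : IsGalois R.L R.N := IsGalois.tower_top_of_isGalois ℚ R.L R.N
  let S : Set (Pl R.L) := {w | (R.ab w).inertia Q8 ≠ ⊥}
  have hS : S.Finite := by
    refine (HasseNorm.finite_mem (K := R.L) (p := 3) (by norm_num)).subset fun w hw => ?_
    by_contra h3
    apply hw
    refine R.inertia_Q8 (R.ab_ne_bot w) ?_
    intro h4
    apply h3
    change ((3 : ℕ) : 𝓞 R.L) ∈ w.asIdeal
    rw [← R.under_ab w, Ideal.under_def, Ideal.mem_comap, map_natCast]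
    exact_mod_cast h4
  have hur : ∀ u : Pl R.N, SUH.below R.L u ∉ S → u.asIdeal.inertia Q8 = ⊥ := by
    intro u hu
    have h1 : (R.ab (SUH.below R.L u)).inertia Q8 = ⊥ := by
      by_contra h2
      exact hu h2
    obtain ⟨h, hh⟩ := R.exists_smul_ab (SUH.below R.L u) u.asIdeal rfl
    rw [hh]
    exact inertia_eq_bot_of_smul h1
  obtain ⟨e0, N, he0, heN, hN, hZ⟩ := exists_setup_abs (L := R.L) (M := R.M) (N := R.N)
    (G := Q8) card_Q8 negQ8_ne Q8_sq R.finrank_LM hS hur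
  refine ⟨hS.toFinset, e0, N, fun w => hS.mem_toFinset, he0, heN,
    fun P hP => hN P (hS.mem_toFinset.1 hP), fun A => ?_⟩
  obtain ⟨Z, hA, hZS, h1, h2, h3, h4, hlam⟩ := hZ A
  refine ⟨Z, hA, hZS, h1, h2, h3, h4, fun w hw => ?_⟩
  rw [hS.mem_toFinset] at hw
  obtain ⟨u, hu, g, hg, hcases⟩ := hlam w hw
  have hI : u.asIdeal.inertia Q8 = ⊥ := hur u (by rw [hu]; exact hw)
  have h1 := R.lam_eq w u.asIdeal (by rw [← hu]; rfl) hI hg
  rw [h1, trQ]
  rcases hcases with ⟨rfl, h2⟩ | ⟨rfl, h2⟩ | ⟨h3, h4, h2⟩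
  · rw [h2, if_pos (by rfl)]
    norm_num
  · have h5 : ((negQ8 : Q8) : G3) ≠ 1 := fun h => negQ8_ne (Subtype.ext h)
    rw [h2, if_neg h5, if_pos (by rfl)]
    norm_num
  · have h5 : ((g : Q8) : G3) ≠ 1 := fun h => h3 (Subtype.ext h)
    have h6 : ((g : Q8) : G3) ≠ -1 := fun h => h4 (Subtype.ext h)
    rw [h2, if_neg h5, if_neg h6]
    norm_num

/-- **The data of the construction** for an octahedral representation. -/
theorem exists_setup (R : Octa) (A : Arch R.L) :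
    ∃ Z : Setup R.L R.M, Z.A = A ∧ (∀ w, w ∈ Z.S ↔ (R.ab w).inertia Q8 ≠ ⊥) ∧
      (∀ P, Z.Bad P → (Z.e0 : ℤ) + dF R.M P ≤ Z.N) ∧
      ∀ w ∉ Z.S, Z.lamZ w = ((R.lam w : ℤ) : ℂ) := by
  obtain ⟨S, e0, N, hS, -, -, hN, hZ⟩ := exists_setup_unif R
  obtain ⟨Z, hA, hZS, h1, h2, -, -, hlam⟩ := hZ A
  subst hZS
  subst h1
  subst h2
  exact ⟨Z, hA, hS, hN, hlam⟩

end octa

end Fermat.Agent.LT.I
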