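import Fermat.Agent.LT.I8.Quad

/-!
# Descent of a quadratic character along a quadratic extension

`M' / M` quadratic, `N / M'` quadratic, and the quadratic symbol of `N / M'` is the pull-back of a
function `χ'` on the places of `M`. Then there is a ray class character `ψ` of `M` with values in
`ℂˣ` such that `ψ v = χ' v` for `v` split in `M'` and `ψ v ^ 2 = χ' v` for `v` inert in `M'`.
-/

set_option autoImplicit false
set_option linter.unusedSectionVars false

open NumberField IsDedekindDomain Module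

namespace Fermat.Agent.LT.I8

open Fermat.Agent.CFT Fermat.Agent.CFT2 Fermat.Agent.CFT.SUH

section close

variable {K : Type*} [Field K] [NumberField K] (R : Set (HeightOneSpectrum (𝓞 K))) {n : ℕ}

/-- the subgroup of elements close to `1` -/
def closeSub (hn : 1 ≤ n) : Subgroup Kˣ where
  carrier := {x | Close R n x}
  one_mem' := fun v _ => by
    rw [Units.val_one, sub_self, map_zero]
    exact zero_le
  mul_mem' := fun {x y} hx hy v hv => by
    have h1 : v.valuation K (x : K) = 1 := by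
      rw [valuation_eq_exp_ord, ord_eq_zero_of_close hn hx hv, neg_zero, WithZero.exp_zero]
    have h2 : ((x * y : Kˣ) : K) - 1 = x * (y - 1) + (x - 1) := by
      rw [Units.val_mul]; ring
    rw [h2]
    refine (Valuation.map_add _ _ _).trans (max_le ?_ (hx v hv))
    rw [map_mul, h1, one_mul]
    exact hy v hv
  inv_mem' := fun {x} hx v hv => by
    have h1 : v.valuation K (x : K) = 1 := by
      rw [valuation_eq_exp_ord, ord_eq_zero_of_close hn hx hv, neg_zero, WithZero.exp_zero]
    have h2 : ((x⁻¹ : Kˣ) : K) - 1 = -((x : K)⁻¹ * (x - 1)) := by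
      rw [Units.val_inv_eq_inv_val, mul_sub, inv_mul_cancel₀ (Units.ne_zero x)]
      ring
    rw [h2, Valuation.map_neg, map_mul, map_inv₀, h1, inv_one, one_mul]
    exact hx v hv

theorem mem_closeSub (hn : 1 ≤ n) {x : Kˣ} : x ∈ closeSub R hn ↔ Close R n x := Iff.rfl

end close

section scale

variable {X : Type*}

/-- pointwise multiplication of divisors by integers -/
noncomputable def scale (d : X → ℤ) : (X →₀ ℤ) →+ (X →₀ ℤ) where
  toFun D := Finsupp.ofSupportFinite (fun v => d v * D v) (D.support.finite_toSet.subset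
    fun v hv => Finset.mem_coe.2 (Finsupp.mem_support_iff.2 fun h => hv (by
      show d v * D v = 0
      rw [h, mul_zero])))
  map_zero' := by
    ext v
    exact mul_zero _
  map_add' D D' := by
    ext v
    exact mul_add _ _ _

@[simp] theorem scale_apply (d : X → ℤ) (D : X →₀ ℤ) (v : X) : scale d D v = d v * D v := rfl

end scale

section ev

variable {K : Type*} [Field K] [NumberField K] {G : Type*} [CommGroup G]

theorem ev_eq_one {f : HeightOneSpectrum (𝓞 K) → G} {D : HeightOneSpectrum (𝓞 K) →₀ ℤ}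
    (h : ∀ v, f v ^ D v = 1) : ev f D = 1 :=
  Finset.prod_eq_one fun v _ => h v

theorem ev_congr_right {f : HeightOneSpectrum (𝓞 K) → G} {D D' : HeightOneSpectrum (𝓞 K) →₀ ℤ}
    (h : ∀ v, f v = 1 ∨ D v = D' v) : ev f D = ev f D' := by
  rw [← div_eq_one, ← ev_sub]
  refine ev_eq_one fun v => ?_
  rcases h v with h | h
  · rw [h, one_zpow]
  · rw [Finsupp.sub_apply, h, sub_self, zpow_zero]

end ev

/-- the inclusion `{±1} → ℂˣ` -/
noncomputable def sgnC : ℤˣ →* ℂˣ := Units.map (Int.castRingHom ℂ : ℤ →* ℂ)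

@[simp] theorem coe_sgnC (u : ℤˣ) : ((sgnC u : ℂˣ) : ℂ) = ((u : ℤ) : ℂ) := rfl

@[simp] theorem sgnC_neg_one : sgnC (-1) = -1 := by
  ext
  rw [coe_sgnC]
  simp

theorem sgnC_sq (u : ℤˣ) : sgnC u * sgnC u = 1 := by
  rw [← map_mul, Int.units_mul_self, map_one]

section construct

variable {M M' : Type*} [Field M] [NumberField M] [Field M'] [NumberField M'] [Algebra M M']
  [IsGalois M M'] {R : Set (HeightOneSpectrum (𝓞 M))}

open Classical in
/-- **Construction of `ψ`.** -/
theorem exists_psi_aux (hd : finrank M M' = 2) (hR : ∀ v ∉ R, Unr M M' v)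
    (χ₁ : HeightOneSpectrum (𝓞 M') → ℤˣ) (χ' : HeightOneSpectrum (𝓞 M) → ℤˣ)
    (hχ : ∀ w, χ₁ w = χ' (below M w)) (hχR : ∀ v ∈ R, χ' v = 1)
    (hQR : ∃ n : ℕ, ∀ x : M'ˣ, Close (above M' R) n x → ev χ₁ (dvs (Additive.ofMul x)) = 1)
    (hHN : HNStatement M M' R) :
    ∃ n : ℕ, 1 ≤ n ∧ ∃ ψ : HeightOneSpectrum (𝓞 M) → ℂˣ,
      (∀ x : Mˣ, Close R n x → ev ψ (dvs (Additive.ofMul x)) = 1) ∧ (∀ v ∈ R, ψ v = 1) ∧
      ∀ v ∉ R, ψ v ^ dg M M' v = sgnC (χ' v) := by
  obtain ⟨n', hn'⟩ := hQR
  obtain ⟨n₀, hn₀⟩ := hHN n'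
  set n := max n₀ 1 with hn
  have hn1 : 1 ≤ n := le_max_right _ _
  let d : HeightOneSpectrum (𝓞 M) → ℤ := fun v => if v ∈ R then 1 else dg M M' v
  let B := (HeightOneSpectrum (𝓞 M) →₀ ℤ) × Additive (closeSub R hn1)
  let g : B →+ (HeightOneSpectrum (𝓞 M) →₀ ℤ) :=
    AddMonoidHom.coprod (scale d) (dvs.comp (closeSub R hn1).subtype.toAdditive)
  let φ : B →+ Additive ℂˣ :=
    AddMonoidHom.coprod (evH fun v => sgnC (χ' v)) 0
  have hg : ∀ (b : HeightOneSpectrum (𝓞 M) →₀ ℤ) (x : Additive (closeSub R hn1)),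
      g (b, x) = scale d b + dvs (Additive.ofMul ((x.toMul : closeSub R hn1) : Mˣ)) := fun _ _ => rfl
  have hφ : ∀ (b : HeightOneSpectrum (𝓞 M) →₀ ℤ) (x : Additive (closeSub R hn1)),
      φ (b, x) = Additive.ofMul (ev (fun v => sgnC (χ' v)) b) := fun b x => add_zero _
  clear_value g φ
  have key : ∀ b : B, g b = 0 → φ b = 0 := by
    rintro ⟨b, x⟩ hb
    rw [hg] at hb
    set y : Mˣ := ((x.toMul : closeSub R hn1) : Mˣ) with hy
    have hyc : Close R n y := x.toMul.2
    have hyc' : Close R n y⁻¹ := (closeSub R hn1).inv_mem hyc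
    have h1 : ∀ v, d v * b v = ord v y⁻¹ := by
      intro v
      have h2 : d v * b v + ord v y = 0 := DFunLike.congr_fun hb v
      rw [ord_inv]
      omega
    have h2 : ∀ v ∉ R, dg M M' v * b v = ord v y⁻¹ := by
      intro v hv
      have h3 := h1 v
      simp only [d, if_neg hv] at h3
      exact h3
    obtain ⟨t, ht, htc⟩ := hn₀ y⁻¹ (close_mono (le_max_left _ _) hyc') fun v hv => by
      by_cases hs : Split M M' v
      · exact Or.inl hs
      · right
        rw [← h2 v hv, dg, if_neg hs]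
        exact even_two_mul _
    have h3 := hn' t htc
    have h4 : ev χ₁ (dvs (Additive.ofMul t)) =
        ev χ' (Finsupp.mapDomain (below M) (dvs (Additive.ofMul t))) := by
      rw [ev_mapDomain]
      exact ev_congr _ fun w _ => hχ w
    have h5 : ev χ' b = ev χ' (Finsupp.mapDomain (below M) (dvs (Additive.ofMul t))) := by
      refine ev_congr_right fun v => ?_
      by_cases hv : v ∈ R
      · exact Or.inl (hχR v hv)
      · right
        have h6 := ord_nrm_eq hd t (hR v hv)
        rw [ht, ← h2 v hv] at h6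
        exact mul_left_cancel₀ (dg_pos v).ne' h6
    have h6 : ev χ' b = 1 := by rw [h5, ← h4, h3]
    rw [hφ, ← map_ev, h6, map_one]
    rfl
  obtain ⟨Ψ, hΨ⟩ := exists_extension g φ key
  have hsc : ∀ v, scale d (Finsupp.single v 1) = d v • Finsupp.single v 1 := by
    intro v
    ext w
    rw [scale_apply, Finsupp.smul_apply, smul_eq_mul]
    by_cases hw : w = v
    · subst hw
      rfl
    · rw [Finsupp.single_eq_of_ne hw, mul_zero, mul_zero]
  have h0 : dvs (Additive.ofMul (((0 : Additive (closeSub R hn1)).toMul : closeSub R hn1) : Mˣ)) =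
      0 := map_zero dvs
  refine ⟨n, hn1, fun v => (Ψ (Finsupp.single v 1)).toMul, fun x hx => ?_, fun v hv => ?_,
    fun v hv => ?_⟩
  · have h1 := hΨ (0, Additive.ofMul ⟨x, hx⟩)
    rw [hg, hφ, map_zero, zero_add, ev_zero] at h1
    have h2 : Ψ (dvs (Additive.ofMul x)) = Additive.ofMul 1 := h1
    rw [← eq_ev, h2]
    rfl
  · have h1 := hΨ (Finsupp.single v 1, 0)
    rw [hg, hφ, h0, add_zero, hsc, ev_single, hχR v hv, map_one, one_zpow] at h1
    have h2 : d v = 1 := if_pos hv
    rw [h2, one_smul] at h1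
    show (Ψ (Finsupp.single v 1)).toMul = 1
    rw [h1]
    rfl
  · have h1 := hΨ (Finsupp.single v 1, 0)
    rw [hg, hφ, h0, add_zero, hsc, ev_single, zpow_one, map_zsmul] at h1
    have h2 : d v = dg M M' v := if_neg hv
    rw [h2] at h1
    show (Ψ (Finsupp.single v 1)).toMul ^ dg M M' v = _
    rw [← toMul_zsmul, h1]
    rfl

end construct

end Fermat.Agent.LT.I8
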