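import Fermat.Agent.LT.I8.Basic

/-!
# Places in quadratic extensions

* `ord_incU`, `ord_act` : orders under inclusion and automorphisms;
* `split_iff` : splitting in terms of the nontrivial automorphism;
* `ord_nrm` : the order of a norm;
* `close_incU`, `ord_eq_zero_of_close`.
-/

set_option autoImplicit false
set_option linter.unusedSectionVars false

open NumberField IsDedekindDomain Module

namespace Fermat.Agent.LT.I8

open Fermat.Agent.CFT Fermat.Agent.CFT2 Fermat.Agent.CFT.SUH

section general

variable {K F : Type*} [Field K] [NumberField K] [Field F] [NumberField F] [Algebra K F]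

variable (K F) in
/-- the inclusion `Kˣ → Fˣ` -/
noncomputable def incU : Kˣ →* Fˣ := Units.map (algebraMap K F : K →* F)

@[simp] theorem coe_incU (x : Kˣ) : ((incU K F x : Fˣ) : F) = algebraMap K F x := rfl

theorem ord_incU (w : HeightOneSpectrum (𝓞 F)) (x : Kˣ) :
    ord w (incU K F x) =
      (below K w).asIdeal.ramificationIdx' w.asIdeal * ord (below K w) x := by
  have h := HeightOneSpectrum.valuation_liesOver F (below K w) w (x : K)
  rw [ord_eq_iff, coe_incU, ← h, valuation_eq_exp_ord, ← WithZero.exp_nsmul, nsmul_eq_mul]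
  congr 1
  ring

theorem ord_incU_of_unr {v : HeightOneSpectrum (𝓞 K)} (hv : Unr K F v)
    {w : HeightOneSpectrum (𝓞 F)} (hw : below K w = v) (x : Kˣ) :
    ord w (incU K F x) = ord v x := by
  rw [ord_incU, hw, hv w hw, Nat.cast_one, one_mul]

theorem ord_act (σ : F ≃ₐ[K] F) (w : HeightOneSpectrum (𝓞 F)) (y : Fˣ) :
    ord (act σ w) (Units.map (σ : F →* F) y) = ord w y := by
  rw [ord_eq_iff]
  have h := valuation_act σ w (y : F)
  rw [valuation_eq_exp_ord] at h
  exact h

theorem close_mono {R : Set (HeightOneSpectrum (𝓞 K))} {m n : ℕ} (h : m ≤ n) {x : Kˣ}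
    (hx : Close R n x) : Close R m x := fun v hv =>
  (hx v hv).trans (WithZero.exp_le_exp.2 (by omega))

theorem close_incU {R : Set (HeightOneSpectrum (𝓞 K))} {n : ℕ} {x : Kˣ} (hx : Close R n x) :
    Close (above F R) n (incU K F x) := by
  intro w hw
  have h := HeightOneSpectrum.valuation_liesOver F (below K w) w ((x : K) - 1)
  have h1 : (below K w).asIdeal.ramificationIdx' w.asIdeal ≠ 0 :=
    Ideal.IsDedekindDomain.ramificationIdx'_ne_zero_of_liesOver w.asIdeal (below K w).ne_bot
  rw [coe_incU, ← map_one (algebraMap K F), ← map_sub, ← h]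
  refine (pow_le_pow_left' (hx _ hw) _).trans ?_
  rw [← WithZero.exp_nsmul, WithZero.exp_le_exp, nsmul_eq_mul]
  have h2 : (1 : ℤ) ≤ ((below K w).asIdeal.ramificationIdx' w.asIdeal : ℤ) := by
    exact_mod_cast Nat.one_le_iff_ne_zero.2 h1
  nlinarith [Int.natCast_nonneg n]

theorem ord_eq_zero_of_close {R : Set (HeightOneSpectrum (𝓞 K))} {n : ℕ} (hn : 1 ≤ n) {x : Kˣ}
    (hx : Close R n x) {v : HeightOneSpectrum (𝓞 K)} (hv : v ∈ R) : ord v x = 0 := by
  rw [ord_eq_iff, neg_zero, WithZero.exp_zero]
  have h1 : v.valuation K ((x : K) - 1) < 1 := by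
    refine (hx v hv).trans_lt ?_
    show WithZero.exp (-(n : ℤ)) < WithZero.exp (0 : ℤ)
    rw [WithZero.exp_lt_exp]
    omega
  have h3 : v.valuation K ((x : K) - 1) < v.valuation K (1 : K) := by
    rw [map_one (v.valuation K)]
    exact h1
  have h2 := (v.valuation K).map_add_eq_of_lt_left h3
  rwa [add_sub_cancel, map_one (v.valuation K)] at h2

theorem finite_below (v : HeightOneSpectrum (𝓞 K)) :
    ((below K : HeightOneSpectrum (𝓞 F) → HeightOneSpectrum (𝓞 K)) ⁻¹' {v}).Finite :=
  SUH.finite_above (F := F) (Set.finite_singleton v)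

/-- The divisor of an element of `K` in `F`, outside a set containing the ramified places. -/
theorem dvs_incU {R : Set (HeightOneSpectrum (𝓞 K))} (hR : ∀ v ∉ R, Unr K F v) {x : Kˣ}
    (hx : ∀ v ∈ R, ord v x = 0) :
    dvs (Additive.ofMul (incU K F x)) = pullD (below K) finite_below (dvs (Additive.ofMul x)) := by
  ext w
  rw [pullD_apply, dvs_apply, dvs_apply]
  by_cases h : below K w ∈ R
  · rw [ord_incU, hx _ h, mul_zero]
  · exact ord_incU_of_unr (hR _ h) rfl x

end general

section quad

variable {K F : Type*} [Field K] [NumberField K] [Field F] [NumberField F] [Algebra K F]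
  [IsGalois K F]

theorem exists_tau (hd : finrank K F = 2) : ∃ τ : F ≃ₐ[K] F, τ ≠ 1 ∧ ∀ σ, σ = 1 ∨ σ = τ := by
  have h1 : Nat.card (F ≃ₐ[K] F) = 2 := by rw [IsGalois.card_aut_eq_finrank, hd]
  obtain ⟨a, b, hab, hall⟩ := (Nat.card_eq_two_iff).1 h1
  have hall' : ∀ σ : F ≃ₐ[K] F, σ = a ∨ σ = b := by
    intro σ
    have : σ ∈ ({a, b} : Set (F ≃ₐ[K] F)) := by rw [hall]; trivial
    simpa using this
  rcases hall' 1 with h | h
  · exact ⟨b, by rw [h]; exact hab.symm, fun σ => by rw [h]; exact hall' σ⟩
  · exact ⟨a, by rw [h]; exact hab, fun σ => by rw [h]; exact (hall' σ).symm⟩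

variable {τ : F ≃ₐ[K] F} (hτ : τ ≠ 1) (hall : ∀ σ : F ≃ₐ[K] F, σ = 1 ∨ σ = τ)

include hτ hall in
theorem tau_mul_tau : τ * τ = 1 := by
  rcases hall (τ * τ) with h | h
  · exact h
  · exact absurd (mul_left_cancel (h.trans (mul_one τ).symm)) hτ

include hall in
theorem eq_or_eq_act {w w' : HeightOneSpectrum (𝓞 F)} (h : below K w = below K w') :
    w' = w ∨ w' = act τ w := by
  obtain ⟨σ, rfl⟩ := exists_act_eq w w' h
  rcases hall σ with rfl | rfl
  · left; exact act_one w
  · right; rfl

include hall in
theorem split_iff (w : HeightOneSpectrum (𝓞 F)) : Split K F (below K w) ↔ act τ w ≠ w := by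
  constructor
  · rintro ⟨w1, w2, hne, h1, h2⟩ h
    apply hne
    rcases eq_or_eq_act hall h1.symm with e1 | e1 <;>
      rcases eq_or_eq_act hall h2.symm with e2 | e2 <;>
      simp only [e1, e2, h]
  · intro h
    exact ⟨w, act τ w, h.symm, rfl, below_act τ w⟩

include hτ hall in
theorem coe_nrm (hd : finrank K F = 2) (y : Fˣ) :
    incU K F (nrm K F y) = y * Units.map (τ : F →* F) y := by
  haveI : Fact (Nat.Prime 2) := ⟨Nat.prime_two⟩
  ext
  have h := prod_iterate_eq_norm (p := 2) hd hτ (y : F)
  rw [Finset.prod_range_succ, Finset.prod_range_succ, Finset.prod_range_zero, one_mul, pow_zero,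
    pow_one] at h
  exact h.symm

include hτ hall in
theorem ord_nrm (hd : finrank K F = 2) (y : Fˣ) (w : HeightOneSpectrum (𝓞 F))
    (hv : Unr K F (below K w)) :
    ord (below K w) (nrm K F y) = ord w y + ord (act τ w) y := by
  rw [← ord_incU_of_unr hv rfl, coe_nrm hτ hall hd, ord_mul]
  congr 1
  have h1 : act τ (act τ w) = w := by rw [act_act, tau_mul_tau hτ hall, act_one]
  have h2 := ord_act τ (act τ w) y
  rwa [h1] at h2

open Classical in
variable (K F) in
/-- the residue degree of an unramified place -/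
noncomputable def dg (v : HeightOneSpectrum (𝓞 K)) : ℤ := if Split K F v then 1 else 2

theorem dg_pos (v : HeightOneSpectrum (𝓞 K)) : 0 < dg K F v := by
  rw [dg]
  split_ifs <;> norm_num

/-- The order of a norm in terms of the push-forward of the divisor. -/
theorem ord_nrm_eq (hd : finrank K F = 2) (y : Fˣ) {v : HeightOneSpectrum (𝓞 K)}
    (hv : Unr K F v) :
    ord v (nrm K F y) = dg K F v * Finsupp.mapDomain (below K) (dvs (Additive.ofMul y)) v := by
  classical
  obtain ⟨τ, hτ, hall⟩ := exists_tau (K := K) (F := F) hd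
  obtain ⟨w, rfl⟩ := exists_above (F := F) v
  rw [ord_nrm hτ hall hd y w hv, dg]
  by_cases h : act τ w = w
  · rw [if_neg (by rw [split_iff hall]; exact fun h' => h' h), h,
      mapDomain_fiber (below K) _ (below K w) {w}, Finset.sum_singleton, dvs_apply]
    · ring
    · intro w'
      rw [Finset.mem_singleton]
      constructor
      · intro h'
        rcases eq_or_eq_act hall h'.symm with e | e
        · exact e
        · rw [e, h]
      · rintro rfl; rfl
  · rw [if_pos ((split_iff hall w).2 h),
      mapDomain_fiber (below K) _ (below K w) {w, act τ w}, Finset.sum_pair (Ne.symm h), dvs_apply,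
      dvs_apply]
    · ring
    · intro w'
      rw [Finset.mem_insert, Finset.mem_singleton]
      constructor
      · intro h'
        exact eq_or_eq_act hall h'.symm
      · rintro (rfl | rfl)
        · rfl
        · exact below_act τ w

end quad

end Fermat.Agent.LT.I8
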